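/-
Program F (S55, Poitou–Tate), sub-chapter GLUE, helper21.

Smooth coinduction.  `φ : H →* G` a group homomorphism, `𝓑` a basis of open subgroups of `G`
(`LevelCoh28.LevelBasis`), `A : Rep k H`.  `smCoind φ 𝓑 A : Rep k G` is the subrepresentation of
Mathlib's `Rep.coind φ A` (functions `f : G → A` with `f (φ h * g) = h • f g`, `G` acting by right
translation) of those `f` that are right invariant under some `U ∈ 𝓑`.
-/
import Mathlib
import Fermat.Agent.PT.PRO.LevelCoh28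

set_option autoImplicit false
set_option linter.unusedSectionVars false

namespace Fermat.Agent.PT.GLUE.SmCoind21

open Fermat.Agent.PT.PRO.LevelCoh28

variable {k G H : Type} [CommRing k] [Group G] [Group H]
variable (φ : H →* G) (𝓑 : LevelBasis G) (A : Rep.{0} k H)

/-- The smooth vectors of the coinduced representation. -/
def smoothV : Submodule k (Representation.coindV φ A.ρ) where
  carrier := {f | IsLevel₁ 𝓑.sets (f : G → A)}
  add_mem' hf hf' := hf.add 𝓑.isBasis hf'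
  zero_mem' := isLevel₁_const 𝓑.isBasis (0 : A)
  smul_mem' c _ hf := hf.comp (c • ·)

theorem mem_smoothV (f : Representation.coindV φ A.ρ) :
    f ∈ smoothV φ 𝓑 A ↔ IsLevel₁ 𝓑.sets (f : G → A) := Iff.rfl

theorem coind_apply (γ : G) (f : Representation.coindV φ A.ρ) (g : G) :
    ((Representation.coind φ A.ρ γ f : Representation.coindV φ A.ρ) : G → A) g =
      (f : G → A) (g * γ) := rfl

theorem smoothV_le_comap (γ : G) :
    smoothV φ 𝓑 A ≤ (smoothV φ 𝓑 A).comap ((Rep.coind φ A).ρ γ) := by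
  rintro f ⟨U, hU, hf⟩
  obtain ⟨V, hV, hVU, hn⟩ := 𝓑.isBasis.normalCore U hU
  refine ⟨V, hV, fun g s hs => ?_⟩
  change (f : G → A) (g * s * γ) = (f : G → A) (g * γ)
  have h1 : g * s * γ = g * γ * (γ⁻¹ * s * γ) := by group
  have h2 : γ⁻¹ * s * γ ∈ U := hVU (by simpa using hn.conj_mem s hs γ⁻¹)
  rw [h1, hf _ _ h2]

/-- Smooth coinduction. -/
noncomputable def smCoind : Rep.{0} k G :=
  Rep.subrepresentation (Rep.coind φ A) (smoothV φ 𝓑 A) (smoothV_le_comap φ 𝓑 A)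

/-- The underlying module of `smCoind` is the submodule `smoothV`. -/
noncomputable def equivSmooth : smCoind φ 𝓑 A ≃ₗ[k] smoothV φ 𝓑 A := LinearEquiv.refl k _

/-- The underlying function of an element of the smooth coinduction. -/
noncomputable def toFun (f : smCoind φ 𝓑 A) : G → A :=
  ((equivSmooth φ 𝓑 A f : smoothV φ 𝓑 A) : Representation.coindV φ A.ρ)

variable {φ 𝓑 A}

theorem toFun_injective : Function.Injective (toFun (φ := φ) (𝓑 := 𝓑) (A := A)) :=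
  fun _ _ h => (equivSmooth φ 𝓑 A).injective (Subtype.ext (Subtype.ext h))

@[ext] theorem ext {f f' : smCoind φ 𝓑 A} (h : ∀ g, toFun φ 𝓑 A f g = toFun φ 𝓑 A f' g) : f = f' :=
  toFun_injective (funext h)

theorem toFun_equivariant (f : smCoind φ 𝓑 A) (h : H) (g : G) :
    toFun φ 𝓑 A f (φ h * g) = A.ρ h (toFun φ 𝓑 A f g) :=
  (equivSmooth φ 𝓑 A f).1.2 h g

theorem toFun_isLevel (f : smCoind φ 𝓑 A) : IsLevel₁ 𝓑.sets (toFun φ 𝓑 A f) :=
  (equivSmooth φ 𝓑 A f).2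

@[simp] theorem toFun_ρ (γ : G) (f : smCoind φ 𝓑 A) (g : G) :
    toFun φ 𝓑 A ((smCoind φ 𝓑 A).ρ γ f) g = toFun φ 𝓑 A f (g * γ) := rfl

@[simp] theorem toFun_add (f f' : smCoind φ 𝓑 A) (g : G) :
    toFun φ 𝓑 A (f + f') g = toFun φ 𝓑 A f g + toFun φ 𝓑 A f' g := rfl

@[simp] theorem toFun_zero (g : G) : toFun φ 𝓑 A (0 : smCoind φ 𝓑 A) g = 0 := rfl

@[simp] theorem toFun_smul (c : k) (f : smCoind φ 𝓑 A) (g : G) :
    toFun φ 𝓑 A (c • f) g = c • toFun φ 𝓑 A f g := rfl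

@[simp] theorem toFun_neg (f : smCoind φ 𝓑 A) (g : G) :
    toFun φ 𝓑 A (-f) g = -toFun φ 𝓑 A f g := rfl

@[simp] theorem toFun_sub (f f' : smCoind φ 𝓑 A) (g : G) :
    toFun φ 𝓑 A (f - f') g = toFun φ 𝓑 A f g - toFun φ 𝓑 A f' g := rfl

variable (φ 𝓑 A)

/-- Constructor. -/
noncomputable def mk (f : G → A) (h1 : ∀ h g, f (φ h * g) = A.ρ h (f g))
    (h2 : IsLevel₁ 𝓑.sets f) : smCoind φ 𝓑 A :=
  (equivSmooth φ 𝓑 A).symm (⟨⟨f, h1⟩, h2⟩ : smoothV φ 𝓑 A)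

@[simp] theorem toFun_mk (f : G → A) (h1 : ∀ h g, f (φ h * g) = A.ρ h (f g))
    (h2 : IsLevel₁ 𝓑.sets f) : toFun φ 𝓑 A (mk φ 𝓑 A f h1 h2) = f := rfl

/-- The smooth coinduction is a discrete module. -/
theorem isDiscrete_smCoind : IsDiscrete 𝓑.sets (smCoind φ 𝓑 A) := by
  intro f
  obtain ⟨U, hU, hf⟩ := toFun_isLevel f
  refine ⟨U, hU, fun s hs => ?_⟩
  ext g
  rw [toFun_ρ]
  exact hf g s hs

variable {φ 𝓑 A}

/-- If `f` is right invariant under a normal `U`, its values are fixed by `φ⁻¹ U`. -/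
theorem ρ_toFun_eq_of_invOn (f : smCoind φ 𝓑 A) {U : Subgroup G} (hn : U.Normal)
    (hf : InvOn₁ U (toFun φ 𝓑 A f)) (h : H) (hh : φ h ∈ U) (g : G) :
    A.ρ h (toFun φ 𝓑 A f g) = toFun φ 𝓑 A f g := by
  rw [← toFun_equivariant]
  have h1 : φ h * g = g * (g⁻¹ * φ h * g) := by group
  have h2 : g⁻¹ * φ h * g ∈ U := by simpa using hn.conj_mem _ hh g⁻¹
  rw [h1, hf _ _ h2]

/-- `f` is fixed by `U` iff it is right `U`-invariant. -/
theorem ρ_eq_self_iff (f : smCoind φ 𝓑 A) (U : Subgroup G) :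
    (∀ s ∈ U, (smCoind φ 𝓑 A).ρ s f = f) ↔ InvOn₁ U (toFun φ 𝓑 A f) := by
  constructor
  · intro h g s hs
    have := congrArg (fun f' => toFun φ 𝓑 A f' g) (h s hs)
    simp only [toFun_ρ] at this
    exact this
  · intro h s hs
    ext g
    rw [toFun_ρ]
    exact h g s hs

variable (φ 𝓑 A)

/-- Evaluation at `1`, an `H`-equivariant map to `A`. -/
noncomputable def ev : smCoind φ 𝓑 A →ₗ[k] A where
  toFun f := toFun φ 𝓑 A f 1
  map_add' _ _ := rfl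
  map_smul' _ _ := rfl

theorem ev_apply (f : smCoind φ 𝓑 A) : ev φ 𝓑 A f = toFun φ 𝓑 A f 1 := rfl

theorem ev_ρ (h : H) (f : smCoind φ 𝓑 A) :
    ev φ 𝓑 A ((smCoind φ 𝓑 A).ρ (φ h) f) = A.ρ h (ev φ 𝓑 A f) := by
  rw [ev_apply, toFun_ρ, one_mul, ev_apply, ← toFun_equivariant, mul_one]

/-- Frobenius reciprocity: an `H`-equivariant map from a discrete `G`-module `B` to `A` lifts to
the smooth coinduction. -/
noncomputable def lift {B : Rep.{0} k G} (hB : IsDiscrete 𝓑.sets B) (α : B →ₗ[k] A)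
    (hα : ∀ h b, α (B.ρ (φ h) b) = A.ρ h (α b)) : B →ₗ[k] smCoind φ 𝓑 A where
  toFun b := mk φ 𝓑 A (fun g => α (B.ρ g b))
    (fun h g => by rw [map_mul, Module.End.mul_apply, hα])
    (by
      obtain ⟨U, hU, hb⟩ := hB b
      exact ⟨U, hU, fun g s hs => by
        change α (B.ρ (g * s) b) = α (B.ρ g b)
        rw [map_mul, Module.End.mul_apply, hb s hs]⟩)
  map_add' b b' := by
    ext g
    simp
  map_smul' c b := by
    ext g
    simp

@[simp] theorem toFun_lift {B : Rep.{0} k G} (hB : IsDiscrete 𝓑.sets B) (α : B →ₗ[k] A)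
    (hα : ∀ h b, α (B.ρ (φ h) b) = A.ρ h (α b)) (b : B) (g : G) :
    toFun φ 𝓑 A (lift φ 𝓑 A hB α hα b) g = α (B.ρ g b) := rfl

theorem lift_ρ {B : Rep.{0} k G} (hB : IsDiscrete 𝓑.sets B) (α : B →ₗ[k] A)
    (hα : ∀ h b, α (B.ρ (φ h) b) = A.ρ h (α b)) (γ : G) (b : B) :
    lift φ 𝓑 A hB α hα (B.ρ γ b) = (smCoind φ 𝓑 A).ρ γ (lift φ 𝓑 A hB α hα b) := by
  ext g
  rw [toFun_ρ, toFun_lift, toFun_lift, map_mul, Module.End.mul_apply]

theorem ev_lift {B : Rep.{0} k G} (hB : IsDiscrete 𝓑.sets B) (α : B →ₗ[k] A)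
    (hα : ∀ h b, α (B.ρ (φ h) b) = A.ρ h (α b)) (b : B) :
    ev φ 𝓑 A (lift φ 𝓑 A hB α hα b) = α b := by
  rw [ev_apply, toFun_lift, map_one, Module.End.one_apply]

/-- Functoriality in the coefficients. -/
noncomputable def map {A' : Rep.{0} k H} (α : A →ₗ[k] A') (hα : ∀ h a, α (A.ρ h a) = A'.ρ h (α a)) :
    smCoind φ 𝓑 A →ₗ[k] smCoind φ 𝓑 A' where
  toFun f := mk φ 𝓑 A' (fun g => α (toFun φ 𝓑 A f g))
    (fun h g => by rw [toFun_equivariant, hα])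
    ((toFun_isLevel f).comp α)
  map_add' f f' := by
    ext g
    simp
  map_smul' c f := by
    ext g
    simp

@[simp] theorem toFun_map {A' : Rep.{0} k H} (α : A →ₗ[k] A')
    (hα : ∀ h a, α (A.ρ h a) = A'.ρ h (α a)) (f : smCoind φ 𝓑 A) (g : G) :
    toFun φ 𝓑 A' (map φ 𝓑 A α hα f) g = α (toFun φ 𝓑 A f g) := rfl

theorem map_ρ {A' : Rep.{0} k H} (α : A →ₗ[k] A')
    (hα : ∀ h a, α (A.ρ h a) = A'.ρ h (α a)) (γ : G) (f : smCoind φ 𝓑 A) :
    map φ 𝓑 A α hα ((smCoind φ 𝓑 A).ρ γ f) = (smCoind φ 𝓑 A').ρ γ (map φ 𝓑 A α hα f) := by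
  ext g
  simp

theorem map_injective {A' : Rep.{0} k H} (α : A →ₗ[k] A')
    (hα : ∀ h a, α (A.ρ h a) = A'.ρ h (α a)) (hinj : Function.Injective α) :
    Function.Injective (map φ 𝓑 A α hα) := by
  intro f f' h
  ext g
  apply hinj
  have := congrArg (fun f'' => toFun φ 𝓑 A' f'' g) h
  simpa using this

end Fermat.Agent.PT.GLUE.SmCoind21
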