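/-
Program F (S55, Poitou–Tate), sub-chapter GLUE, helper21: the OBJECTS.

`Γ = Gal(ℚ̄/ℚ)`, `Γ_q = Gal(ℚ̄_q/ℚ_q)`, `r_q = localGaloisToGlobal q : Γ_q →* Γ`.
* level bases (in the sense of `LevelCoh28`): `levelS S` on `Γ` (fixing subgroups of the fields
  unramified outside `S`: EXACTLY the prelude's `IsLevelConstantS₁/₂`), `levelLoc q` on `Γ_q`
  (EXACTLY the prelude's `IsLevelConstant₁/₂ (localGaloisToGlobal q)`), `levelLocS q S` on `Γ_q`
  (pull-back of `levelS S`);
* discrete modules: `unitsLoc q = ℚ̄_qˣ : Rep ℤ Γ_q`, `ES S` (the `S`-units of `ℚ_S`),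
  `ISq S q = smCoind r_q (levelS S) (unitsLoc q)`, `IS S = ∏_{q ∈ S} ISq S q`, the diagonal
  `diag S : ES S → IS S`, and `CS S := IS S / ES S` (Milne's `C_S`, up to prime-to-`p` class
  groups), with the exactness of `0 → ES S → IS S → CS S → 0` in the shape used by `LevelCoh28`.
-/
import Mathlib
import Fermat.Prelude.Def_GroupCohomology_ContinuousUnramified
import Fermat.Agent.PT.PRO.LevelCoh28
import Fermat.Agent.PT.GLUE.SmCoind21
import Fermat.Agent.PT.BR.UnramBridge13
import Fermat.Agent.PT.BR.LocInj13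

set_option autoImplicit false
set_option linter.unusedSectionVars false

namespace Fermat.Agent.PT.GLUE.Objects21

open Fermat.Agent.PT.PRO.LevelCoh28 Fermat.Agent.PT.GLUE.SmCoind21
open Fermat.Agent.PT.BR.UnramBridge13 Fermat.Agent.PT.BR.LocInj13
open scoped IntermediateField

local notation "Qbar" => AlgebraicClosure ℚ
local notation "Γ" => (AlgebraicClosure ℚ ≃ₐ[ℚ] AlgebraicClosure ℚ)

local instance isAlgClosureQbar21 : IsAlgClosure ℚ Qbar := ⟨inferInstance, inferInstance⟩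
local instance normalQbar21 : Normal ℚ Qbar := IsAlgClosure.normal ℚ Qbar
local instance isGaloisQbar21 : IsGalois ℚ Qbar := IsAlgClosure.isGalois ℚ Qbar

/-- `Nat.Primes` carries the primality fact needed to form `ℚ_[q]`. -/
scoped instance instFactPrimes (q : Nat.Primes) : Fact (q : ℕ).Prime := ⟨q.2⟩

/-! ### Level bases -/

section Levels

/-- The fixing subgroups of the finite extensions of `ℚ` unramified outside `S`. -/
def levelSetS (S : Finset Nat.Primes) : Set (Subgroup Γ) :=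
  {U | ∃ F : IntermediateField ℚ Qbar, F.IsUnramifiedOutside S ∧ F.fixingSubgroup = U}

theorem isLevelBasis_levelSetS (S : Finset Nat.Primes) : IsLevelBasis (levelSetS S) where
  nonempty := ⟨_, ⊥, IntermediateField.isUnramifiedOutside_bot S, rfl⟩
  directed := by
    rintro _ ⟨F, hF, rfl⟩ _ ⟨F', hF', rfl⟩
    exact ⟨_, ⟨F ⊔ F', hF.sup hF', rfl⟩, by rw [IntermediateField.fixingSubgroup_sup]⟩
  normalCore := by
    rintro _ ⟨F, hF, rfl⟩
    have := hF.1
    exact ⟨_, ⟨IntermediateField.normalClosure ℚ F Qbar, isUnramifiedOutside_normalClosure hF, rfl⟩,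
      IntermediateField.fixingSubgroup_antitone (IntermediateField.le_normalClosure F),
      haveI := IsGalois.normalClosure ℚ F Qbar
      IsGalois.fixingSubgroup_normal_of_isGalois _⟩
  finiteIndex := by
    rintro _ ⟨F, hF, rfl⟩
    have := hF.1
    refine ⟨?_⟩
    rw [← IntermediateField.finrank_eq_fixingSubgroup_index]
    exact Module.finrank_pos.ne'

/-- The level basis of `Γ` defining `G_S`-cohomology. -/
def levelS (S : Finset Nat.Primes) : LevelBasis Γ := ⟨levelSetS S, isLevelBasis_levelSetS S⟩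

theorem isLevel₁_levelS_iff (S : Finset Nat.Primes) {X : Type*} (f : Γ → X) :
    IsLevel₁ (levelS S).sets f ↔ groupCohomology.IsLevelConstantS₁ S f := by
  constructor
  · rintro ⟨_, ⟨F, hF, rfl⟩, h⟩
    exact ⟨F, hF, fun g s hs => h g s hs⟩
  · rintro ⟨F, hF, h⟩
    exact ⟨_, ⟨F, hF, rfl⟩, fun g s hs => h g s hs⟩

theorem isLevel₂_levelS_iff (S : Finset Nat.Primes) {X : Type*} (f : Γ × Γ → X) :
    IsLevel₂ (levelS S).sets f ↔ groupCohomology.IsLevelConstantS₂ S f := by
  constructor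
  · rintro ⟨_, ⟨F, hF, rfl⟩, h⟩
    exact ⟨F, hF, fun g g' s s' hs hs' => h g g' s hs s' hs'⟩
  · rintro ⟨F, hF, h⟩
    exact ⟨_, ⟨F, hF, rfl⟩, fun g g' s hs s' hs' => h g g' s s' hs hs'⟩

/-- The fixing subgroups of all finite extensions of `ℚ`. -/
def levelSetAll : Set (Subgroup Γ) :=
  {U | ∃ F : IntermediateField ℚ Qbar, FiniteDimensional ℚ F ∧ F.fixingSubgroup = U}

theorem isLevelBasis_levelSetAll : IsLevelBasis levelSetAll where
  nonempty := ⟨_, ⊥, inferInstance, rfl⟩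
  directed := by
    rintro _ ⟨F, hF, rfl⟩ _ ⟨F', hF', rfl⟩
    exact ⟨_, ⟨F ⊔ F', IntermediateField.finiteDimensional_sup F F', rfl⟩,
      by rw [IntermediateField.fixingSubgroup_sup]⟩
  normalCore := by
    rintro _ ⟨F, hF, rfl⟩
    exact ⟨_, ⟨IntermediateField.normalClosure ℚ F Qbar,
      normalClosure.is_finiteDimensional ℚ F Qbar, rfl⟩,
      IntermediateField.fixingSubgroup_antitone (IntermediateField.le_normalClosure F),
      haveI := IsGalois.normalClosure ℚ F Qbar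
      IsGalois.fixingSubgroup_normal_of_isGalois _⟩
  finiteIndex := by
    rintro _ ⟨F, hF, rfl⟩
    refine ⟨?_⟩
    rw [← IntermediateField.finrank_eq_fixingSubgroup_index]
    exact Module.finrank_pos.ne'

/-- All open subgroups of `Γ` (basis). -/
def levelAll : LevelBasis Γ := ⟨levelSetAll, isLevelBasis_levelSetAll⟩

theorem levelSetS_subset_levelSetAll (S : Finset Nat.Primes) : levelSetS S ⊆ levelSetAll := by
  rintro _ ⟨F, hF, rfl⟩
  exact ⟨F, hF.1, rfl⟩

variable {G H : Type} [Group G] [Group H]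

/-- Pull-back of a family of subgroups along a homomorphism. -/
def comapSet (r : H →* G) (𝓤 : Set (Subgroup G)) : Set (Subgroup H) := Subgroup.comap r '' 𝓤

theorem isLevelBasis_comapSet (r : H →* G) {𝓤 : Set (Subgroup G)} (h : IsLevelBasis 𝓤) :
    IsLevelBasis (comapSet r 𝓤) where
  nonempty := h.nonempty.image _
  directed := by
    rintro _ ⟨U, hU, rfl⟩ _ ⟨V, hV, rfl⟩
    obtain ⟨W, hW, hle⟩ := h.directed U hU V hV
    exact ⟨_, ⟨W, hW, rfl⟩, le_inf (Subgroup.comap_mono (hle.trans inf_le_left))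
      (Subgroup.comap_mono (hle.trans inf_le_right))⟩
  normalCore := by
    rintro _ ⟨U, hU, rfl⟩
    obtain ⟨V, hV, hle, hn⟩ := h.normalCore U hU
    exact ⟨_, ⟨V, hV, rfl⟩, Subgroup.comap_mono hle, hn.comap r⟩
  finiteIndex := by
    rintro _ ⟨U, hU, rfl⟩
    have := h.finiteIndex U hU
    refine ⟨?_⟩
    rw [Subgroup.index_comap]
    exact fun h0 => this.index_ne_zero (Subgroup.index_eq_zero_of_relIndex_eq_zero h0)

/-- The pulled-back level basis. -/
def comapBasis (r : H →* G) (𝓑 : LevelBasis G) : LevelBasis H :=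
  ⟨comapSet r 𝓑.sets, isLevelBasis_comapSet r 𝓑.isBasis⟩

theorem isLevel₁_comapBasis_iff (r : H →* G) (𝓑 : LevelBasis G) {X : Type*} (f : H → X) :
    IsLevel₁ (comapBasis r 𝓑).sets f ↔
      ∃ U ∈ 𝓑.sets, ∀ g s, r s ∈ U → f (g * s) = f g := by
  constructor
  · rintro ⟨_, ⟨U, hU, rfl⟩, h⟩
    exact ⟨U, hU, fun g s hs => h g s hs⟩
  · rintro ⟨U, hU, h⟩
    exact ⟨_, ⟨U, hU, rfl⟩, fun g s hs => h g s hs⟩

end Levels

section LocalLevels

variable (q : ℕ) [Fact q.Prime]

local notation "Γq" => (PadicAlgCl q ≃ₐ[ℚ_[q]] PadicAlgCl q)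

/-- All open subgroups of `Γ_q` (basis): pull-back of all finite levels of `Γ` (Krasner). -/
noncomputable def levelLoc : LevelBasis Γq := comapBasis (localGaloisToGlobal q) levelAll

/-- The levels of `Γ_q` coming from `G_S`. -/
noncomputable def levelLocS (S : Finset Nat.Primes) : LevelBasis Γq :=
  comapBasis (localGaloisToGlobal q) (levelS S)

theorem isLevel₁_levelLoc_iff {X : Type*} (f : Γq → X) :
    IsLevel₁ (levelLoc q).sets f ↔ groupCohomology.IsLevelConstant₁ (localGaloisToGlobal q) f := by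
  rw [levelLoc, isLevel₁_comapBasis_iff]
  constructor
  · rintro ⟨_, ⟨F, hF, rfl⟩, h⟩
    exact ⟨F, hF, fun g s hs => h g s hs⟩
  · rintro ⟨F, hF, h⟩
    exact ⟨_, ⟨F, hF, rfl⟩, fun g s hs => h g s hs⟩

end LocalLevels

/-! ### Products of representations -/

section Pi

variable {k G : Type} [CommRing k] [Group G]

/-- Linear maps between (the underlying modules of) representations, FOR THE MODULE STRUCTURES
CARRIED BY `Rep` (for `k = ℤ` plain `A →ₗ[ℤ] B` would elaborate to `AddCommGroup.toIntModule`,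
which is only propositionally/deeply-definitionally the same). -/
abbrev Lin {k G H : Type} [CommRing k] [Monoid G] [Monoid H] (A : Rep.{0} k G) (B : Rep.{0} k H) :
    Type := A →ₗ[k] B

/-- The product of a family of representations. -/
noncomputable def piRep {ι : Type} (A : ι → Rep.{0} k G) : Rep.{0} k G :=
  Rep.of (X := ∀ i, A i)
    { toFun := fun g => LinearMap.pi fun i => ((A i).ρ g).comp (LinearMap.proj i)
      map_one' := by ext; simp
      map_mul' := fun g h => by ext; simp }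

/-- The underlying module of `piRep` is the product. -/
noncomputable def piEquiv {ι : Type} (A : ι → Rep.{0} k G) : piRep A ≃ₗ[k] (∀ i, A i) :=
  LinearEquiv.refl k _

@[simp] theorem piEquiv_ρ {ι : Type} (A : ι → Rep.{0} k G) (g : G) (x : piRep A) (i : ι) :
    piEquiv A ((piRep A).ρ g x) i = (A i).ρ g (piEquiv A x i) := rfl

theorem isDiscrete_piRep {ι : Type} [Finite ι] {𝓤 : Set (Subgroup G)} (h𝓤 : IsLevelBasis 𝓤)
    (A : ι → Rep.{0} k G) (hA : ∀ i, IsDiscrete 𝓤 (A i)) : IsDiscrete 𝓤 (piRep A) := by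
  intro x
  choose U hU hx using fun i => hA i (piEquiv A x i)
  have key : ∀ t : Finset ι, ∃ W ∈ 𝓤, ∀ i ∈ t, W ≤ U i := by
    classical
    intro t
    induction t using Finset.induction_on with
    | empty =>
      obtain ⟨W, hW⟩ := h𝓤.nonempty
      exact ⟨W, hW, fun i hi => absurd hi (Finset.notMem_empty i)⟩
    | insert a t _ ih =>
      obtain ⟨W, hW, hWt⟩ := ih
      obtain ⟨W', hW', hle⟩ := h𝓤.directed W hW (U a) (hU a)
      refine ⟨W', hW', fun i hi => ?_⟩
      rcases Finset.mem_insert.1 hi with rfl | hi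
      · exact hle.trans inf_le_right
      · exact (hle.trans inf_le_left).trans (hWt i hi)
  cases nonempty_fintype ι
  obtain ⟨W, hW, hWU⟩ := key Finset.univ
  refine ⟨W, hW, fun s hs => ?_⟩
  apply (piEquiv A).injective
  funext i
  rw [piEquiv_ρ]
  exact hx i s (hWU i (Finset.mem_univ i) hs)

end Pi

/-! ### The modules -/

section Modules

/-- `ℚ̄_qˣ` as a `Γ_q`-module. -/
noncomputable def unitsLoc (q : ℕ) [Fact q.Prime] :
    Rep.{0} ℤ (PadicAlgCl q ≃ₐ[ℚ_[q]] PadicAlgCl q) :=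
  Rep.ofMulDistribMulAction (PadicAlgCl q ≃ₐ[ℚ_[q]] PadicAlgCl q) (PadicAlgCl q)ˣ

/-- `ℚ̄_qˣ` is a discrete `Γ_q`-module (Krasner). -/
theorem isDiscrete_unitsLoc (q : ℕ) [Fact q.Prime] :
    IsDiscrete (levelLoc q).sets (unitsLoc q) := by
  intro a
  obtain ⟨β, hβ⟩ := exists_mem_adjoin_padicEmbedding q
    ((Additive.toMul (α := (PadicAlgCl q)ˣ) a : (PadicAlgCl q)ˣ) : PadicAlgCl q)
  refine ⟨_, ⟨_, ⟨ℚ⟮β⟯, ?_, rfl⟩, rfl⟩, fun s hs => ?_⟩
  · exact IntermediateField.adjoin.finiteDimensional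
      ((AlgebraicClosure.isAlgebraic ℚ).isIntegral.isIntegral β)
  · have h1 : s (padicEmbedding q β) = padicEmbedding q β := by
      rw [← padicEmbedding_localGaloisToGlobal]
      congr 1
      exact (IntermediateField.mem_fixingSubgroup_iff _ _).1 hs β
        (IntermediateField.mem_adjoin_simple_self ℚ β)
    have h2 : ∀ y ∈ ℚ_[q]⟮padicEmbedding q β⟯, s y = y := by
      intro y hy
      induction hy using IntermediateField.adjoin_induction with
      | mem x hx => rw [Set.mem_singleton_iff.1 hx, h1]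
      | algebraMap x => exact s.commutes x
      | add x y _ _ hx hy => rw [map_add, hx, hy]
      | mul x y _ _ hx hy => rw [map_mul, hx, hy]
      | inv x _ hx => rw [map_inv₀, hx]
    change Additive.ofMul (s • Additive.toMul (α := (PadicAlgCl q)ˣ) a) = a
    apply Additive.toMul.injective
    apply Units.ext
    exact h2 _ hβ

variable (S : Finset Nat.Primes)

/-- The product of the primes of `S`. -/
def prodS : ℕ := ∏ q ∈ S, (q : ℕ)

/-- `x ∈ ℚ̄` is integral outside `S`: some power of `∏ S` times `x` is an algebraic integer. -/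
def IsSInt (x : Qbar) : Prop := ∃ n : ℕ, IsIntegral ℤ (((prodS S : ℕ) : Qbar) ^ n * x)

/-- `x` lies in a finite extension of `ℚ` unramified outside `S` (i.e. `x ∈ ℚ_S`). -/
def InQS (x : Qbar) : Prop :=
  ∃ F : IntermediateField ℚ Qbar, F.IsUnramifiedOutside S ∧ x ∈ F

variable {S}

theorem IsSInt.mul {x y : Qbar} (hx : IsSInt S x) (hy : IsSInt S y) : IsSInt S (x * y) := by
  obtain ⟨n, hn⟩ := hx
  obtain ⟨m, hm⟩ := hy
  refine ⟨n + m, ?_⟩
  have : ((prodS S : ℕ) : Qbar) ^ (n + m) * (x * y) =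
      (((prodS S : ℕ) : Qbar) ^ n * x) * (((prodS S : ℕ) : Qbar) ^ m * y) := by ring
  rw [this]
  exact hn.mul hm

theorem isSInt_one : IsSInt S (1 : Qbar) := ⟨0, by simpa using isIntegral_one⟩

theorem IsSInt.map {x : Qbar} (hx : IsSInt S x) (g : Γ) : IsSInt S (g x) := by
  obtain ⟨n, hn⟩ := hx
  refine ⟨n, ?_⟩
  have : ((prodS S : ℕ) : Qbar) ^ n * g x = g (((prodS S : ℕ) : Qbar) ^ n * x) := by
    rw [map_mul, map_pow, map_natCast]
  rw [this]
  exact map_isIntegral_int (g : Qbar →+* Qbar) hn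

theorem InQS.mul {x y : Qbar} (hx : InQS S x) (hy : InQS S y) : InQS S (x * y) := by
  obtain ⟨F, hF, hxF⟩ := hx
  obtain ⟨F', hF', hyF'⟩ := hy
  exact ⟨F ⊔ F', hF.sup hF', mul_mem ((le_sup_left : F ≤ F ⊔ F') hxF)
    ((le_sup_right : F' ≤ F ⊔ F') hyF')⟩

theorem inQS_one : InQS S (1 : Qbar) := ⟨⊥, IntermediateField.isUnramifiedOutside_bot S, one_mem _⟩

theorem InQS.inv {x : Qbar} (hx : InQS S x) : InQS S x⁻¹ := by
  obtain ⟨F, hF, hxF⟩ := hx
  exact ⟨F, hF, inv_mem hxF⟩

theorem InQS.map {x : Qbar} (hx : InQS S x) (g : Γ) : InQS S (g x) := by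
  obtain ⟨F, hF, hxF⟩ := hx
  exact ⟨F.map (g : Qbar →ₐ[ℚ] Qbar), isUnramifiedOutside_map hF g, ⟨x, hxF, rfl⟩⟩

variable (S)

/-- The group `E_S` of `S`-units of `ℚ_S`, inside `ℚ̄ˣ`. -/
def ESgroup : Subgroup Qbarˣ where
  carrier := {u | InQS S (u : Qbar) ∧ IsSInt S (u : Qbar) ∧ IsSInt S ((u⁻¹ : Qbarˣ) : Qbar)}
  mul_mem' {u v} hu hv := by
    refine ⟨?_, ?_, ?_⟩
    · rw [Units.val_mul]; exact hu.1.mul hv.1
    · rw [Units.val_mul]; exact hu.2.1.mul hv.2.1
    · rw [mul_inv, Units.val_mul]; exact hu.2.2.mul hv.2.2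
  one_mem' := ⟨by rw [Units.val_one]; exact inQS_one, by rw [Units.val_one]; exact isSInt_one,
    by rw [inv_one, Units.val_one]; exact isSInt_one⟩
  inv_mem' {u} hu := ⟨by rw [Units.val_inv_eq_inv_val]; exact hu.1.inv, hu.2.2,
    by rw [inv_inv]; exact hu.2.1⟩

theorem mem_ESgroup_iff (u : Qbarˣ) :
    u ∈ ESgroup S ↔
      InQS S (u : Qbar) ∧ IsSInt S (u : Qbar) ∧ IsSInt S ((u⁻¹ : Qbarˣ) : Qbar) := Iff.rfl

theorem smul_mem_ESgroup (g : Γ) {u : Qbarˣ} (hu : u ∈ ESgroup S) : g • u ∈ ESgroup S :=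
  ⟨hu.1.map g, hu.2.1.map g, by rw [← smul_inv']; exact hu.2.2.map g⟩

/-- The Galois action on `E_S`. -/
noncomputable instance instActionES : MulDistribMulAction Γ (ESgroup S) where
  smul g u := ⟨g • (u : Qbarˣ), smul_mem_ESgroup S g u.2⟩
  one_smul _ := Subtype.ext (one_smul _ _)
  mul_smul _ _ _ := Subtype.ext (mul_smul _ _ _)
  smul_mul _ _ _ := Subtype.ext (smul_mul' _ _ _)
  smul_one _ := Subtype.ext (smul_one _)

@[simp] theorem coe_smul_ES (g : Γ) (u : ESgroup S) :
    ((g • u : ESgroup S) : Qbarˣ) = g • (u : Qbarˣ) := rfl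

/-- `E_S` as a `Γ`-module. -/
noncomputable def ES : Rep.{0} ℤ Γ := Rep.ofMulDistribMulAction Γ (ESgroup S)

theorem isDiscrete_ES : IsDiscrete (levelS S).sets (ES S) := by
  intro a
  obtain ⟨F, hF, hu⟩ := (Additive.toMul (α := ESgroup S) a).2.1
  refine ⟨_, ⟨F, hF, rfl⟩, fun s hs => ?_⟩
  change Additive.ofMul (s • Additive.toMul (α := ESgroup S) a) = a
  apply Additive.toMul.injective
  apply Subtype.ext
  apply Units.ext
  exact (IntermediateField.mem_fixingSubgroup_iff _ _).1 hs _ hu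

end Modules

/-! ### The `S`-ideles `I_S`, the diagonal, and `C_S = I_S / E_S` -/

section Ideles

variable (S : Finset Nat.Primes)

/-- The `q`-component of `I_S`: smooth coinduction of `ℚ̄_qˣ` from `Γ_q` to `Γ` (levels of `G_S`). -/
noncomputable abbrev ISq (q : ℕ) [Fact q.Prime] : Rep.{0} ℤ Γ :=
  smCoind (localGaloisToGlobal q) (levelS S) (unitsLoc q)

theorem isDiscrete_ISq (q : ℕ) [Fact q.Prime] : IsDiscrete (levelS S).sets (ISq S q) :=
  isDiscrete_smCoind _ _ _

/-- `I_S = ∏_{q ∈ S} Coind^{sm}_{Γ_q → Γ} ℚ̄_qˣ`. -/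
noncomputable def IS : Rep.{0} ℤ Γ := piRep fun q : ↥S => ISq S ((q : Nat.Primes) : ℕ)

theorem isDiscrete_IS : IsDiscrete (levelS S).sets (IS S) :=
  isDiscrete_piRep (levelS S).isBasis _ fun q => isDiscrete_ISq S ((q : Nat.Primes) : ℕ)

/-- The components of an element of `I_S`. -/
noncomputable def ISequiv : IS S ≃ₗ[ℤ] (∀ q : ↥S, ISq S ((q : Nat.Primes) : ℕ)) :=
  piEquiv (k := ℤ) fun q : ↥S => ISq S ((q : Nat.Primes) : ℕ)

@[simp] theorem ISequiv_ρ (g : Γ) (x : IS S) (q : ↥S) :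
    ISequiv S ((IS S).ρ g x) q = (ISq S ((q : Nat.Primes) : ℕ)).ρ g (ISequiv S x q) := rfl

/-- The local embedding `E_S → ℚ̄_qˣ`. -/
noncomputable def locE (q : ℕ) [Fact q.Prime] : Lin (ES S) (unitsLoc q) :=
  (MonoidHom.toAdditive ((Units.map ((padicEmbedding q : Qbar →+* PadicAlgCl q) :
    Qbar →* PadicAlgCl q)).comp (ESgroup S).subtype)).toIntLinearMap

theorem locE_apply (q : ℕ) [Fact q.Prime] (b : ES S) :
    (((Additive.toMul (α := (PadicAlgCl q)ˣ) (locE S q b)) : (PadicAlgCl q)ˣ) : PadicAlgCl q) =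
      padicEmbedding q (((Additive.toMul (α := ESgroup S) b : ESgroup S) : Qbarˣ) : Qbar) := rfl

theorem locE_ρ (q : ℕ) [Fact q.Prime] (h : PadicAlgCl q ≃ₐ[ℚ_[q]] PadicAlgCl q) (b : ES S) :
    locE S q ((ES S).ρ (localGaloisToGlobal q h) b) = (unitsLoc q).ρ h (locE S q b) := by
  apply Additive.toMul.injective
  apply Units.ext
  exact padicEmbedding_localGaloisToGlobal q h _

theorem locE_injective (q : ℕ) [Fact q.Prime] : Function.Injective (locE S q) := by
  intro b b' h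
  apply Additive.toMul.injective
  apply Subtype.ext
  apply Units.ext
  apply (padicEmbedding q).injective
  have := congrArg (fun c => (((Additive.toMul (α := (PadicAlgCl q)ˣ) c) : (PadicAlgCl q)ˣ) :
    PadicAlgCl q)) h
  exact this

/-- The `q`-component of the diagonal `E_S → I_S`: `x ↦ (g ↦ ι_q (g x))`. -/
noncomputable def diagq (q : ℕ) [Fact q.Prime] : Lin (ES S) (ISq S q) :=
  lift _ _ _ (isDiscrete_ES S) (locE S q) (locE_ρ S q)

theorem toFun_diagq (q : ℕ) [Fact q.Prime] (b : ES S) (g : Γ) :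
    SmCoind21.toFun _ _ _ (diagq S q b) g = locE S q ((ES S).ρ g b) := rfl

theorem diagq_ρ (q : ℕ) [Fact q.Prime] (g : Γ) (b : ES S) :
    diagq S q ((ES S).ρ g b) = (ISq S q).ρ g (diagq S q b) :=
  lift_ρ _ _ _ _ _ _ g b

theorem diagq_injective (q : ℕ) [Fact q.Prime] : Function.Injective (diagq S q) := by
  intro b b' h
  apply locE_injective S q
  have := congrArg (ev _ _ _) h
  exact (ev_lift _ _ _ (isDiscrete_ES S) (locE S q) (locE_ρ S q) b).symm.trans
    (this.trans (ev_lift _ _ _ (isDiscrete_ES S) (locE S q) (locE_ρ S q) b'))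

/-- The diagonal `E_S → I_S`. -/
noncomputable def diag : Lin (ES S) (IS S) :=
  (piEquiv (k := ℤ) fun q : ↥S => ISq S ((q : Nat.Primes) : ℕ)).symm.toLinearMap ∘ₗ
    LinearMap.pi fun q : ↥S => diagq S ((q : Nat.Primes) : ℕ)

@[simp] theorem ISequiv_diag (b : ES S) (q : ↥S) :
    ISequiv S (diag S b) q = diagq S ((q : Nat.Primes) : ℕ) b := rfl

theorem diag_ρ (g : Γ) (b : ES S) : diag S ((ES S).ρ g b) = (IS S).ρ g (diag S b) := by
  apply (ISequiv S).injective
  funext q
  rw [ISequiv_diag, ISequiv_ρ, ISequiv_diag, diagq_ρ]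

theorem diag_injective (hS : S.Nonempty) : Function.Injective (diag S) := by
  obtain ⟨q, hq⟩ := hS
  intro b b' h
  apply diagq_injective S (q : ℕ)
  have := congrFun (congrArg (ISequiv S) h) ⟨q, hq⟩
  exact this

theorem range_diag_le_comap (g : Γ) :
    LinearMap.range (diag S) ≤ (LinearMap.range (diag S)).comap ((IS S).ρ g) := by
  rintro _ ⟨b, rfl⟩
  exact ⟨(ES S).ρ g b, diag_ρ S g b⟩

/-- `C_S := I_S / E_S` as a `Γ`-module. -/
noncomputable def CS : Rep.{0} ℤ Γ :=
  Rep.quotient (IS S) (LinearMap.range (diag S)) (range_diag_le_comap S)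

/-- The projection `I_S → C_S`. -/
noncomputable def toCS : Lin (IS S) (CS S) := (LinearMap.range (diag S)).mkQ

theorem toCS_ρ (g : Γ) (x : IS S) : toCS S ((IS S).ρ g x) = (CS S).ρ g (toCS S x) := rfl

theorem toCS_surjective : Function.Surjective (toCS S) := Submodule.mkQ_surjective _

theorem toCS_eq_zero_iff (x : IS S) : toCS S x = 0 ↔ ∃ b, diag S b = x :=
  (Submodule.Quotient.mk_eq_zero (LinearMap.range (diag S))).trans LinearMap.mem_range

theorem isDiscrete_CS : IsDiscrete (levelS S).sets (CS S) := by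
  intro c
  obtain ⟨x, rfl⟩ := toCS_surjective S c
  obtain ⟨U, hU, hx⟩ := isDiscrete_IS S x
  exact ⟨U, hU, fun s hs => by rw [← toCS_ρ, hx s hs]⟩

/-- The connecting map `H¹(G_S, C_S) → H²(G_S, E_S)` of `0 → E_S → I_S → C_S → 0`, as delivered
by `LevelCoh28` (sanity check that the objects plug into PRO's framework). -/
noncomputable def deltaS (hS : S.Nonempty) :
    H1 (levelS S) (CS S) →ₗ[ℤ] H2 (levelS S) (ES S) :=
  delta (diag S) (diag_ρ S) (toCS S) (toCS_ρ S) (diag_injective S hS) (toCS_surjective S)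
    (toCS_eq_zero_iff S) (isDiscrete_IS S)

theorem ker_deltaS (hS : S.Nonempty) :
    LinearMap.ker (deltaS S hS) = LinearMap.range (mapH1 (𝓑 := levelS S) (toCS S) (toCS_ρ S)) :=
  ker_delta _ _ _ _ _ _ _ _

end Ideles

end Fermat.Agent.PT.GLUE.Objects21
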