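/-
Program F (S55), chapter GLUE, helper13.

Glue between the two smooth coinductions (`GLUE/SmCoind21.smCoind`, used for `I_S`, and
`PRO/SmoothCoind28.scoind`, used for Shapiro) and the local comparison map.

For `φ : H →* G`, a level basis `𝓑` of `G`, an `H`-module `A` and the inclusion `ι : A' → A` of the
invariants under a normal subgroup `N ≤ H` contained in all `φ⁻¹ U`, `U ∈ 𝓑`:

* `coindEquiv`: `smCoind φ 𝓑 A ≃ scoind φ 𝓑 A`, equivariant, compatible with evaluation at `1`;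
* `map_bijective_of_isInvIncl`: `smCoind φ 𝓑 A' → smCoind φ 𝓑 A` is bijective (the values of a
  smooth coinduced function are automatically `N`-invariant);
* `loc1_bijective`, `loc2_injective`: the localisation maps
  `H^r(𝓑; smCoind φ 𝓑 A) → H^r(𝓑H; A)` (pull back along `φ`, evaluate at `1`) are bijective for
  `r = 1` and injective for `r = 2` (Shapiro for `A'` + inflation `InfLevelRep13`), if `𝓑H'` is the
  basis of `H` induced by `𝓑`, `IsInfData 𝓑H 𝓑H' N` and Hilbert 90 holds for `(N, A)`.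
-/
import Mathlib
import Fermat.Agent.PT.PRO.LevelCoh28
import Fermat.Agent.PT.PRO.LevelCohRes28
import Fermat.Agent.PT.PRO.SmoothCoind28
import Fermat.Agent.PT.PRO.ShapiroLevel28
import Fermat.Agent.PT.GLUE.SmCoind21
import Fermat.Agent.PT.PRO.InfLevel13
import Fermat.Agent.PT.PRO.InfLevelRep13

set_option autoImplicit false

namespace Fermat.Agent.PT.GLUE.CoindCompare13

open Function
open Fermat.Agent.PT.PRO Fermat.Agent.PT.GLUE
open Fermat.Agent.PT.PRO.LevelCoh28 Fermat.Agent.PT.PRO.LevelCohRes28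
open Fermat.Agent.PT.PRO.InfLevel13

variable {k G H : Type} [CommRing k] [Group G] [Group H]

/-! ### Coefficient isomorphisms induce isomorphisms on level cohomology -/

section MapEquiv

variable {𝓑 : LevelBasis G} {A B : Rep.{0} k G} (e : A ≃ₗ[k] B)
  (he : ∀ g a, e (A.ρ g a) = B.ρ g (e a))

include he in
theorem symm_equivariant (g : G) (b : B) : e.symm (B.ρ g b) = A.ρ g (e.symm b) := by
  apply e.injective
  rw [he, e.apply_symm_apply, e.apply_symm_apply]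

theorem mapH1_bijective : Bijective (mapH1 (𝓑 := 𝓑) e.toLinearMap he) := by
  refine Function.bijective_iff_has_inverse.2
    ⟨mapH1 (𝓑 := 𝓑) e.symm.toLinearMap (symm_equivariant e he), fun x => ?_, fun x => ?_⟩
  · obtain ⟨c, rfl⟩ := H1mk_surjective 𝓑 A x
    rw [mapH1_mk, mapH1_mk]
    congr 1
    apply Subtype.ext
    funext g
    exact e.symm_apply_apply _
  · obtain ⟨c, rfl⟩ := H1mk_surjective 𝓑 B x
    rw [mapH1_mk, mapH1_mk]
    congr 1
    apply Subtype.ext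
    funext g
    exact e.apply_symm_apply _

theorem mapH2_bijective : Bijective (mapH2 (𝓑 := 𝓑) e.toLinearMap he) := by
  refine Function.bijective_iff_has_inverse.2
    ⟨mapH2 (𝓑 := 𝓑) e.symm.toLinearMap (symm_equivariant e he), fun x => ?_, fun x => ?_⟩
  · obtain ⟨c, rfl⟩ := H2mk_surjective 𝓑 A x
    rw [mapH2_mk, mapH2_mk]
    congr 1
    apply Subtype.ext
    funext g
    exact e.symm_apply_apply _
  · obtain ⟨c, rfl⟩ := H2mk_surjective 𝓑 B x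
    rw [mapH2_mk, mapH2_mk]
    congr 1
    apply Subtype.ext
    funext g
    exact e.apply_symm_apply _

end MapEquiv

/-! ### The two smooth coinductions -/

section Dict

variable (φ : H →* G) (𝓑 : LevelBasis G) (A : Rep.{0} k H)

/-- `SmCoind21.smCoind` and `SmoothCoind28.scoind` are the same module of functions. -/
noncomputable def coindEquiv : SmCoind21.smCoind φ 𝓑 A ≃ₗ[k] SmoothCoind28.scoind φ 𝓑 A where
  toFun f := ⟨SmCoind21.toFun φ 𝓑 A f, SmCoind21.toFun_equivariant f, SmCoind21.toFun_isLevel f⟩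
  map_add' _ _ := rfl
  map_smul' _ _ := rfl
  invFun f := SmCoind21.mk φ 𝓑 A f.1 f.2.1 f.2.2
  left_inv _ := SmCoind21.ext fun _ => rfl
  right_inv _ := Subtype.ext rfl

@[simp] theorem coe_coindEquiv (f : SmCoind21.smCoind φ 𝓑 A) :
    (coindEquiv φ 𝓑 A f).1 = SmCoind21.toFun φ 𝓑 A f := rfl

theorem coindEquiv_ρ (γ : G) (f : SmCoind21.smCoind φ 𝓑 A) :
    coindEquiv φ 𝓑 A ((SmCoind21.smCoind φ 𝓑 A).ρ γ f) =
      (SmoothCoind28.scoind φ 𝓑 A).ρ γ (coindEquiv φ 𝓑 A f) :=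
  Subtype.ext (funext fun _ => rfl)

theorem ev_coindEquiv (f : SmCoind21.smCoind φ 𝓑 A) :
    SmoothCoind28.ev φ 𝓑 A (coindEquiv φ 𝓑 A f) = SmCoind21.ev φ 𝓑 A f := rfl

end Dict

/-! ### Smooth coinduced functions take `N`-invariant values -/

section Invariants

variable (φ : H →* G) (𝓑 : LevelBasis G) {A A' : Rep.{0} k H} {N : Subgroup H} {ι : A' →ₗ[k] A}

theorem map_bijective_of_isInvIncl (hι : IsInvIncl N A'.ρ A.ρ ι)
    (hN : ∀ U ∈ 𝓑.sets, N ≤ U.comap φ) :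
    Bijective (SmCoind21.map φ 𝓑 A' ι hι.comm) := by
  refine ⟨SmCoind21.map_injective φ 𝓑 A' ι hι.comm hι.inj, fun f => ?_⟩
  obtain ⟨U, hU, hf⟩ := SmCoind21.toFun_isLevel f
  obtain ⟨V, hV, hVU, hn⟩ := 𝓑.isBasis.normalCore U hU
  have hfix : ∀ g, ∀ n ∈ N, A.ρ n (SmCoind21.toFun φ 𝓑 A f g) = SmCoind21.toFun φ 𝓑 A f g :=
    fun g n hn' => SmCoind21.ρ_toFun_eq_of_invOn f hn (hf.mono hVU) n (hN V hV hn') g
  obtain ⟨f', hf'⟩ := hι.exists_factor _ hfix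
  have h1 : ∀ h g, f' (φ h * g) = A'.ρ h (f' g) := by
    intro h g
    apply hι.inj
    have e1 := congrFun hf' (φ h * g)
    have e2 := congrFun hf' g
    simp only [comp_apply] at e1 e2
    rw [e1, hι.comm, e2, SmCoind21.toFun_equivariant]
  have h2 : IsLevel₁ 𝓑.sets f' := by
    refine ⟨U, hU, fun g s hs => hι.inj ?_⟩
    have e1 := congrFun hf' (g * s)
    have e2 := congrFun hf' g
    simp only [comp_apply] at e1 e2
    rw [e1, e2, hf g s hs]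
  refine ⟨SmCoind21.mk φ 𝓑 A' f' h1 h2, SmCoind21.ext fun g => ?_⟩
  exact congrFun hf' g

end Invariants

/-! ### The localisation maps `H^r(𝓑; smCoind φ 𝓑 A) → H^r(𝓑H; A)` -/

section Loc

variable {𝓑H 𝓑H' : LevelBasis H} {A A' : Rep.{0} k H} {N : Subgroup H} {ι : A' →ₗ[k] A}

/-- The invariants `A'` of a `𝓑H`-discrete module are `𝓑H'`-discrete. -/
theorem isDiscrete_of_isInvIncl (hd : IsInfData 𝓑H.sets 𝓑H'.sets N)
    (hι : IsInvIncl N A'.ρ A.ρ ι) (hA : IsDiscrete 𝓑H.sets A) : IsDiscrete 𝓑H'.sets A' := by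
  intro a
  obtain ⟨V, hV, hfix⟩ := hA (ι a)
  obtain ⟨V', hV', hle⟩ := hd.cpt V hV
  let St : Subgroup H :=
    { carrier := {s | A.ρ s (ι a) = ι a}
      mul_mem' := fun {x y} hx hy => by
        show A.ρ (x * y) (ι a) = ι a
        rw [map_mul, Module.End.mul_apply, hy, hx]
      one_mem' := by
        show A.ρ 1 (ι a) = ι a
        rw [map_one, Module.End.one_apply]
      inv_mem' := fun {x} hx => by
        show A.ρ x⁻¹ (ι a) = ι a
        have h1 : A.ρ x⁻¹ (A.ρ x (ι a)) = ι a := by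
          rw [← Module.End.mul_apply, ← map_mul, inv_mul_cancel, map_one, Module.End.one_apply]
        rwa [hx] at h1 }
  have hsup : V ⊔ N ≤ St := sup_le (fun s hs => hfix s hs) (fun n hn => hι.fixed n hn a)
  refine ⟨V', hV', fun s hs => hι.inj ?_⟩
  rw [hι.comm]
  exact hsup (hle hs)

variable (φ : H →* G) (𝓑 : LevelBasis G) (hcont : IsLevelHom φ 𝓑H.sets 𝓑.sets)

/-- Localisation on `H¹`: pull back along `φ`, evaluate at `1`. -/
noncomputable def loc1 (A : Rep.{0} k H) : H1 𝓑 (SmCoind21.smCoind φ 𝓑 A) →ₗ[k] H1 𝓑H A :=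
  ppH1 φ (SmCoind21.ev φ 𝓑 A) (SmCoind21.ev_ρ φ 𝓑 A) hcont

/-- Localisation on `H²`. -/
noncomputable def loc2 (A : Rep.{0} k H) : H2 𝓑 (SmCoind21.smCoind φ 𝓑 A) →ₗ[k] H2 𝓑H A :=
  ppH2 φ (SmCoind21.ev φ 𝓑 A) (SmCoind21.ev_ρ φ 𝓑 A) hcont

variable (hcont' : IsLevelHom φ 𝓑H'.sets 𝓑.sets)
  (hd : IsInfData 𝓑H.sets 𝓑H'.sets N) (hι : IsInvIncl N A'.ρ A.ρ ι)

include hcont' hd in
theorem le_comap_of_isInfData {U : Subgroup G} (hU : U ∈ 𝓑.sets) : N ≤ U.comap φ := by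
  obtain ⟨V', hV', hle⟩ := hcont' U hU
  exact (hd.N_le V' hV').trans hle

/-- The factorisation of `loc1` through Shapiro and inflation. -/
theorem loc1_mapH1 (x : H1 𝓑 (SmCoind21.smCoind φ 𝓑 A')) :
    loc1 φ 𝓑 hcont A (mapH1 (SmCoind21.map φ 𝓑 A' ι hι.comm) (SmCoind21.map_ρ φ 𝓑 A' ι hι.comm) x) =
      InfLevelRep13.inf1 hd hι (ShapiroLevel28.sh1 φ 𝓑 𝓑H' hcont' A'
        (mapH1 (coindEquiv φ 𝓑 A').toLinearMap (coindEquiv_ρ φ 𝓑 A') x)) := by
  obtain ⟨c, rfl⟩ := H1mk_surjective 𝓑 _ x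
  rfl

/-- The factorisation of `loc2` through Shapiro and inflation. -/
theorem loc2_mapH2 (x : H2 𝓑 (SmCoind21.smCoind φ 𝓑 A')) :
    loc2 φ 𝓑 hcont A (mapH2 (SmCoind21.map φ 𝓑 A' ι hι.comm) (SmCoind21.map_ρ φ 𝓑 A' ι hι.comm) x) =
      InfLevelRep13.inf2 hd hι (ShapiroLevel28.sh2 φ 𝓑 𝓑H' hcont' A'
        (mapH2 (coindEquiv φ 𝓑 A').toLinearMap (coindEquiv_ρ φ 𝓑 A') x)) := by
  obtain ⟨c, rfl⟩ := H2mk_surjective 𝓑 _ x
  rfl

variable (hind : ∀ V ∈ 𝓑H'.sets, ∃ U ∈ 𝓑.sets, U.comap φ ≤ V) [N.Normal]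
  (hA : IsDiscrete 𝓑H.sets A) (h90 : H90 𝓑H.sets N A.ρ)

include hcont' hd hι hind hA h90 in
/-- **`loc1` is bijective**: `H¹(𝓑; smCoind φ 𝓑 A) ≅ H¹(𝓑H; A)`. -/
theorem loc1_bijective : Bijective (loc1 φ 𝓑 hcont A) := by
  have hm := map_bijective_of_isInvIncl φ 𝓑 hι
    (fun U hU => le_comap_of_isInfData φ 𝓑 hcont' hd hU)
  let m := LinearEquiv.ofBijective (SmCoind21.map φ 𝓑 A' ι hι.comm) hm
  have hmb : Bijective (mapH1 (𝓑 := 𝓑) m.toLinearMap (SmCoind21.map_ρ φ 𝓑 A' ι hι.comm)) :=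
    mapH1_bijective m _
  have heb := mapH1_bijective (𝓑 := 𝓑) (coindEquiv φ 𝓑 A') (coindEquiv_ρ φ 𝓑 A')
  have hsh := ShapiroLevel28.sh1_bijective φ 𝓑 𝓑H' hcont' hind A'
    (isDiscrete_of_isInvIncl hd hι hA)
  have hinf := InfLevelRep13.inf1_bijective hd hι hA h90
  have key := loc1_mapH1 φ 𝓑 hcont hcont' hd hι
  constructor
  · intro y y' hyy'
    obtain ⟨x, rfl⟩ := hmb.2 y
    obtain ⟨x', rfl⟩ := hmb.2 y'
    have h1 : loc1 φ 𝓑 hcont A (mapH1 (SmCoind21.map φ 𝓑 A' ι hι.comm)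
        (SmCoind21.map_ρ φ 𝓑 A' ι hι.comm) x) = loc1 φ 𝓑 hcont A
        (mapH1 (SmCoind21.map φ 𝓑 A' ι hι.comm) (SmCoind21.map_ρ φ 𝓑 A' ι hι.comm) x') := hyy'
    rw [key, key] at h1
    rw [heb.1 (hsh.1 (hinf.1 h1))]
  · intro z
    obtain ⟨z1, rfl⟩ := hinf.2 z
    obtain ⟨z2, rfl⟩ := hsh.2 z1
    obtain ⟨x, rfl⟩ := heb.2 z2
    exact ⟨_, key x⟩

include hcont' hd hι hind hA h90 in
/-- **`loc2` is injective**: `H²(𝓑; smCoind φ 𝓑 A) ↪ H²(𝓑H; A)`. -/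
theorem loc2_injective : Injective (loc2 φ 𝓑 hcont A) := by
  have hm := map_bijective_of_isInvIncl φ 𝓑 hι
    (fun U hU => le_comap_of_isInfData φ 𝓑 hcont' hd hU)
  let m := LinearEquiv.ofBijective (SmCoind21.map φ 𝓑 A' ι hι.comm) hm
  have hmb : Bijective (mapH2 (𝓑 := 𝓑) m.toLinearMap (SmCoind21.map_ρ φ 𝓑 A' ι hι.comm)) :=
    mapH2_bijective m _
  have heb := mapH2_bijective (𝓑 := 𝓑) (coindEquiv φ 𝓑 A') (coindEquiv_ρ φ 𝓑 A')
  have hsh := ShapiroLevel28.sh2_bijective φ 𝓑 𝓑H' hcont' hind A'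
    (isDiscrete_of_isInvIncl hd hι hA)
  have hinf := InfLevelRep13.inf2_injective hd hι hA h90
  have key := loc2_mapH2 φ 𝓑 hcont hcont' hd hι
  intro y y' hyy'
  obtain ⟨x, rfl⟩ := hmb.2 y
  obtain ⟨x', rfl⟩ := hmb.2 y'
  have h1 : loc2 φ 𝓑 hcont A (mapH2 (SmCoind21.map φ 𝓑 A' ι hι.comm)
      (SmCoind21.map_ρ φ 𝓑 A' ι hι.comm) x) = loc2 φ 𝓑 hcont A
      (mapH2 (SmCoind21.map φ 𝓑 A' ι hι.comm) (SmCoind21.map_ρ φ 𝓑 A' ι hι.comm) x') := hyy'
  rw [key, key] at h1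
  rw [heb.1 (hsh.1 (hinf h1))]

end Loc

end Fermat.Agent.PT.GLUE.CoindCompare13
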