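/-
Program F (S55), chapter GLUE, helper13.

The local comparison for the `q`-component `ISq S q = Coind^{sm}_{Γ_q → Γ} ℚ̄_qˣ` of `I_S`
(`GLUE/Objects21`): the localisation maps (pull back along `Γ_q → Γ`, evaluate at `1`)

  `locI1 : H¹(levelS S; ISq S q) → H¹(levelLoc q; ℚ̄_qˣ)` is bijective,
  `locI2 : H²(levelS S; ISq S q) → H²(levelLoc q; ℚ̄_qˣ)` is injective.

(Shapiro for `((ℚ_S)_q)ˣ = (ℚ̄_qˣ)^{Nloc}` + inflation along `Nloc`, `CoindCompare13`.)
-/
import Mathlib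
import Fermat.Agent.PT.GLUE.Objects21
import Fermat.Agent.PT.GLUE.CoindCompare13
import Fermat.Agent.PT.BR.InfLocal13

set_option autoImplicit false

namespace Fermat.Agent.PT.GLUE.LocI13

open Function
open Fermat.Agent.PT.PRO Fermat.Agent.PT.GLUE
open Fermat.Agent.PT.PRO.LevelCoh28 Fermat.Agent.PT.PRO.LevelCohRes28
open Fermat.Agent.PT.GLUE.Objects21 Fermat.Agent.PT.BR.InfLocal13

variable (S : Finset Nat.Primes) (q : ℕ) [Fact q.Prime]

theorem isLevelHom_levelLoc :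
    IsLevelHom (localGaloisToGlobal q) (levelLoc q).sets (levelS S).sets :=
  fun U hU => ⟨_, ⟨U, levelSetS_subset_levelSetAll S hU, rfl⟩, le_rfl⟩

theorem isLevelHom_levelLocS :
    IsLevelHom (localGaloisToGlobal q) (levelLocS q S).sets (levelS S).sets :=
  fun U hU => ⟨_, ⟨U, hU, rfl⟩, le_rfl⟩

theorem induced_levelLocS : ∀ V ∈ (levelLocS q S).sets,
    ∃ U ∈ (levelS S).sets, U.comap (localGaloisToGlobal q) ≤ V := by
  rintro _ ⟨U, hU, rfl⟩
  exact ⟨U, hU, le_rfl⟩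

/-- Localisation `H¹(G_S; I_{S,q}) → H¹(Γ_q; ℚ̄_qˣ)`. -/
noncomputable def locI1 : H1 (levelS S) (ISq S q) →ₗ[ℤ] H1 (levelLoc q) (unitsLoc q) :=
  CoindCompare13.loc1 (localGaloisToGlobal q) (levelS S) (isLevelHom_levelLoc S q) (unitsLoc q)

/-- Localisation `H²(G_S; I_{S,q}) → H²(Γ_q; ℚ̄_qˣ)`. -/
noncomputable def locI2 : H2 (levelS S) (ISq S q) →ₗ[ℤ] H2 (levelLoc q) (unitsLoc q) :=
  CoindCompare13.loc2 (localGaloisToGlobal q) (levelS S) (isLevelHom_levelLoc S q) (unitsLoc q)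

theorem locI1_bijective : Bijective (locI1 S q) :=
  CoindCompare13.loc1_bijective (localGaloisToGlobal q) (levelS S) (isLevelHom_levelLoc S q)
    (isLevelHom_levelLocS S q) (isInfData_loc S q)
    (InfLevelRep13.isInvIncl_toInvariants (unitsLoc q) (Nloc S q)) (induced_levelLocS S q)
    (isDiscrete_unitsLoc q) (h90_unitsLoc S q)

theorem locI2_injective : Injective (locI2 S q) :=
  CoindCompare13.loc2_injective (localGaloisToGlobal q) (levelS S) (isLevelHom_levelLoc S q)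
    (isLevelHom_levelLocS S q) (isInfData_loc S q)
    (InfLevelRep13.isInvIncl_toInvariants (unitsLoc q) (Nloc S q)) (induced_levelLocS S q)
    (isDiscrete_unitsLoc q) (h90_unitsLoc S q)

end Fermat.Agent.PT.GLUE.LocI13
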