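/-
Program F (S55), chapter GLUE, helper13.  Item **(S2)** of PRO plan v4 (+ the plain `H¹` analogue).

In the `Resolved4.Hlev` language (k = ℤ), with `r_q = localGaloisToGlobal q : Γ_q → Γ` and
`ev_q = evq S q : I_{S,q} → ℚ̄_qˣ` (evaluation at `1`):

* `resX_evq_injective` : `PairingResObj1.resX .. (evq S q) (evq_ρ S q)` on `Hlev2` is injective;
* `resH1_evq_bijective` : `PairingRes1.resH1 .. (evq S q) (evq_ρ S q)` on `Hlev1` is bijective.

(Transport of `LocI13.locI2_injective` / `locI1_bijective` through `LevelDict13.H?AddEquiv`.)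
-/
import Mathlib
import Fermat.Agent.PT.GLUE.LocI13
import Fermat.Agent.PT.PRO.LevelDict13
import Fermat.Agent.PT.PRO.PairingResObj1

set_option autoImplicit false

namespace Fermat.Agent.PT.GLUE.LocPlain13

open Function
open Fermat.Agent.PT.PRO Fermat.Agent.PT.GLUE
open Fermat.Agent.PT.PRO.LevelCoh28 Fermat.Agent.PT.PRO.LevelCohRes28
open Fermat.Agent.PT.GLUE.Objects21 Fermat.Agent.PT.BR.InfLocal13

variable (S : Finset Nat.Primes) (q : ℕ) [Fact q.Prime]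

/-- Evaluation at `1`: `I_{S,q} → ℚ̄_qˣ`. -/
noncomputable abbrev evq : (ISq S q) →ₗ[ℤ] (unitsLoc q) :=
  SmCoind21.ev (localGaloisToGlobal q) (levelS S) (unitsLoc q)

theorem evq_ρ (h : Field.absoluteGaloisGroup ℚ_[q]) (x : ISq S q) :
    evq S q ((ISq S q).ρ (localGaloisToGlobal q h) x) = (unitsLoc q).ρ h (evq S q x) :=
  SmCoind21.ev_ρ (localGaloisToGlobal q) (levelS S) (unitsLoc q) h x

variable (h𝒰 : HyperLevel25.IsLevelBasis (levelS S).sets)
  (h𝒰' : HyperLevel25.IsLevelBasis (levelLoc q).sets)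
  (hf : HyperRes25.IsLevelHom (localGaloisToGlobal q) (levelLoc q).sets (levelS S).sets)
  (hX : HyperLevel25.IsDiscrete (levelS S).sets (ISq S q).ρ)
  (hW : HyperLevel25.IsDiscrete (levelLoc q).sets (unitsLoc q).ρ)

theorem resX_H2AddEquiv (x : H2 (levelS S) (ISq S q)) :
    PairingResObj1.resX h𝒰 h𝒰' (localGaloisToGlobal q) hf hX hW (evq S q) (evq_ρ S q)
      (LevelDict13.H2AddEquiv (levelS S) (ISq S q) (ISq S q).ρ (AddEquiv.refl _) (fun _ _ => rfl)
        h𝒰 hX x) =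
    LevelDict13.H2AddEquiv (levelLoc q) (unitsLoc q) (unitsLoc q).ρ (AddEquiv.refl _)
      (fun _ _ => rfl) h𝒰' hW (LocI13.locI2 S q x) := by
  obtain ⟨c, rfl⟩ := H2mk_surjective _ _ x
  rfl

/-- **(S2)** the plain localisation `H²_lev(Γ, levelS S; I_{S,q}) → H²_lev(Γ_q, levelLoc q; ℚ̄_qˣ)`,
`[φ] ↦ [ev_q ∘ φ ∘ (r_q × r_q)]`, is injective. -/
theorem resX_evq_injective :
    Injective (PairingResObj1.resX h𝒰 h𝒰' (localGaloisToGlobal q) hf hX hW (evq S q)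
      (evq_ρ S q)) := by
  intro y y' h
  obtain ⟨x, rfl⟩ := (LevelDict13.H2AddEquiv (levelS S) (ISq S q) (ISq S q).ρ (AddEquiv.refl _)
    (fun _ _ => rfl) h𝒰 hX).surjective y
  obtain ⟨x', rfl⟩ := (LevelDict13.H2AddEquiv (levelS S) (ISq S q) (ISq S q).ρ (AddEquiv.refl _)
    (fun _ _ => rfl) h𝒰 hX).surjective y'
  rw [resX_H2AddEquiv, resX_H2AddEquiv] at h
  rw [LocI13.locI2_injective S q ((AddEquiv.injective _) h)]

/-- The plain localisation on `H¹_lev`. -/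
theorem resH1_H1AddEquiv (x : H1 (levelS S) (ISq S q)) :
    PairingRes1.resH1 hf h𝒰 h𝒰' hX hW (evq S q) (evq_ρ S q)
      (LevelDict13.H1AddEquiv (levelS S) (ISq S q) (ISq S q).ρ (AddEquiv.refl _) (fun _ _ => rfl)
        h𝒰 hX x) =
    LevelDict13.H1AddEquiv (levelLoc q) (unitsLoc q) (unitsLoc q).ρ (AddEquiv.refl _)
      (fun _ _ => rfl) h𝒰' hW (LocI13.locI1 S q x) := by
  obtain ⟨c, rfl⟩ := H1mk_surjective _ _ x
  rfl

/-- The plain localisation `H¹_lev(Γ, levelS S; I_{S,q}) → H¹_lev(Γ_q, levelLoc q; ℚ̄_qˣ)` is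
bijective. -/
theorem resH1_evq_bijective :
    Bijective (PairingRes1.resH1 hf h𝒰 h𝒰' hX hW (evq S q) (evq_ρ S q)) := by
  have hb := LocI13.locI1_bijective S q
  constructor
  · intro y y' h
    obtain ⟨x, rfl⟩ := (LevelDict13.H1AddEquiv (levelS S) (ISq S q) (ISq S q).ρ (AddEquiv.refl _)
      (fun _ _ => rfl) h𝒰 hX).surjective y
    obtain ⟨x', rfl⟩ := (LevelDict13.H1AddEquiv (levelS S) (ISq S q) (ISq S q).ρ
      (AddEquiv.refl _) (fun _ _ => rfl) h𝒰 hX).surjective y'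
    rw [resH1_H1AddEquiv, resH1_H1AddEquiv] at h
    rw [hb.1 ((AddEquiv.injective _) h)]
  · intro z
    obtain ⟨w, rfl⟩ := (LevelDict13.H1AddEquiv (levelLoc q) (unitsLoc q) (unitsLoc q).ρ
      (AddEquiv.refl _) (fun _ _ => rfl) h𝒰' hW).surjective z
    obtain ⟨x, rfl⟩ := hb.2 w
    exact ⟨_, resH1_H1AddEquiv S q h𝒰 h𝒰' hf hX hW x⟩

end Fermat.Agent.PT.GLUE.LocPlain13
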