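/-
Program F (S55), chapter GLUE, helper13.  Items **(S1)**, **(S2h)** of PRO plan v4, inflation half.

The localisation `Λ_q = PairingRes1.KPHom .. (evq S q) (evq_ρ S q) :
K(P; I_{S,q}) → K(P|_{Γ_q}; ℚ̄_qˣ)` over `r_q : Γ_q → Γ` (levels `levelS S` / `levelLoc q`) factors as

  `K(P; I_{S,q}) --(Shapiro half, over r_q, levels levelLocS q S)--> K(P|_{Γ_q}; ((ℚ_S)_q)ˣ)
     --(inflation, InfLevelMap13)--> K(P|_{Γ_q}; ℚ̄_qˣ)`,

where `((ℚ_S)_q)ˣ = unitsLocS S q = (ℚ̄_qˣ)^{Nloc S q}` and the Shapiro half is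
`KPHom .. (evqS S q) (evqS_ρ S q)` (`evqS` = evaluation at `1` with values in the invariants).
Since inflation is bijective on `ℍ¹` and injective on `ℍ²` (Hilbert 90, `InfLocal13`):

* `S1_of_shapiro`  : `Λ_q.ppℍ1` is surjective if the Shapiro half is;
* `S2h_of_shapiro` : `Λ_q.ppℍ2` is injective if the Shapiro half is.

Generic versions (`locPHom_ppℍ1_surjective`, `locPHom_ppℍ1_bijective`, `locPHom_ppℍ2_injective`)
for any `φ : H →* G`, `smCoind φ 𝓑 A`, inflation data `IsInfData 𝓑H 𝓑H' N` and `A' = A^N`.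
-/
import Mathlib
import Fermat.Agent.PT.GLUE.CoindCompare13
import Fermat.Agent.PT.GLUE.LocI13
import Fermat.Agent.PT.PRO.InfCompose13
import Fermat.Agent.PT.PRO.InfLevelHom13
import Fermat.Agent.PT.PRO.PairingRes1
import Fermat.Agent.PT.GLUE.LocPlain13

set_option autoImplicit false

namespace Fermat.Agent.PT.GLUE.LocHyper13

open Function
open Fermat.Agent.PT.PRO Fermat.Agent.PT.GLUE
open Fermat.Agent.PT.PRO.LevelCoh28
open Fermat.Agent.PT.PRO.InfLevel13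

section Generic

variable {k : Type} [CommRing k] {G H : Type} [Group G] [Group H]
variable (φ : H →* G) (𝓑 : LevelBasis G) {𝓑H 𝓑H' : LevelBasis H} {A A' : Rep.{0} k H}
  {N : Subgroup H} {ι : A' →ₗ[k] A}
variable (hι : IsInvIncl N A'.ρ A.ρ ι) (hN : ∀ U ∈ 𝓑.sets, N ≤ U.comap φ)

/-- `smCoind A' ≃ smCoind A` for the inclusion of the `N`-invariants. -/
noncomputable def mEquiv : SmCoind21.smCoind φ 𝓑 A' ≃ₗ[k] SmCoind21.smCoind φ 𝓑 A :=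
  LinearEquiv.ofBijective (SmCoind21.map φ 𝓑 A' ι hι.comm)
    (CoindCompare13.map_bijective_of_isInvIncl φ 𝓑 hι hN)

/-- Evaluation at `1`, with values in the `N`-invariants. -/
noncomputable def evInv : SmCoind21.smCoind φ 𝓑 A →ₗ[k] A' :=
  (SmCoind21.ev φ 𝓑 A').comp (mEquiv φ 𝓑 hι hN).symm.toLinearMap

theorem ι_evInv (x : SmCoind21.smCoind φ 𝓑 A) :
    ι (evInv φ 𝓑 hι hN x) = SmCoind21.ev φ 𝓑 A x := by
  obtain ⟨y, rfl⟩ := (mEquiv φ 𝓑 hι hN).surjective x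
  simp only [evInv, LinearMap.comp_apply, LinearEquiv.coe_coe, LinearEquiv.symm_apply_apply]
  rfl

theorem evInv_ρ (h : H) (x : SmCoind21.smCoind φ 𝓑 A) :
    evInv φ 𝓑 hι hN ((SmCoind21.smCoind φ 𝓑 A).ρ (φ h) x) = A'.ρ h (evInv φ 𝓑 hι hN x) := by
  apply hι.inj
  rw [ι_evInv, SmCoind21.ev_ρ, hι.comm, ι_evInv]

variable {P1 P0 M : Type*} [AddCommGroup P1] [Module k P1] [AddCommGroup P0] [Module k P0]
  [AddCommGroup M] [Module k M] [Module.Finite k P0] [Module.Finite k P1]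
variable (P : Resolved4.Resolved k 𝓑.sets P1 P0 M)
  (h𝒰 : HyperLevel25.IsLevelBasis 𝓑.sets) (h𝒰H : HyperLevel25.IsLevelBasis 𝓑H.sets)
  (h𝒰H' : HyperLevel25.IsLevelBasis 𝓑H'.sets)
  (hcont : HyperRes25.IsLevelHom φ 𝓑H.sets 𝓑.sets)
  (hcont' : HyperRes25.IsLevelHom φ 𝓑H'.sets 𝓑.sets)
  (hd : IsInfData 𝓑H.sets 𝓑H'.sets N)
  (hX : HyperLevel25.IsDiscrete 𝓑.sets (SmCoind21.smCoind φ 𝓑 A).ρ)
  (hA : HyperLevel25.IsDiscrete 𝓑H.sets A.ρ) (hA' : HyperLevel25.IsDiscrete 𝓑H'.sets A'.ρ)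

/-- The full localisation `K(P; smCoind A) → K(P|_H; A)` over `φ` (`𝓑H`-levels). -/
noncomputable abbrev locPHom :
    HyperRes25.PHom φ (P.K h𝒰 (SmCoind21.smCoind φ 𝓑 A).ρ hX)
      ((PairingRes1.comapResolved φ hcont P).K h𝒰H A.ρ hA) :=
  PairingRes1.KPHom hcont h𝒰 h𝒰H hX hA P (SmCoind21.ev φ 𝓑 A) (SmCoind21.ev_ρ φ 𝓑 A)

/-- The Shapiro half `K(P; smCoind A) → K(P|_H; A^N)` over `φ` (`𝓑H'`-levels). -/
noncomputable abbrev shPHom :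
    HyperRes25.PHom φ (P.K h𝒰 (SmCoind21.smCoind φ 𝓑 A).ρ hX)
      ((PairingRes1.comapResolved φ hcont' P).K h𝒰H' A'.ρ hA') :=
  PairingRes1.KPHom hcont' h𝒰 h𝒰H' hX hA' P (evInv φ 𝓑 hι hN) (evInv_ρ φ 𝓑 hι hN)

include hd hι in
/-- The inflation half: `K(P|_H; A^N) → K(P|_H; A)` is the inclusion of the `N`-invariants. -/
theorem isInvInclCx_loc :
    IsInvInclCx N ((PairingRes1.comapResolved φ hcont' P).K h𝒰H' A'.ρ hA')
      ((PairingRes1.comapResolved φ hcont P).K h𝒰H A.ρ hA)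
      (LinearMap.compRight k ι) (LinearMap.compRight k ι) :=
  InfLevelHom13.isInvInclCx_K hd h𝒰H h𝒰H' (PairingRes1.comapResolved φ hcont' P) hι hA hA'

include hd hcont' in
theorem h90_loc [Module.Free k P0] (h90 : H90 𝓑H.sets N A.ρ) :
    H90 𝓑H.sets N ((PairingRes1.comapResolved φ hcont P).K h𝒰H A.ρ hA).ρ0 :=
  InfLevelHom13.h90_K hd h𝒰H (PairingRes1.comapResolved φ hcont' P) hA h90

theorem locPHom_φ0 (y : P0 →ₗ[k] SmCoind21.smCoind φ 𝓑 A) :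
    (locPHom φ 𝓑 P h𝒰 h𝒰H hcont hX hA).φ0 y =
      LinearMap.compRight k ι ((shPHom φ 𝓑 hι hN P h𝒰 h𝒰H' hcont' hX hA').φ0 y) := by
  ext x
  exact (ι_evInv φ 𝓑 hι hN (y x)).symm

theorem locPHom_φ1 (y : P1 →ₗ[k] SmCoind21.smCoind φ 𝓑 A) :
    (locPHom φ 𝓑 P h𝒰 h𝒰H hcont hX hA).φ1 y =
      LinearMap.compRight k ι ((shPHom φ 𝓑 hι hN P h𝒰 h𝒰H' hcont' hX hA').φ1 y) := by
  ext x
  exact (ι_evInv φ 𝓑 hι hN (y x)).symm

include hd in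
/-- **(S1), generic**: the localisation is surjective (bijective) on `ℍ¹` if the Shapiro half
is. -/
theorem locPHom_ppℍ1_surjective [N.Normal] [Module.Free k P0] (h90 : H90 𝓑H.sets N A.ρ)
    (hSh : Surjective ((shPHom φ 𝓑 hι hN P h𝒰 h𝒰H' hcont' hX hA').ppℍ1 hcont' h𝒰 h𝒰H')) :
    Surjective ((locPHom φ 𝓑 P h𝒰 h𝒰H hcont hX hA).ppℍ1 hcont h𝒰 h𝒰H) :=
  InfCompose13.ppℍ1_surjective_of_inf _ _ (locPHom_φ0 φ 𝓑 hι hN P h𝒰 h𝒰H h𝒰H' hcont hcont' hX hA hA')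
    (locPHom_φ1 φ 𝓑 hι hN P h𝒰 h𝒰H h𝒰H' hcont hcont' hX hA hA') hcont hcont' h𝒰 h𝒰H h𝒰H' hd
    (isInvInclCx_loc φ 𝓑 hι P h𝒰H h𝒰H' hcont hcont' hd hA hA')
    (h90_loc φ 𝓑 P h𝒰H hcont hcont' hd hA h90) hSh

include hd in
theorem locPHom_ppℍ1_bijective [N.Normal] [Module.Free k P0] (h90 : H90 𝓑H.sets N A.ρ)
    (hSh : Bijective ((shPHom φ 𝓑 hι hN P h𝒰 h𝒰H' hcont' hX hA').ppℍ1 hcont' h𝒰 h𝒰H')) :
    Bijective ((locPHom φ 𝓑 P h𝒰 h𝒰H hcont hX hA).ppℍ1 hcont h𝒰 h𝒰H) :=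
  InfCompose13.ppℍ1_bijective_of_inf _ _ (locPHom_φ0 φ 𝓑 hι hN P h𝒰 h𝒰H h𝒰H' hcont hcont' hX hA hA')
    (locPHom_φ1 φ 𝓑 hι hN P h𝒰 h𝒰H h𝒰H' hcont hcont' hX hA hA') hcont hcont' h𝒰 h𝒰H h𝒰H' hd
    (isInvInclCx_loc φ 𝓑 hι P h𝒰H h𝒰H' hcont hcont' hd hA hA')
    (h90_loc φ 𝓑 P h𝒰H hcont hcont' hd hA h90) hSh

include hd in
/-- **(S2h), generic**: the localisation is injective on `ℍ²` if the Shapiro half is. -/
theorem locPHom_ppℍ2_injective [N.Normal] [Module.Free k P0] (h90 : H90 𝓑H.sets N A.ρ)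
    (hSh : Injective ((shPHom φ 𝓑 hι hN P h𝒰 h𝒰H' hcont' hX hA').ppℍ2 hcont' h𝒰 h𝒰H')) :
    Injective ((locPHom φ 𝓑 P h𝒰 h𝒰H hcont hX hA).ppℍ2 hcont h𝒰 h𝒰H) :=
  InfCompose13.ppℍ2_injective_of_inf _ _ (locPHom_φ0 φ 𝓑 hι hN P h𝒰 h𝒰H h𝒰H' hcont hcont' hX hA hA')
    (locPHom_φ1 φ 𝓑 hι hN P h𝒰 h𝒰H h𝒰H' hcont hcont' hX hA hA') hcont hcont' h𝒰 h𝒰H h𝒰H' hd
    (isInvInclCx_loc φ 𝓑 hι P h𝒰H h𝒰H' hcont hcont' hd hA hA')
    (h90_loc φ 𝓑 P h𝒰H hcont hcont' hd hA h90) hSh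

end Generic

/-! ### The local objects -/

section Local

open Fermat.Agent.PT.GLUE.Objects21 Fermat.Agent.PT.BR.InfLocal13

variable (S : Finset Nat.Primes) (q : ℕ) [Fact q.Prime]

/-- `((ℚ_S)_q)ˣ = (ℚ̄_qˣ)^{N}` as a `Γ_q`-module. -/
noncomputable abbrev unitsLocS : Rep.{0} ℤ (Field.absoluteGaloisGroup ℚ_[q]) :=
  (unitsLoc q).toInvariants (Nloc S q)

/-- The inclusion `((ℚ_S)_q)ˣ → ℚ̄_qˣ`. -/
noncomputable abbrev inclS : unitsLocS S q →ₗ[ℤ] unitsLoc q :=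
  (Representation.invariants ((unitsLoc q).ρ.comp (Nloc S q).subtype)).subtype

theorem isInvIncl_inclS :
    IsInvIncl (Nloc S q) (unitsLocS S q).ρ (unitsLoc q).ρ (inclS S q) :=
  InfLevelRep13.isInvIncl_toInvariants (unitsLoc q) (Nloc S q)

theorem Nloc_le_comap : ∀ U ∈ (levelS S).sets, Nloc S q ≤ U.comap (localGaloisToGlobal q) :=
  fun _ hU => CoindCompare13.le_comap_of_isInfData (localGaloisToGlobal q) (levelS S)
    (LocI13.isLevelHom_levelLocS S q) (isInfData_loc S q) hU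

/-- Evaluation at `1` with values in `((ℚ_S)_q)ˣ`. -/
noncomputable def evqS : ISq S q →ₗ[ℤ] unitsLocS S q :=
  evInv (localGaloisToGlobal q) (levelS S) (isInvIncl_inclS S q) (Nloc_le_comap S q)

theorem evqS_ρ (h : Field.absoluteGaloisGroup ℚ_[q]) (x : ISq S q) :
    evqS S q ((ISq S q).ρ (localGaloisToGlobal q h) x) = (unitsLocS S q).ρ h (evqS S q x) :=
  evInv_ρ (localGaloisToGlobal q) (levelS S) (isInvIncl_inclS S q) (Nloc_le_comap S q) h x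

theorem inclS_evqS (x : ISq S q) : inclS S q (evqS S q x) = LocPlain13.evq S q x :=
  ι_evInv (localGaloisToGlobal q) (levelS S) (isInvIncl_inclS S q) (Nloc_le_comap S q) x

theorem isDiscrete_unitsLocS : IsDiscrete (levelLocS q S).sets (unitsLocS S q) :=
  CoindCompare13.isDiscrete_of_isInvIncl (isInfData_loc S q) (isInvIncl_inclS S q)
    (isDiscrete_unitsLoc q)

variable {P1 P0 M : Type*} [AddCommGroup P1] [Module ℤ P1] [AddCommGroup P0] [Module ℤ P0]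
  [AddCommGroup M] [Module ℤ M] [Module.Finite ℤ P0] [Module.Finite ℤ P1]
variable (P : Resolved4.Resolved ℤ (levelS S).sets P1 P0 M)
  (h𝒰 : HyperLevel25.IsLevelBasis (levelS S).sets)
  (h𝒰q : HyperLevel25.IsLevelBasis (levelLoc q).sets)
  (h𝒰qS : HyperLevel25.IsLevelBasis (levelLocS q S).sets)
  (hr : HyperRes25.IsLevelHom (localGaloisToGlobal q) (levelLoc q).sets (levelS S).sets)
  (hrS : HyperRes25.IsLevelHom (localGaloisToGlobal q) (levelLocS q S).sets (levelS S).sets)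
  (hX : HyperLevel25.IsDiscrete (levelS S).sets (ISq S q).ρ)
  (hW : HyperLevel25.IsDiscrete (levelLoc q).sets (unitsLoc q).ρ)
  (hWS : HyperLevel25.IsDiscrete (levelLocS q S).sets (unitsLocS S q).ρ)

/-- **(S1)** from the Shapiro half. -/
theorem S1_of_shapiro [Module.Free ℤ P0]
    (hSh : Surjective ((PairingRes1.KPHom hrS h𝒰 h𝒰qS hX hWS P (evqS S q) (evqS_ρ S q)).ppℍ1
      hrS h𝒰 h𝒰qS)) :
    Surjective ((PairingRes1.KPHom hr h𝒰 h𝒰q hX hW P (LocPlain13.evq S q)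
      (LocPlain13.evq_ρ S q)).ppℍ1 hr h𝒰 h𝒰q) :=
  locPHom_ppℍ1_surjective (localGaloisToGlobal q) (levelS S) (isInvIncl_inclS S q)
    (Nloc_le_comap S q) P h𝒰 h𝒰q h𝒰qS hr hrS (isInfData_loc S q) hX hW hWS (h90_unitsLoc S q) hSh

/-- **(S2h)** from the Shapiro half. -/
theorem S2h_of_shapiro [Module.Free ℤ P0]
    (hSh : Injective ((PairingRes1.KPHom hrS h𝒰 h𝒰qS hX hWS P (evqS S q) (evqS_ρ S q)).ppℍ2
      hrS h𝒰 h𝒰qS)) :
    Injective ((PairingRes1.KPHom hr h𝒰 h𝒰q hX hW P (LocPlain13.evq S q)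
      (LocPlain13.evq_ρ S q)).ppℍ2 hr h𝒰 h𝒰q) :=
  locPHom_ppℍ2_injective (localGaloisToGlobal q) (levelS S) (isInvIncl_inclS S q)
    (Nloc_le_comap S q) P h𝒰 h𝒰q h𝒰qS hr hrS (isInfData_loc S q) hX hW hWS (h90_unitsLoc S q) hSh

end Local

end Fermat.Agent.PT.GLUE.LocHyper13
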