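/-
Program F (S55), chapter GLUE, helper13.  Items **(S1)** and **(S2h)** of PRO plan v4, FINAL.

For `P : Resolved4.Resolved ℤ (levelS S).sets P1 P0 M` (`P₀`, `P₁` finitely generated, `P₀` free),
`r_q = localGaloisToGlobal q`, `ev_q = LocPlain13.evq S q : I_{S,q} → ℚ̄_qˣ`:

* `S1_bijective`, `S1` : `(PairingRes1.KPHom hr h𝒰 h𝒰q hX hW P ev_q _).ppℍ1` is bijective /
  surjective  (= `hS1` of `HK20.forall_resH1_eq_zero_iff`);
* `S2h` : `(PairingRes1.KPHom ..).ppℍ2` is injective (= `hS2h` of `StarBlock25.exists_b`);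
* `s1At`, `s2hAt` : the same in the wrapper shapes `MainWrap20.S1At / S2hAt` for a raw resolution
  `R : IndRes20.Res ℤ Γ P1 P0 M`.

Proof: Shapiro half (`HomCoindIso13.fwd_ppℍ^r_bijective` + the coefficient isomorphism
`eS : I_{S,q} ≃ scoind ((ℚ_S)_q)ˣ`) composed with the inflation half (`LocHyper13`).
-/
import Mathlib
import Fermat.Agent.PT.GLUE.LocHyper13
import Fermat.Agent.PT.PRO.PHomCompose13
import Fermat.Agent.PT.PRO.HomCoindIso13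
import Fermat.Agent.PT.PRO.MainWrap20

set_option autoImplicit false

namespace Fermat.Agent.PT.GLUE.LocHyperFinal13

open Function
open Fermat.Agent.PT.PRO Fermat.Agent.PT.GLUE
open Fermat.Agent.PT.PRO.LevelCoh28
open Fermat.Agent.PT.PRO.InfLevel13
open Fermat.Agent.PT.GLUE.LocHyper13

section Generic

variable {k : Type} [CommRing k] {G H : Type} [Group G] [Group H]
variable (φ : H →* G) (𝓑 : LevelBasis G) {𝓑H' : LevelBasis H} {A A' : Rep.{0} k H}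
  {N : Subgroup H} {ι : A' →ₗ[k] A}
variable (hι : IsInvIncl N A'.ρ A.ρ ι) (hN : ∀ U ∈ 𝓑.sets, N ≤ U.comap φ)

/-- `smCoind φ 𝓑 A ≃ scoind φ 𝓑 A^N`. -/
noncomputable def eS : SmCoind21.smCoind φ 𝓑 A ≃ₗ[k] SmoothCoind28.scoind φ 𝓑 A' :=
  (mEquiv φ 𝓑 hι hN).symm ≪≫ₗ CoindCompare13.coindEquiv φ 𝓑 A'

theorem eS_ρ (g : G) (x : SmCoind21.smCoind φ 𝓑 A) :
    eS φ 𝓑 hι hN ((SmCoind21.smCoind φ 𝓑 A).ρ g x) =
      (SmoothCoind28.scoind φ 𝓑 A').ρ g (eS φ 𝓑 hι hN x) := by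
  obtain ⟨y, rfl⟩ := (mEquiv φ 𝓑 hι hN).surjective x
  have h1 : (SmCoind21.smCoind φ 𝓑 A).ρ g (mEquiv φ 𝓑 hι hN y) =
      mEquiv φ 𝓑 hι hN ((SmCoind21.smCoind φ 𝓑 A').ρ g y) :=
    (SmCoind21.map_ρ φ 𝓑 A' ι hι.comm g y).symm
  rw [h1]
  simp only [eS, LinearEquiv.trans_apply, LinearEquiv.symm_apply_apply]
  exact CoindCompare13.coindEquiv_ρ φ 𝓑 A' g y

theorem ev_eS (x : SmCoind21.smCoind φ 𝓑 A) :
    SmoothCoind28.ev φ 𝓑 A' (eS φ 𝓑 hι hN x) = evInv φ 𝓑 hι hN x := rfl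

variable {P1 P0 M : Type} [AddCommGroup P1] [Module k P1] [AddCommGroup P0] [Module k P0]
  [AddCommGroup M] [Module k M] [Module.Finite k P0] [Module.Finite k P1]
variable (P : Resolved4.Resolved k 𝓑.sets P1 P0 M)
  (h𝒰 : HyperLevel25.IsLevelBasis 𝓑.sets)
  (h𝒰H' : HyperLevel25.IsLevelBasis 𝓑H'.sets)
  (hcont' : HyperRes25.IsLevelHom φ 𝓑H'.sets 𝓑.sets)
  (hX : HyperLevel25.IsDiscrete 𝓑.sets (SmCoind21.smCoind φ 𝓑 A).ρ)
  (hA' : HyperLevel25.IsDiscrete 𝓑H'.sets A'.ρ)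
  (hind : ∀ V ∈ 𝓑H'.sets, ∃ U ∈ 𝓑.sets, U.comap φ ≤ V)

/-- The coefficient isomorphism `K(P; smCoind A) → K(P; scoind A^N)`. -/
noncomputable abbrev eHom :
    HyperLevel25.Cx.Hom (P.K h𝒰 (SmCoind21.smCoind φ 𝓑 A).ρ hX)
      (P.K h𝒰 (SmoothCoind28.scoindρ φ (HyperShapiro28.toBasis h𝒰) (Rep.of A'.ρ))
        (HomCoindIso13.isDiscrete_scoindρ φ A'.ρ h𝒰)) :=
  HK20.coefHom P h𝒰 hX (HomCoindIso13.isDiscrete_scoindρ φ A'.ρ h𝒰)
    (eS φ 𝓑 hι hN).toLinearMap (eS_ρ φ 𝓑 hι hN)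

include hind in
/-- **The Shapiro half on `ℍ¹`.** -/
theorem shPHom_ppℍ1_bijective :
    Bijective ((shPHom φ 𝓑 hι hN P h𝒰 h𝒰H' hcont' hX hA').ppℍ1 hcont' h𝒰 h𝒰H') :=
  PHomCompose13.ppℍ1_bijective_of_comp (shPHom φ 𝓑 hι hN P h𝒰 h𝒰H' hcont' hX hA')
    (HomCoindIso13.fwd φ A'.ρ h𝒰 h𝒰H' hcont' P hA') (eHom φ 𝓑 hι hN P h𝒰 hX)
    (fun _ => rfl) (fun _ => rfl) hcont' h𝒰 h𝒰H'
    (PHomCompose13.compRight_bijective _) (PHomCompose13.compRight_bijective _)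
    (HomCoindIso13.fwd_ppℍ1_bijective φ A'.ρ h𝒰 h𝒰H' hcont' P hA' hind)

include hind in
/-- **The Shapiro half on `ℍ²`.** -/
theorem shPHom_ppℍ2_bijective :
    Bijective ((shPHom φ 𝓑 hι hN P h𝒰 h𝒰H' hcont' hX hA').ppℍ2 hcont' h𝒰 h𝒰H') :=
  PHomCompose13.ppℍ2_bijective_of_comp (shPHom φ 𝓑 hι hN P h𝒰 h𝒰H' hcont' hX hA')
    (HomCoindIso13.fwd φ A'.ρ h𝒰 h𝒰H' hcont' P hA') (eHom φ 𝓑 hι hN P h𝒰 hX)
    (fun _ => rfl) (fun _ => rfl) hcont' h𝒰 h𝒰H'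
    (PHomCompose13.compRight_bijective _) (PHomCompose13.compRight_bijective _)
    (HomCoindIso13.fwd_ppℍ2_bijective φ A'.ρ h𝒰 h𝒰H' hcont' P hA' hind)

end Generic

/-! ### (S1) and (S2h) for `I_{S,q} → ℚ̄_qˣ` -/

section Local

open Fermat.Agent.PT.GLUE.Objects21 Fermat.Agent.PT.BR.InfLocal13

variable (S : Finset Nat.Primes) (q : ℕ) [Fact q.Prime]
variable {P1 P0 M : Type} [AddCommGroup P1] [Module ℤ P1] [AddCommGroup P0] [Module ℤ P0]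
  [AddCommGroup M] [Module ℤ M] [Module.Finite ℤ P0] [Module.Finite ℤ P1] [Module.Free ℤ P0]
variable (h𝒰 : HyperLevel25.IsLevelBasis (levelS S).sets)
  (h𝒰q : HyperLevel25.IsLevelBasis (levelLoc q).sets)
  (hr : HyperRes25.IsLevelHom (localGaloisToGlobal q) (levelLoc q).sets (levelS S).sets)
  (hX : HyperLevel25.IsDiscrete (levelS S).sets (ISq S q).ρ)
  (hW : HyperLevel25.IsDiscrete (levelLoc q).sets (unitsLoc q).ρ)

/-- **(S1)** (`hS1` of `HK20`): `Λ¹_q : ℍ¹(Γ; K(P; I_{S,q})) → ℍ¹(Γ_q; K(P|_{Γ_q}; ℚ̄_qˣ))` is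
bijective. -/
theorem S1_bijective (P : Resolved4.Resolved ℤ (levelS S).sets P1 P0 M) :
    Bijective ((PairingRes1.KPHom hr h𝒰 h𝒰q hX hW P (LocPlain13.evq S q)
      (LocPlain13.evq_ρ S q)).ppℍ1 hr h𝒰 h𝒰q) :=
  locPHom_ppℍ1_bijective (localGaloisToGlobal q) (levelS S) (isInvIncl_inclS S q)
    (Nloc_le_comap S q) P h𝒰 h𝒰q (LevelCompare13.isLevelBasis_iff.1 (levelLocS q S).isBasis) hr
    (LocI13.isLevelHom_levelLocS S q) (isInfData_loc S q) hX hW (isDiscrete_unitsLocS S q)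
    (h90_unitsLoc S q)
    (shPHom_ppℍ1_bijective (localGaloisToGlobal q) (levelS S) (isInvIncl_inclS S q)
      (Nloc_le_comap S q) P h𝒰 (LevelCompare13.isLevelBasis_iff.1 (levelLocS q S).isBasis)
      (LocI13.isLevelHom_levelLocS S q) hX (isDiscrete_unitsLocS S q)
      (LocI13.induced_levelLocS S q))

theorem S1 (P : Resolved4.Resolved ℤ (levelS S).sets P1 P0 M) :
    Surjective ((PairingRes1.KPHom hr h𝒰 h𝒰q hX hW P (LocPlain13.evq S q)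
      (LocPlain13.evq_ρ S q)).ppℍ1 hr h𝒰 h𝒰q) :=
  (S1_bijective S q h𝒰 h𝒰q hr hX hW P).2

/-- **(S2h)**: `Λ²_q : ℍ²(Γ; K(P; I_{S,q})) → ℍ²(Γ_q; K(P|_{Γ_q}; ℚ̄_qˣ))` is injective. -/
theorem S2h (P : Resolved4.Resolved ℤ (levelS S).sets P1 P0 M) :
    Injective ((PairingRes1.KPHom hr h𝒰 h𝒰q hX hW P (LocPlain13.evq S q)
      (LocPlain13.evq_ρ S q)).ppℍ2 hr h𝒰 h𝒰q) :=
  locPHom_ppℍ2_injective (localGaloisToGlobal q) (levelS S) (isInvIncl_inclS S q)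
    (Nloc_le_comap S q) P h𝒰 h𝒰q (LevelCompare13.isLevelBasis_iff.1 (levelLocS q S).isBasis) hr
    (LocI13.isLevelHom_levelLocS S q) (isInfData_loc S q) hX hW (isDiscrete_unitsLocS S q)
    (h90_unitsLoc S q)
    (shPHom_ppℍ2_bijective (localGaloisToGlobal q) (levelS S) (isInvIncl_inclS S q)
      (Nloc_le_comap S q) P h𝒰 (LevelCompare13.isLevelBasis_iff.1 (levelLocS q S).isBasis)
      (LocI13.isLevelHom_levelLocS S q) hX (isDiscrete_unitsLocS S q)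
      (LocI13.induced_levelLocS S q)).1

variable (R : IndRes20.Res ℤ (AlgebraicClosure ℚ ≃ₐ[ℚ] AlgebraicClosure ℚ) P1 P0 M)
  (h0 : HyperLevel25.IsDiscrete (levelS S).sets R.ρ0)

/-- **(S1)** in the wrapper shape of `MainWrap20`. -/
theorem s1At :
    MainWrap20.S1At R h0 h𝒰 h𝒰q (localGaloisToGlobal q) hr hX hW (LocPlain13.evq S q)
      (LocPlain13.evq_ρ S q) :=
  S1 S q h𝒰 h𝒰q hr hX hW (Setup20.toResolved R h0)

/-- **(S2h)** in the wrapper shape of `MainWrap20`. -/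
theorem s2hAt :
    MainWrap20.S2hAt R h0 h𝒰 h𝒰q (localGaloisToGlobal q) hr hX hW (LocPlain13.evq S q)
      (LocPlain13.evq_ρ S q) :=
  S2h S q h𝒰 h𝒰q hr hX hW (Setup20.toResolved R h0)

end Local

end Fermat.Agent.PT.GLUE.LocHyperFinal13
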