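/-
Program F (S55, Poitou–Tate), sub-chapter GLUE — helper27.  (GL2) **`E_S ∩ L = S`-units of `L`.**

For a finite extension `L ⊆ ℚ̄` of `ℚ` and `x ∈ Lˣ`:
* `mem_ker_divT_of_mem_ESgroup` : `x ∈ E_S ⇒ ord_P x = 0` for every prime `P` of `L` away from `S`;
* `mem_ESgroup_of_mem_ker_divT` : the converse when `L` is unramified outside `S`;
* `mem_ESgroup_iff_mem_ker_divT`;
* `levelSub S L : Subgroup (ESgroup S)` (elements lying in `L`), `esLevel L hL : ker divT ≃* levelSub`;
* `ρ_eq_self_iff_mem` : `b : ES S` is fixed by `Gal(ℚ̄/L)` iff its underlying element lies in `L`.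
-/
import Mathlib
import Fermat.Agent.PT.GLUE.Objects21
import Fermat.Agent.PT.GLOB.Interface23
import Fermat.Agent.PT.GLOB.ClassKill15

set_option autoImplicit false
set_option linter.unusedSectionVars false

namespace Fermat.Agent.PT.GLUE.ESLevel27

open NumberField IsDedekindDomain
open Fermat.Agent.PT.GLUE.Objects21 Fermat.Agent.PT.GLOB

local notation "Qbar" => AlgebraicClosure ℚ
local notation "Γ" => (AlgebraicClosure ℚ ≃ₐ[ℚ] AlgebraicClosure ℚ)

local instance isAlgClosureQbarE27 : IsAlgClosure ℚ Qbar := ⟨inferInstance, inferInstance⟩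
local instance normalQbarE27 : Normal ℚ Qbar := IsAlgClosure.normal ℚ Qbar
local instance isGaloisQbarE27 : IsGalois ℚ Qbar := IsAlgClosure.isGalois ℚ Qbar

/-! ### Valuations in a number field -/

section NF

variable (S : Finset Nat.Primes) (L : Type*) [Field L] [NumberField L]

theorem valuation_eq_exp_neg_ordAt (P : HeightOneSpectrum (𝓞 L)) (x : Lˣ) :
    P.valuation L (x : L) = WithZero.exp (-(Interface23.ordAt L P x)) :=
  ClassKill15.valuation_eq_exp_neg_count L P (x : L) x.ne_zero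

theorem ordAt_eq_zero_iff (P : HeightOneSpectrum (𝓞 L)) (x : Lˣ) :
    Interface23.ordAt L P x = 0 ↔ P.valuation L (x : L) = 1 := by
  rw [valuation_eq_exp_neg_ordAt, ← WithZero.exp_zero, WithZero.exp_inj, neg_eq_zero]

theorem natCast_eq_algebraMap (n : ℕ) : (n : L) = algebraMap (𝓞 L) L (n : 𝓞 L) := by
  rw [map_natCast]

/-- `∏ S` is a unit at the primes away from `S`. -/
theorem valuation_prodS_eq_one (P : Interface23.PrimeAway S L) :
    P.1.valuation L ((prodS S : ℕ) : L) = 1 := by
  unfold prodS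
  rw [Nat.cast_prod, map_prod]
  refine Finset.prod_eq_one fun q hq => ?_
  rw [natCast_eq_algebraMap, HeightOneSpectrum.valuation_eq_one_iff_notMem]
  have := P.2 q hq
  rwa [Int.cast_natCast] at this

theorem valuation_natCast_le_one (P : HeightOneSpectrum (𝓞 L)) (n : ℕ) :
    P.valuation L (n : L) ≤ 1 := by
  rw [natCast_eq_algebraMap]
  exact P.valuation_le_one _

/-- `∏ S` lies in every prime above `S`. -/
theorem valuation_prodS_le (P : HeightOneSpectrum (𝓞 L)) {q : Nat.Primes} (hq : q ∈ S)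
    (hP : (((q : ℕ) : ℤ) : 𝓞 L) ∈ P.asIdeal) :
    P.valuation L ((prodS S : ℕ) : L) ≤ WithZero.exp (-1 : ℤ) := by
  rw [natCast_eq_algebraMap, HeightOneSpectrum.valuation_of_algebraMap]
  have h1 : ((prodS S : ℕ) : 𝓞 L) ∈ P.asIdeal ^ 1 := by
    rw [pow_one]
    unfold prodS
    rw [← Finset.mul_prod_erase S _ hq, Nat.cast_mul]
    rw [Int.cast_natCast] at hP
    exact Ideal.mul_mem_right _ _ hP
  have := (P.intValuation_le_pow_iff_mem _ 1).2 h1
  simpa using this

end NF

/-! ### `S`-integrality inside `L ⊆ ℚ̄` -/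

section Level

variable (S : Finset Nat.Primes) (L : IntermediateField ℚ Qbar) [FiniteDimensional ℚ L]

theorem isIntegral_coe_iff (y : L) : IsIntegral ℤ ((y : L) : Qbar) ↔ IsIntegral ℤ y :=
  isIntegral_algebraMap_iff (algebraMap L Qbar).injective (R := ℤ) (A := L) (B := Qbar)

theorem valuation_le_one_of_isIntegral (P : HeightOneSpectrum (𝓞 L)) {y : L}
    (hy : IsIntegral ℤ y) : P.valuation L y ≤ 1 := by
  have : y = algebraMap (𝓞 L) L ⟨y, hy⟩ := rfl
  rw [this]
  exact P.valuation_le_one _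

theorem isIntegral_of_valuation_le_one {y : L}
    (h : ∀ P : HeightOneSpectrum (𝓞 L), P.valuation L y ≤ 1) : IsIntegral ℤ y := by
  obtain ⟨z, hz⟩ := HeightOneSpectrum.mem_integers_of_valuation_le_one (R := 𝓞 L) L y h
  rw [← hz]
  exact z.2

/-- `S`-integral elements of `L` are integral at the primes away from `S`. -/
theorem valuation_le_one_of_isSInt (P : Interface23.PrimeAway S L) {y : L}
    (hy : IsSInt S ((y : L) : Qbar)) : P.1.valuation L y ≤ 1 := by
  obtain ⟨n, hn⟩ := hy
  have h1 : IsIntegral ℤ (((prodS S : ℕ) : L) ^ n * y) := by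
    rw [← isIntegral_coe_iff]
    simpa using hn
  have h2 := valuation_le_one_of_isIntegral L P.1 h1
  rwa [map_mul, map_pow, valuation_prodS_eq_one S L P, one_pow, one_mul] at h2

/-- **(⇒)** `x ∈ E_S ∩ L` has trivial divisor away from `S`. -/
theorem mem_ker_divT_of_mem_ESgroup (x : (↥L)ˣ)
    (hx : Units.map ((L.val : ↥L →ₐ[ℚ] Qbar) : ↥L →* Qbar) x ∈ ESgroup S) :
    x ∈ (Interface23.divT S ↥L).ker := by
  rw [MonoidHom.mem_ker]
  apply congrArg (Interface23.DivT.ofFinsupp S ↥L) (a₂ := 0)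
  ext P
  change Interface23.ordAt ↥L P.1 x = 0
  rw [ordAt_eq_zero_iff]
  have h1 : P.1.valuation L (x : L) ≤ 1 := valuation_le_one_of_isSInt S L P hx.2.1
  have h2 : P.1.valuation L ((x⁻¹ : (↥L)ˣ) : L) ≤ 1 := by
    apply valuation_le_one_of_isSInt S L P
    have := hx.2.2
    rwa [← map_inv] at this
  rw [Units.val_inv_eq_inv_val, map_inv₀] at h2
  have hpos : 0 < P.1.valuation L (x : L) := by
    rw [Valuation.pos_iff]
    exact x.ne_zero
  exact le_antisymm h1 ((inv_le_one₀ hpos).1 h2)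

/-- elements of `L` with trivial divisor away from `S` are `S`-integral -/
theorem isSInt_of_mem_ker_divT (x : (↥L)ˣ) (hx : x ∈ (Interface23.divT S ↥L).ker) :
    IsSInt S (((x : L) : L) : Qbar) := by
  classical
  have hord : ∀ P : Interface23.PrimeAway S L, Interface23.ordAt ↥L P.1 x = 0 := by
    intro P
    rw [MonoidHom.mem_ker] at hx
    have := congrArg (fun D => Interface23.DivT.toFinsupp S ↥L D P) hx
    exact this
  -- the finite set of primes where `x` is not a unit
  have hfin := FractionalIdeal.finite_factors (R := 𝓞 L) (K := L)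
    (FractionalIdeal.spanSingleton (nonZeroDivisors (𝓞 L)) (x : L))
  rw [Filter.eventually_cofinite] at hfin
  set F : Finset (HeightOneSpectrum (𝓞 L)) := hfin.toFinset with hF
  set n : ℕ := ∑ P ∈ F, (Interface23.ordAt ↥L P x).natAbs with hn
  refine ⟨n, ?_⟩
  have key : IsIntegral ℤ (((prodS S : ℕ) : L) ^ n * (x : L)) := by
    apply isIntegral_of_valuation_le_one
    intro P
    by_cases hP : ∀ q ∈ S, (((q : ℕ) : ℤ) : 𝓞 L) ∉ P.asIdeal
    · -- away from `S`
      rw [map_mul, map_pow, valuation_prodS_eq_one S L ⟨P, hP⟩, one_pow, one_mul]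
      exact ((ordAt_eq_zero_iff L P x).1 (hord ⟨P, hP⟩)).le
    · push Not at hP
      obtain ⟨q, hqS, hqP⟩ := hP
      have h1 := valuation_prodS_le S L P hqS hqP
      rw [map_mul, map_pow, valuation_eq_exp_neg_ordAt]
      have h2 : (P.valuation L ((prodS S : ℕ) : L)) ^ n ≤ WithZero.exp (-(n : ℤ)) := by
        calc (P.valuation L ((prodS S : ℕ) : L)) ^ n ≤ (WithZero.exp (-1 : ℤ)) ^ n :=
              pow_le_pow_left₀ zero_le h1 n
          _ = WithZero.exp (-(n : ℤ)) := by
              rw [← WithZero.exp_nsmul]; congr 1; simp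
      have h3 : -(n : ℤ) + -(Interface23.ordAt ↥L P x) ≤ 0 := by
        by_cases hPF : P ∈ F
        · have : (Interface23.ordAt ↥L P x).natAbs ≤ n :=
            Finset.single_le_sum (f := fun P => (Interface23.ordAt ↥L P x).natAbs)
              (fun _ _ => Nat.zero_le _) hPF
          omega
        · have h0 : Interface23.ordAt ↥L P x = 0 := by
            by_contra hne
            exact hPF (hfin.mem_toFinset.2 hne)
          rw [h0]
          omega
      calc (P.valuation L ((prodS S : ℕ) : L)) ^ n * WithZero.exp (-(Interface23.ordAt ↥L P x))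
          ≤ WithZero.exp (-(n : ℤ)) * WithZero.exp (-(Interface23.ordAt ↥L P x)) :=
            mul_le_mul_left h2 _
        _ = WithZero.exp (-(n : ℤ) + -(Interface23.ordAt ↥L P x)) := (WithZero.exp_add _ _).symm
        _ ≤ 1 := by rw [← WithZero.exp_zero, WithZero.exp_le_exp]; exact h3
  have := (isIntegral_coe_iff L _).2 key
  simpa using this

/-- **(⇐)** for `L` unramified outside `S`, the `S`-units of `L` lie in `E_S`. -/
theorem mem_ESgroup_of_mem_ker_divT (hL : L.IsUnramifiedOutside S) (x : (↥L)ˣ)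
    (hx : x ∈ (Interface23.divT S ↥L).ker) :
    Units.map ((L.val : ↥L →ₐ[ℚ] Qbar) : ↥L →* Qbar) x ∈ ESgroup S := by
  refine ⟨⟨L, hL, (x : L).2⟩, isSInt_of_mem_ker_divT S L x hx, ?_⟩
  rw [← map_inv]
  exact isSInt_of_mem_ker_divT S L x⁻¹ (inv_mem hx)

/-- **(GL2)(a)** `x ∈ Lˣ` lies in `E_S` iff its divisor away from `S` is trivial. -/
theorem mem_ESgroup_iff_mem_ker_divT (hL : L.IsUnramifiedOutside S) (x : (↥L)ˣ) :
    Units.map ((L.val : ↥L →ₐ[ℚ] Qbar) : ↥L →* Qbar) x ∈ ESgroup S ↔
      x ∈ (Interface23.divT S ↥L).ker :=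
  ⟨mem_ker_divT_of_mem_ESgroup S L x, mem_ESgroup_of_mem_ker_divT S L hL x⟩

theorem mem_ker_divT_iff (x : (↥L)ˣ) :
    x ∈ (Interface23.divT S ↥L).ker ↔
      ∀ P : Interface23.PrimeAway S ↥L, Interface23.ordAt ↥L P.1 x = 0 := by
  rw [MonoidHom.mem_ker]
  constructor
  · intro hx P
    exact congrArg (fun D => Interface23.DivT.toFinsupp S ↥L D P) hx
  · intro h
    apply congrArg (Interface23.DivT.ofFinsupp S ↥L) (a₂ := 0)
    ext P
    exact h P

/-! ### The subgroup of `E_S` of elements of `L`, and the fixed points of `Gal(ℚ̄/L)` -/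

/-- The elements of `E_S` lying in `L`. -/
def levelSub : Subgroup (ESgroup S) where
  carrier := {b | ((b : Qbarˣ) : Qbar) ∈ L}
  one_mem' := by
    show (((1 : ESgroup S) : Qbarˣ) : Qbar) ∈ L
    rw [Subgroup.coe_one, Units.val_one]
    exact one_mem L
  mul_mem' {a b} ha hb := by
    show (((a * b : ESgroup S) : Qbarˣ) : Qbar) ∈ L
    rw [Subgroup.coe_mul, Units.val_mul]
    exact mul_mem ha hb
  inv_mem' {a} ha := by
    show (((a⁻¹ : ESgroup S) : Qbarˣ) : Qbar) ∈ L
    rw [Subgroup.coe_inv, Units.val_inv_eq_inv_val]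
    exact inv_mem ha

theorem mem_levelSub_iff (b : ESgroup S) : b ∈ levelSub S L ↔ ((b : Qbarˣ) : Qbar) ∈ L := Iff.rfl

/-- `Lˣ → ℚ̄ˣ`. -/
noncomputable abbrev unitsVal : (↥L)ˣ →* Qbarˣ := Units.map ((L.val : ↥L →ₐ[ℚ] Qbar) : ↥L →* Qbar)

theorem coe_unitsVal (x : (↥L)ˣ) : ((unitsVal L x : Qbarˣ) : Qbar) = ((x : L) : Qbar) := rfl

theorem unitsVal_injective : Function.Injective (unitsVal L) := by
  intro x y h
  apply Units.ext
  apply Subtype.ext
  exact congrArg (fun z : Qbarˣ => (z : Qbar)) h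

/-- an element of `ℚ̄ˣ` lying in `L` comes from `Lˣ` -/
theorem exists_unitsVal_eq (u : Qbarˣ) (hu : (u : Qbar) ∈ L) : ∃ x : (↥L)ˣ, unitsVal L x = u := by
  refine ⟨Units.mk0 ⟨(u : Qbar), hu⟩ ?_, ?_⟩
  · intro h
    exact u.ne_zero (congrArg Subtype.val h)
  · apply Units.ext
    rfl

variable {S L}

/-- the map `ker divT → E_S ∩ L` -/
noncomputable def esLevelHom (hL : L.IsUnramifiedOutside S) :
    (Interface23.divT S ↥L).ker →* levelSub S L where
  toFun x := ⟨⟨unitsVal L x.1, mem_ESgroup_of_mem_ker_divT S L hL x.1 x.2⟩,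
    ((x.1 : (↥L)ˣ) : L).2⟩
  map_one' := by
    apply Subtype.ext
    apply Subtype.ext
    exact map_one (unitsVal L)
  map_mul' x y := by
    apply Subtype.ext
    apply Subtype.ext
    exact map_mul (unitsVal L) x.1 y.1

theorem esLevelHom_bijective (hL : L.IsUnramifiedOutside S) :
    Function.Bijective (esLevelHom hL) := by
  constructor
  · intro x y h
    apply Subtype.ext
    apply unitsVal_injective L
    exact congrArg (fun z : levelSub S L => ((z : ESgroup S) : Qbarˣ)) h
  · rintro ⟨⟨u, hu⟩, huL⟩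
    obtain ⟨x, hx⟩ := exists_unitsVal_eq L u huL
    refine ⟨⟨x, mem_ker_divT_of_mem_ESgroup S L x (by rw [hx]; exact hu)⟩, ?_⟩
    apply Subtype.ext
    apply Subtype.ext
    exact hx

/-- **(GL2)(b)** the `S`-units of `L` (`= ker divT`) are the elements of `E_S` lying in `L`. -/
noncomputable def esLevel (hL : L.IsUnramifiedOutside S) :
    (Interface23.divT S ↥L).ker ≃* levelSub S L :=
  MulEquiv.ofBijective (esLevelHom hL) (esLevelHom_bijective hL)

@[simp] theorem coe_esLevel (hL : L.IsUnramifiedOutside S) (x : (Interface23.divT S ↥L).ker) :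
    (((esLevel hL x : levelSub S L) : ESgroup S) : Qbarˣ) = unitsVal L x.1 := rfl

theorem coe_coe_esLevel (hL : L.IsUnramifiedOutside S) (x : (Interface23.divT S ↥L).ker) :
    ((((esLevel hL x : levelSub S L) : ESgroup S) : Qbarˣ) : Qbar) = (((x.1 : (↥L)ˣ) : L) : Qbar) :=
  rfl

variable (S L)

/-- **Fixed points.** `b : ES S` is fixed by `Gal(ℚ̄/L)` iff its underlying element lies in `L`. -/
theorem ρ_eq_self_iff_mem (b : ES S) :
    (∀ s ∈ L.fixingSubgroup, (ES S).ρ s b = b) ↔
      (((Additive.toMul (α := ESgroup S) b : ESgroup S) : Qbarˣ) : Qbar) ∈ L := by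
  have key : ∀ s : Γ, (ES S).ρ s b = b ↔
      s (((Additive.toMul (α := ESgroup S) b : ESgroup S) : Qbarˣ) : Qbar) =
        (((Additive.toMul (α := ESgroup S) b : ESgroup S) : Qbarˣ) : Qbar) := by
    intro s
    constructor
    · intro h
      have h1 : Additive.ofMul (s • Additive.toMul (α := ESgroup S) b) = b := h
      have h2 := congrArg (fun z : Additive (ESgroup S) =>
        (((Additive.toMul (α := ESgroup S) z : ESgroup S) : Qbarˣ) : Qbar)) h1
      exact h2
    · intro h
      change Additive.ofMul (s • Additive.toMul (α := ESgroup S) b) = b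
      apply Additive.toMul.injective
      apply Subtype.ext
      apply Units.ext
      exact h
  constructor
  · intro h
    rw [← InfiniteGalois.fixedField_fixingSubgroup L, IntermediateField.mem_fixedField_iff]
    intro s hs
    exact (key s).1 (h s hs)
  · intro h s hs
    exact (key s).2 ((IntermediateField.mem_fixingSubgroup_iff _ _).1 hs _ h)

/-- the invariants of `Gal(ℚ̄/L)` on `ES S` are exactly the image of the `S`-units of `L` -/
theorem exists_esLevel_eq_of_fixed (hL : L.IsUnramifiedOutside S) (b : ES S)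
    (hb : ∀ s ∈ L.fixingSubgroup, (ES S).ρ s b = b) :
    ∃ x : (Interface23.divT S ↥L).ker,
      ((esLevel hL x : levelSub S L) : ESgroup S) = Additive.toMul (α := ESgroup S) b := by
  have hmem := (ρ_eq_self_iff_mem S L b).1 hb
  refine ⟨(esLevel hL).symm ⟨Additive.toMul (α := ESgroup S) b, hmem⟩, ?_⟩
  rw [MulEquiv.apply_symm_apply]

theorem ρ_esLevel (hL : L.IsUnramifiedOutside S) (x : (Interface23.divT S ↥L).ker)
    (s : Γ) (hs : s ∈ L.fixingSubgroup) :
    (ES S).ρ s (Additive.ofMul ((esLevel hL x : levelSub S L) : ESgroup S)) =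
      Additive.ofMul ((esLevel hL x : levelSub S L) : ESgroup S) :=
  (ρ_eq_self_iff_mem S L _).2 (esLevel hL x).2 s hs

/-- Galois equivariance of `Lˣ → ℚ̄ˣ` (`L/ℚ` Galois; Interface23's action of `Gal(L/ℚ)` on `Lˣ`). -/
theorem unitsVal_smul [IsGalois ℚ L] (γ : Γ) (x : (↥L)ˣ) :
    unitsVal L (AlgEquiv.restrictNormalHom L γ • x) = γ • unitsVal L x := by
  apply Units.ext
  exact AlgEquiv.restrictNormal_commutes γ L (x : L)

/-- Galois equivariance of `esLevel`. -/
theorem coe_esLevel_smul [IsGalois ℚ L] (hL : L.IsUnramifiedOutside S) (γ : Γ)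
    (x y : (Interface23.divT S ↥L).ker)
    (hxy : (y : (↥L)ˣ) = AlgEquiv.restrictNormalHom L γ • (x : (↥L)ˣ)) :
    ((esLevel hL y : levelSub S L) : ESgroup S) = γ • ((esLevel hL x : levelSub S L) : ESgroup S) := by
  apply Subtype.ext
  change unitsVal L y.1 = γ • unitsVal L x.1
  rw [hxy, unitsVal_smul]

end Level

end Fermat.Agent.PT.GLUE.ESLevel27
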