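/-
Program F (S55, Poitou–Tate), sub-chapter GLUE, helper21: FINITE LEVELS of `I_S`.

For `L/ℚ` finite Galois inside `ℚ̄`, unramified outside `S`, and a prime `q`:
`theta S q L hL : (L ⊗[ℚ] ℚ_[q])ˣ →* Multiplicative (ISq S q)`, `u ↦ (g ↦ μ_q ((g|_L ⊗ 1) u))`
(`μ_q : L ⊗ ℚ_q → ℚ̄_q` the multiplication map) is injective, `Gal(L/ℚ)`-equivariant, and its image
is the group of `Gal(ℚ̄/L)`-invariants of the smooth coinduction `ISq S q`.
(`L ⊗[ℚ] ℚ_[q] = GLOB.Interface23.Loc L q`, with Interface23's Galois action on the left factor.)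
-/
import Mathlib
import Fermat.Agent.PT.GLUE.Objects21
import Fermat.Agent.PT.BR.LocalLevel13
import Fermat.Agent.PT.GLOB.ShapiroTensor21
import Fermat.Agent.PT.GLOB.Interface23

set_option autoImplicit false
set_option linter.unusedSectionVars false

namespace Fermat.Agent.PT.GLUE.FiniteLevelI21

open scoped TensorProduct
open Fermat.Agent.PT.PRO.LevelCoh28 Fermat.Agent.PT.GLUE.SmCoind21 Fermat.Agent.PT.GLUE.Objects21
open Fermat.Agent.PT.BR.LocInj13 Fermat.Agent.PT.BR.LocalLevel13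
open Fermat.Agent.PT.GLOB.TensorCoind21 Fermat.Agent.PT.GLOB.ShapiroTensor21
open Fermat.Agent.PT.GLOB

local notation "Qbar" => AlgebraicClosure ℚ
local notation "Γ" => (AlgebraicClosure ℚ ≃ₐ[ℚ] AlgebraicClosure ℚ)

local instance isAlgClosureQbarF21 : IsAlgClosure ℚ Qbar := ⟨inferInstance, inferInstance⟩
local instance normalQbarF21 : Normal ℚ Qbar := IsAlgClosure.normal ℚ Qbar
local instance isGaloisQbarF21 : IsGalois ℚ Qbar := IsAlgClosure.isGalois ℚ Qbar

attribute [local instance] algebraLocalField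

variable (q : ℕ) [Fact q.Prime] (L : IntermediateField ℚ Qbar) [FiniteDimensional ℚ L]
  [IsGalois ℚ L]

/-- Swap the tensor factors on units. -/
noncomputable def commU : (L ⊗[ℚ] ℚ_[q])ˣ ≃* (ℚ_[q] ⊗[ℚ] L)ˣ :=
  Units.mapEquiv (Algebra.TensorProduct.comm ℚ L ℚ_[q]).toMulEquiv

@[simp] theorem commU_val (u : (L ⊗[ℚ] ℚ_[q])ˣ) :
    ((commU q L u : (ℚ_[q] ⊗[ℚ] L)ˣ) : ℚ_[q] ⊗[ℚ] L) =
      Algebra.TensorProduct.comm ℚ L ℚ_[q] (u : L ⊗[ℚ] ℚ_[q]) := rfl

/-- The coinduced function on `Gal(L/ℚ)` attached to a unit of `L ⊗ ℚ_q`. -/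
noncomputable def coindFun (u : (L ⊗[ℚ] ℚ_[q])ˣ) : (L ≃ₐ[ℚ] L) → (localField q L)ˣ :=
  (unitsEquiv (isCompositum q L) (commU q L u)).1

theorem coindFun_res (u : (L ⊗[ℚ] ℚ_[q])ˣ) (d : localField q L ≃ₐ[ℚ_[q]] localField q L)
    (σ : L ≃ₐ[ℚ] L) :
    coindFun q L u (res ℚ L ℚ_[q] (localField q L) d * σ) = d • coindFun q L u σ :=
  (unitsEquiv (isCompositum q L) (commU q L u)).2 d σ

theorem coindFun_mul (u v : (L ⊗[ℚ] ℚ_[q])ˣ) (σ : L ≃ₐ[ℚ] L) :
    coindFun q L (u * v) σ = coindFun q L u σ * coindFun q L v σ := by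
  simp only [coindFun, map_mul]
  rfl

theorem coindFun_one (σ : L ≃ₐ[ℚ] L) : coindFun q L 1 σ = 1 := by
  simp only [coindFun, map_one]
  rfl

/-- The underlying element of `ℚ̄_q` of an element of `unitsLoc q`. -/
def locVal (a : unitsLoc q) : PadicAlgCl q :=
  ((Additive.toMul (α := (PadicAlgCl q)ˣ) a : (PadicAlgCl q)ˣ) : PadicAlgCl q)

theorem locVal_injective : Function.Injective (locVal q) := fun _ _ h =>
  Additive.toMul.injective (Units.ext h)

theorem locVal_ρ (h : PadicAlgCl q ≃ₐ[ℚ_[q]] PadicAlgCl q) (a : unitsLoc q) :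
    locVal q ((unitsLoc q).ρ h a) = h (locVal q a) := rfl

theorem locVal_add (a b : unitsLoc q) : locVal q (a + b) = locVal q a * locVal q b := rfl

theorem locVal_zero : locVal q (0 : unitsLoc q) = 1 := rfl

theorem restrictNormalHom_eq_one_of_mem {s : Γ} (hs : s ∈ L.fixingSubgroup) :
    AlgEquiv.restrictNormalHom L s = 1 := by
  refine AlgEquiv.ext fun x => Subtype.ext ?_
  have h2 : (((AlgEquiv.restrictNormalHom L s) x : L) : Qbar) = s (x : Qbar) :=
    AlgEquiv.restrictNormal_commutes s L x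
  rw [h2]
  exact (IntermediateField.mem_fixingSubgroup_iff _ _).1 hs x x.2

/-- The function `Γ → ℚ̄_qˣ` attached to a unit of `L ⊗ ℚ_q`. -/
noncomputable def thetaFun (u : (L ⊗[ℚ] ℚ_[q])ˣ) (g : Γ) : unitsLoc q :=
  Additive.ofMul (Units.map ((localField q L).val : localField q L →* PadicAlgCl q)
    (coindFun q L u (AlgEquiv.restrictNormalHom L g)))

theorem thetaFun_val (u : (L ⊗[ℚ] ℚ_[q])ˣ) (g : Γ) :
    locVal q (thetaFun q L u g) =
      ((coindFun q L u (AlgEquiv.restrictNormalHom L g) : (localField q L)ˣ) : localField q L) :=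
  rfl

theorem thetaFun_equivariant (u : (L ⊗[ℚ] ℚ_[q])ˣ)
    (h : PadicAlgCl q ≃ₐ[ℚ_[q]] PadicAlgCl q) (g : Γ) :
    thetaFun q L u (localGaloisToGlobal q h * g) = (unitsLoc q).ρ h (thetaFun q L u g) := by
  apply locVal_injective
  rw [locVal_ρ, thetaFun_val, thetaFun_val, map_mul, ← res_restrictNormalHom, coindFun_res]
  exact AlgEquiv.restrictNormal_commutes h (localField q L) _

theorem thetaFun_invOn (u : (L ⊗[ℚ] ℚ_[q])ˣ) : InvOn₁ L.fixingSubgroup (thetaFun q L u) := by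
  intro g s hs
  have h1 : AlgEquiv.restrictNormalHom L s = 1 := restrictNormalHom_eq_one_of_mem L hs
  simp only [thetaFun, map_mul, h1, mul_one]

theorem thetaFun_mul (u v : (L ⊗[ℚ] ℚ_[q])ˣ) (g : Γ) :
    thetaFun q L (u * v) g = thetaFun q L u g + thetaFun q L v g := by
  apply locVal_injective
  rw [locVal_add, thetaFun_val, thetaFun_val, thetaFun_val, coindFun_mul]
  rfl

theorem thetaFun_one (g : Γ) : thetaFun q L 1 g = 0 := by
  apply locVal_injective
  rw [locVal_zero, thetaFun_val, coindFun_one]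
  rfl

/-- Interface23's Galois action on `L ⊗ ℚ_q` corresponds to ShapiroTensor21's on `ℚ_q ⊗ L`. -/
theorem comm_smul (σ : L ≃ₐ[ℚ] L) (t : L ⊗[ℚ] ℚ_[q]) :
    Algebra.TensorProduct.comm ℚ L ℚ_[q] (σ • t) =
      galTensor ℚ L ℚ_[q] σ (Algebra.TensorProduct.comm ℚ L ℚ_[q] t) := by
  induction t using TensorProduct.induction_on with
  | zero => simp
  | tmul x y =>
    rw [Interface23.smul_tmul']
    simp
  | add a b ha hb => rw [smul_add, map_add, ha, hb, map_add, map_add]

theorem commU_smul (σ : L ≃ₐ[ℚ] L) (u : (L ⊗[ℚ] ℚ_[q])ˣ) :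
    commU q L (σ • u) = σ • commU q L u := by
  apply Units.ext
  rw [commU_val, Interface23.coe_smul_unitsTensor, comm_smul, units_smul_val, commU_val]

theorem coindFun_smul (τ : L ≃ₐ[ℚ] L) (u : (L ⊗[ℚ] ℚ_[q])ˣ) (σ : L ≃ₐ[ℚ] L) :
    coindFun q L (τ • u) σ = coindFun q L u (σ * τ) := by
  rw [coindFun, commU_smul, unitsEquiv_smul]
  rfl

theorem thetaFun_smul (γ : Γ) (u : (L ⊗[ℚ] ℚ_[q])ˣ) (g : Γ) :
    thetaFun q L (AlgEquiv.restrictNormalHom L γ • u) g = thetaFun q L u (g * γ) := by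
  simp only [thetaFun, coindFun_smul, map_mul]

variable (S : Finset Nat.Primes)

/-- **The finite-level map** `(L ⊗ ℚ_q)ˣ → Coind^{sm}_{Γ_q}^{Γ} ℚ̄_qˣ`. -/
noncomputable def theta (hL : L.IsUnramifiedOutside S) : Additive (L ⊗[ℚ] ℚ_[q])ˣ →+ ISq S q where
  toFun u := SmCoind21.mk _ _ _ (thetaFun q L u.toMul) (thetaFun_equivariant q L _)
    ⟨_, ⟨L, hL, rfl⟩, thetaFun_invOn q L _⟩
  map_zero' := by
    ext g
    rw [toFun_mk, toFun_zero]
    exact thetaFun_one q L g
  map_add' u v := by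
    ext g
    rw [toFun_add, toFun_mk, toFun_mk, toFun_mk]
    exact thetaFun_mul q L _ _ g

variable {S}

@[simp] theorem toFun_theta (hL : L.IsUnramifiedOutside S) (u : Additive (L ⊗[ℚ] ℚ_[q])ˣ) (g : Γ) :
    SmCoind21.toFun _ _ _ (theta q L S hL u) g = thetaFun q L u.toMul g := rfl

/-- Equivariance of `theta`. -/
theorem theta_smul (hL : L.IsUnramifiedOutside S) (γ : Γ) (u : (L ⊗[ℚ] ℚ_[q])ˣ) :
    theta q L S hL (Additive.ofMul (AlgEquiv.restrictNormalHom L γ • u)) =
      (ISq S q).ρ γ (theta q L S hL (Additive.ofMul u)) := by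
  ext g
  rw [toFun_ρ, toFun_theta, toFun_theta]
  exact thetaFun_smul q L γ u g

theorem theta_invOn (hL : L.IsUnramifiedOutside S) (u : Additive (L ⊗[ℚ] ℚ_[q])ˣ) :
    InvOn₁ L.fixingSubgroup (SmCoind21.toFun _ _ _ (theta q L S hL u)) :=
  thetaFun_invOn q L _

theorem theta_injective (hL : L.IsUnramifiedOutside S) :
    Function.Injective (theta q L S hL) := by
  rw [injective_iff_map_eq_zero]
  intro u hu
  have h1 : ∀ σ : L ≃ₐ[ℚ] L, coindFun q L u.toMul σ = 1 := by
    intro σ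
    obtain ⟨g, rfl⟩ := AlgEquiv.restrictNormalHom_surjective (F := ℚ) (K₁ := L) Qbar σ
    have h2 := congrArg (fun f => locVal q (SmCoind21.toFun _ _ _ f g)) hu
    simp only [toFun_theta, toFun_zero] at h2
    rw [thetaFun_val] at h2
    apply Units.ext
    apply Subtype.ext
    exact h2
  have h3 : unitsEquiv (isCompositum q L) (commU q L u.toMul) = 1 := by
    apply Subtype.ext
    funext σ
    exact h1 σ
  have h4 : commU q L u.toMul = 1 := by
    rwa [MulEquiv.map_eq_one_iff] at h3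
  have h5 : u.toMul = 1 := by
    rwa [MulEquiv.map_eq_one_iff] at h4
  exact Additive.toMul.injective h5

/-! ### Surjectivity onto the invariants -/

omit [FiniteDimensional ℚ L] in
theorem mem_fixingSubgroup_of_restrictNormalHom_eq_one {s : Γ}
    (hs : AlgEquiv.restrictNormalHom L s = 1) : s ∈ L.fixingSubgroup := by
  rw [IntermediateField.mem_fixingSubgroup_iff]
  intro x hx
  have h2 : (((AlgEquiv.restrictNormalHom L s) ⟨x, hx⟩ : L) : Qbar) = s x :=
    AlgEquiv.restrictNormal_commutes s L ⟨x, hx⟩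
  rw [hs] at h2
  exact h2.symm

theorem normal_fixingSubgroup : (L.fixingSubgroup).Normal := by
  refine ⟨fun s hs g => ?_⟩
  apply mem_fixingSubgroup_of_restrictNormalHom_eq_one
  rw [map_mul, map_mul, restrictNormalHom_eq_one_of_mem L hs, mul_one, ← map_mul,
    mul_inv_cancel, map_one]

omit [FiniteDimensional ℚ L] in
/-- A right-`Gal(ℚ̄/L)`-invariant function depends only on the restriction to `L`. -/
theorem eq_of_restrictNormalHom_eq {X : Type*} {f : Γ → X} (hf : InvOn₁ L.fixingSubgroup f)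
    {g g' : Γ} (h : AlgEquiv.restrictNormalHom L g = AlgEquiv.restrictNormalHom L g') :
    f g = f g' := by
  have h1 : g⁻¹ * g' ∈ L.fixingSubgroup := by
    apply mem_fixingSubgroup_of_restrictNormalHom_eq_one
    rw [map_mul, map_inv, h, inv_mul_cancel]
  have h2 : g' = g * (g⁻¹ * g') := by group
  rw [h2, hf g _ h1]

local instance isAlgClosurePadicF21 : IsAlgClosure ℚ_[q] (PadicAlgCl q) :=
  ⟨inferInstance, inferInstance⟩
local instance isGaloisPadicF21 : IsGalois ℚ_[q] (PadicAlgCl q) :=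
  IsAlgClosure.isGalois ℚ_[q] (PadicAlgCl q)

/-- The values of a `Gal(ℚ̄/L)`-invariant element of `ISq S q` lie in `L_w`. -/
theorem locVal_mem_localField (f : ISq S q)
    (hf : InvOn₁ L.fixingSubgroup (SmCoind21.toFun _ _ _ f)) (g : Γ) :
    locVal q (SmCoind21.toFun _ _ _ f g) ∈ localField q L := by
  rw [← InfiniteGalois.fixedField_fixingSubgroup (localField q L)]
  rw [IntermediateField.mem_fixedField_iff]
  intro τ hτ
  have h1 : localGaloisToGlobal q τ ∈ L.fixingSubgroup :=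
    (mem_fixingSubgroup_localField_iff q L τ).1 hτ
  have h2 := ρ_toFun_eq_of_invOn f (normal_fixingSubgroup L) hf τ h1 g
  have h3 := congrArg (locVal q) h2
  rw [locVal_ρ] at h3
  exact h3

theorem theta_surjective_of_invOn (hL : L.IsUnramifiedOutside S) (f : ISq S q)
    (hf : InvOn₁ L.fixingSubgroup (SmCoind21.toFun _ _ _ f)) :
    ∃ u, theta q L S hL u = f := by
  classical
  have hsurj := AlgEquiv.restrictNormalHom_surjective (F := ℚ) (K₁ := L) Qbar
  -- the function on `Gal(L/ℚ)`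
  let lift : (L ≃ₐ[ℚ] L) → Γ := Function.surjInv hsurj
  have hlift : ∀ σ, AlgEquiv.restrictNormalHom L (lift σ) = σ := Function.surjInv_eq hsurj
  let y : (L ≃ₐ[ℚ] L) → localField q L := fun σ =>
    ⟨locVal q (SmCoind21.toFun _ _ _ f (lift σ)), locVal_mem_localField q L f hf _⟩
  have hy0 : ∀ σ, y σ ≠ 0 := by
    intro σ h0
    have h1 : locVal q (SmCoind21.toFun _ _ _ f (lift σ)) = 0 := congrArg Subtype.val h0
    exact (Additive.toMul (α := (PadicAlgCl q)ˣ) (SmCoind21.toFun _ _ _ f (lift σ))).ne_zero h1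
  let F : (L ≃ₐ[ℚ] L) → (localField q L)ˣ := fun σ => Units.mk0 (y σ) (hy0 σ)
  have hF : F ∈ coindUnits ℚ L ℚ_[q] (localField q L) := by
    intro d σ
    obtain ⟨τ, rfl⟩ := restrictNormalHom_localField_surjective q L d
    apply Units.ext
    apply Subtype.ext
    change locVal q (SmCoind21.toFun _ _ _ f (lift _)) =
      (((AlgEquiv.restrictNormalHom (localField q L) τ) (y σ) : localField q L) : PadicAlgCl q)
    have h1 : (((AlgEquiv.restrictNormalHom (localField q L) τ) (y σ) : localField q L) :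
        PadicAlgCl q) = τ (y σ : PadicAlgCl q) :=
      AlgEquiv.restrictNormal_commutes τ (localField q L) (y σ)
    rw [h1]
    have h2 : SmCoind21.toFun _ _ _ f (lift (res ℚ L ℚ_[q] (localField q L)
        (AlgEquiv.restrictNormalHom (localField q L) τ) * σ)) =
        SmCoind21.toFun _ _ _ f (localGaloisToGlobal q τ * lift σ) := by
      apply eq_of_restrictNormalHom_eq L hf
      rw [hlift, map_mul, hlift, res_restrictNormalHom]
    rw [h2, toFun_equivariant, locVal_ρ]
  refine ⟨Additive.ofMul ((commU q L).symm ((unitsEquiv (isCompositum q L)).symm ⟨F, hF⟩)), ?_⟩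
  ext g
  rw [toFun_theta]
  apply locVal_injective
  rw [thetaFun_val, toMul_ofMul, coindFun, MulEquiv.apply_symm_apply, MulEquiv.apply_symm_apply]
  change locVal q (SmCoind21.toFun _ _ _ f (lift _)) = _
  congr 1
  exact eq_of_restrictNormalHom_eq L hf (hlift _)

/-! ### The explicit formula: `theta u g = μ_q ((g|_L ⊗ 1) u)` -/

local instance isScalarTowerPadicF21 : IsScalarTower ℚ ℚ_[q] (PadicAlgCl q) :=
  IsScalarTower.of_algebraMap_eq' (Subsingleton.elim _ _)

/-- The multiplication map `L ⊗ ℚ_q → ℚ̄_q`, `x ⊗ a ↦ ι_q x * a`. -/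
noncomputable def mulMap : L ⊗[ℚ] ℚ_[q] →ₐ[ℚ] PadicAlgCl q :=
  Algebra.TensorProduct.lift ((padicEmbedding q).comp L.val)
    ((Algebra.ofId ℚ_[q] (PadicAlgCl q)).restrictScalars ℚ) fun _ _ => Commute.all _ _

@[simp] theorem mulMap_tmul (x : L) (a : ℚ_[q]) :
    mulMap q L (x ⊗ₜ[ℚ] a) = padicEmbedding q (x : Qbar) * algebraMap ℚ_[q] (PadicAlgCl q) a := by
  simp only [mulMap, Algebra.TensorProduct.lift_tmul, AlgHom.coe_comp, Function.comp_apply,
    AlgHom.coe_restrictScalars', Algebra.ofId_apply]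
  rfl

theorem coe_Phi_comm (t : L ⊗[ℚ] ℚ_[q]) (σ : L ≃ₐ[ℚ] L) :
    ((Phi ℚ L ℚ_[q] (localField q L) (Algebra.TensorProduct.comm ℚ L ℚ_[q] t) σ :
      localField q L) : PadicAlgCl q) = mulMap q L (σ • t) := by
  induction t using TensorProduct.induction_on with
  | zero => simp
  | tmul x a =>
    rw [Interface23.smul_tmul', mulMap_tmul, Algebra.TensorProduct.comm_tmul, Phi_tmul, mul_comm]
    rfl
  | add a b ha hb =>
    rw [map_add, map_add, Pi.add_apply, smul_add, map_add, ← ha, ← hb]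
    rfl

theorem coe_coindFun (u : (L ⊗[ℚ] ℚ_[q])ˣ) (σ : L ≃ₐ[ℚ] L) :
    ((coindFun q L u σ : (localField q L)ˣ) : PadicAlgCl q) =
      mulMap q L (σ • (u : L ⊗[ℚ] ℚ_[q])) := by
  rw [← coe_Phi_comm]
  rfl

/-- **Explicit formula** for `theta`. -/
theorem locVal_thetaFun (u : (L ⊗[ℚ] ℚ_[q])ˣ) (g : Γ) :
    locVal q (thetaFun q L u g) =
      mulMap q L (AlgEquiv.restrictNormalHom L g • (u : L ⊗[ℚ] ℚ_[q])) := by
  rw [thetaFun_val, coe_coindFun]

/-! ### All `q ∈ S` together: `Θ_L : IT S L → I_S` -/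

section Assembled

/-- **`Θ_L : ∏_{q ∈ S} (L ⊗ ℚ_q)ˣ → I_S`.** -/
noncomputable def thetaS (hL : L.IsUnramifiedOutside S) : Additive (Interface23.IT S L) →+ IS S :=
  (ISequiv S).symm.toLinearMap.toAddMonoidHom.comp
    (AddMonoidHom.pi fun q : ↥S =>
      (theta ((q : Nat.Primes) : ℕ) L S hL).comp
        (MonoidHom.toAdditive
          (Pi.evalMonoidHom (fun q : ↥S => (Interface23.Loc L (q : Nat.Primes))ˣ) q)))

@[simp] theorem ISequiv_thetaS (hL : L.IsUnramifiedOutside S) (u : Additive (Interface23.IT S L))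
    (q : ↥S) :
    ISequiv S (thetaS L hL u) q =
      theta ((q : Nat.Primes) : ℕ) L S hL (Additive.ofMul (Additive.toMul u q)) := by
  change ISequiv S ((ISequiv S).symm _) q = _
  rw [LinearEquiv.apply_symm_apply]
  rfl

/-- Equivariance of `Θ_L`. -/
theorem thetaS_smul (hL : L.IsUnramifiedOutside S) (γ : Γ) (u : Interface23.IT S L) :
    thetaS L hL (Additive.ofMul (AlgEquiv.restrictNormalHom L γ • u)) =
      (IS S).ρ γ (thetaS L hL (Additive.ofMul u)) := by
  apply (ISequiv S).injective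
  funext q
  rw [ISequiv_thetaS, ISequiv_ρ, ISequiv_thetaS]
  exact theta_smul ((q : Nat.Primes) : ℕ) L hL γ (u q)

theorem thetaS_injective (hL : L.IsUnramifiedOutside S) : Function.Injective (thetaS L hL) := by
  intro u v h
  apply Additive.toMul.injective
  funext q
  have h1 := congrFun (congrArg (ISequiv S) h) q
  rw [ISequiv_thetaS, ISequiv_thetaS] at h1
  exact Additive.ofMul.injective (theta_injective ((q : Nat.Primes) : ℕ) L hL h1)

/-- The image of `Θ_L` consists of `Gal(ℚ̄/L)`-invariants. -/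
theorem ρ_thetaS (hL : L.IsUnramifiedOutside S) (u : Additive (Interface23.IT S L)) {s : Γ}
    (hs : s ∈ L.fixingSubgroup) : (IS S).ρ s (thetaS L hL u) = thetaS L hL u := by
  apply (ISequiv S).injective
  funext q
  rw [ISequiv_ρ, ISequiv_thetaS]
  exact (ρ_eq_self_iff _ _).2 (theta_invOn ((q : Nat.Primes) : ℕ) L hL _) s hs

/-- **The image of `Θ_L` is the group of `Gal(ℚ̄/L)`-invariants of `I_S`.** -/
theorem exists_thetaS_eq (hL : L.IsUnramifiedOutside S) (x : IS S)
    (hx : ∀ s ∈ L.fixingSubgroup, (IS S).ρ s x = x) : ∃ u, thetaS L hL u = x := by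
  have h1 : ∀ q : ↥S, ∃ u, theta ((q : Nat.Primes) : ℕ) L S hL u = ISequiv S x q := by
    intro q
    apply theta_surjective_of_invOn
    rw [← ρ_eq_self_iff]
    intro s hs
    have := congrFun (congrArg (ISequiv S) (hx s hs)) q
    rwa [ISequiv_ρ] at this
  choose u hu using h1
  refine ⟨Additive.ofMul fun q => Additive.toMul (u q), ?_⟩
  apply (ISequiv S).injective
  funext q
  rw [ISequiv_thetaS]
  exact hu q

/-- `Θ_L` is compatible with the diagonal embeddings `Lˣ → IT S L` and `E_S → I_S`. -/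
theorem thetaS_diagI (hL : L.IsUnramifiedOutside S) (x : Lˣ) (b : ESgroup S)
    (hb : ((b : Qbarˣ) : Qbar) = ((x : L) : Qbar)) :
    thetaS L hL (Additive.ofMul (Interface23.diagI S L x)) = diag S (Additive.ofMul b : ES S) := by
  apply (ISequiv S).injective
  funext q
  rw [ISequiv_thetaS, ISequiv_diag]
  ext g
  rw [toFun_theta, toFun_diagq]
  apply locVal_injective
  rw [locVal_thetaFun]
  change mulMap _ L (AlgEquiv.restrictNormalHom L g • ((x : L) ⊗ₜ[ℚ] (1 : ℚ_[((q : Nat.Primes) : ℕ)]))) =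
    padicEmbedding _ (g ((b : Qbarˣ) : Qbar))
  rw [Interface23.smul_tmul', mulMap_tmul, map_one, mul_one, hb]
  congr 1
  exact AlgEquiv.restrictNormal_commutes g L (x : L)

end Assembled

end Fermat.Agent.PT.GLUE.FiniteLevelI21
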