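/-
Program F (S55, Poitou–Tate), sub-chapter GLUE, helper21: the finite LEVELS as a type.

`Lev S` = finite Galois extensions `F/ℚ` inside `ℚ̄` unramified outside `S`, bundled so that the
instances (`FiniteDimensional`, `IsGalois`, and for `K ≤ L` (as a `Fact`) the tower structure
`Algebra K.F L.F`, `IsScalarTower ℚ K.F L.F`, `IsGalois K.F L.F`) are found by instance search, and
GLOB's statements (abstract number fields `K L : Type` with `[Algebra K L] [IsGalois K L]`) can be
instantiated at the levels.  Tower compatibility of `FiniteLevelI21.thetaS`.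
-/
import Mathlib
import Fermat.Agent.PT.GLUE.FiniteLevelI21
import Fermat.Agent.PT.BR.UnramGlob13
import Fermat.Agent.PT.GLOB.Devissage19
import Fermat.Agent.PT.GLOB.TowerMaps6

set_option autoImplicit false
set_option linter.unusedSectionVars false

namespace Fermat.Agent.PT.GLUE.Levels21

open scoped TensorProduct
open Fermat.Agent.PT.PRO.LevelCoh28 Fermat.Agent.PT.GLUE.SmCoind21 Fermat.Agent.PT.GLUE.Objects21
open Fermat.Agent.PT.GLUE.FiniteLevelI21
open Fermat.Agent.PT.GLOB

local notation "Qbar" => AlgebraicClosure ℚ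
local notation "Γ" => (AlgebraicClosure ℚ ≃ₐ[ℚ] AlgebraicClosure ℚ)

local instance isAlgClosureQbarL21 : IsAlgClosure ℚ Qbar := ⟨inferInstance, inferInstance⟩
local instance normalQbarL21 : Normal ℚ Qbar := IsAlgClosure.normal ℚ Qbar
local instance isGaloisQbarL21 : IsGalois ℚ Qbar := IsAlgClosure.isGalois ℚ Qbar

/-- All `ℚ`-algebra structures on a ring agree: transport of `IsGalois` between them (the
`DivisionRing.toRatAlgebra` / `IntermediateField.algebra'` diamond). -/
theorem isGalois_rat_congr {F : Type*} [Field F] (a b : Algebra ℚ F)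
    (h : @IsGalois ℚ _ F _ a) : @IsGalois ℚ _ F _ b := by
  have hab : a = b := Subsingleton.elim _ _
  subst hab
  exact h

/-- A finite level of `G_S`: a finite Galois extension of `ℚ` in `ℚ̄` unramified outside `S`. -/
structure Lev (S : Finset Nat.Primes) where
  /-- the field -/
  F : IntermediateField ℚ Qbar
  fd : FiniteDimensional ℚ F
  gal : IsGalois ℚ F
  unr : F.IsUnramifiedOutside S

variable {S : Finset Nat.Primes}

instance (L : Lev S) : FiniteDimensional ℚ L.F := L.fd
instance (L : Lev S) : IsGalois ℚ L.F := L.gal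

/-- The open normal subgroup `Gal(ℚ̄/L)`. -/
noncomputable def Lev.U (L : Lev S) : Subgroup Γ := L.F.fixingSubgroup

theorem Lev.U_mem (L : Lev S) : L.U ∈ (levelS S).sets := ⟨L.F, L.unr, rfl⟩

instance (L : Lev S) : (L.U).Normal := normal_fixingSubgroup L.F

/-- The levels are cofinal in the level basis. -/
theorem exists_lev_le {U : Subgroup Γ} (hU : U ∈ (levelS S).sets) : ∃ L : Lev S, L.U ≤ U := by
  obtain ⟨F, hF, rfl⟩ := hU
  have := hF.1
  refine ⟨⟨IntermediateField.normalClosure ℚ F Qbar, normalClosure.is_finiteDimensional ℚ F Qbar,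
    IsGalois.normalClosure ℚ F Qbar,
    Fermat.Agent.PT.BR.UnramBridge13.isUnramifiedOutside_normalClosure hF⟩, ?_⟩
  exact IntermediateField.fixingSubgroup_antitone (IntermediateField.le_normalClosure F)

/-- The compositum of two levels. -/
noncomputable def Lev.sup (K L : Lev S) : Lev S where
  F := K.F ⊔ L.F
  fd := IntermediateField.finiteDimensional_sup K.F L.F
  gal := by
    have h1 : @IsGalois ℚ _ K.F _ (IntermediateField.algebra' K.F) :=
      isGalois_rat_congr _ _ K.gal
    have h2 : @IsGalois ℚ _ L.F _ (IntermediateField.algebra' L.F) :=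
      isGalois_rat_congr _ _ L.gal
    have h3 : @IsGalois ℚ _ ↥(K.F ⊔ L.F) _ (IntermediateField.algebra' (K.F ⊔ L.F)) :=
      inferInstance
    exact isGalois_rat_congr _ _ h3
  unr := K.unr.sup L.unr

theorem Lev.le_sup_left (K L : Lev S) : K.F ≤ (K.sup L).F :=
  (_root_.le_sup_left : K.F ≤ K.F ⊔ L.F)
theorem Lev.le_sup_right (K L : Lev S) : L.F ≤ (K.sup L).F :=
  (_root_.le_sup_right : L.F ≤ K.F ⊔ L.F)

/-! ### Towers of levels -/

section Tower

variable (K L : Lev S) [h : Fact (K.F ≤ L.F)]

/-- `L` as an algebra over the smaller level `K`. -/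
noncomputable instance algTower : Algebra K.F L.F :=
  (IntermediateField.inclusion h.out).toRingHom.toAlgebra

theorem coe_algebraMap_tower (x : K.F) : ((algebraMap K.F L.F x : L.F) : Qbar) = (x : Qbar) := rfl

instance isScalarTower_tower : IsScalarTower ℚ K.F L.F :=
  IsScalarTower.of_algebraMap_eq' (Subsingleton.elim _ _)

instance isGalois_tower : IsGalois K.F L.F := IsGalois.tower_top_of_isGalois ℚ K.F L.F

/-- `L/K` is unramified outside `S` in GLOB's sense. -/
theorem isUnramifiedOutside_tower : Interface23.IsUnramifiedOutside S K.F L.F :=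
  Devissage19.isUnramifiedOutside_top S ℚ K.F L.F
    ((Fermat.Agent.PT.BR.UnramGlob13.isUnramifiedOutside_iff S L.F).1 L.unr)

/-- Restriction in stages. -/
theorem restrictNormalHom_tower (g : Γ) (x : K.F) :
    algebraMap K.F L.F (AlgEquiv.restrictNormalHom K.F g x) =
      AlgEquiv.restrictNormalHom L.F g (algebraMap K.F L.F x) := by
  apply Subtype.ext
  have h1 : (((AlgEquiv.restrictNormalHom K.F g) x : K.F) : Qbar) = g (x : Qbar) :=
    AlgEquiv.restrictNormal_commutes g K.F x
  have h2 : (((AlgEquiv.restrictNormalHom L.F g) (algebraMap K.F L.F x) : L.F) : Qbar) =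
      g ((algebraMap K.F L.F x : L.F) : Qbar) :=
    AlgEquiv.restrictNormal_commutes g L.F _
  rw [coe_algebraMap_tower, h1, h2, coe_algebraMap_tower]

/-- The multiplication maps are compatible with extension of scalars and restriction. -/
theorem mulMap_locMap (q : Nat.Primes) (g : Γ) (t : Interface23.Loc K.F q) :
    mulMap (q : ℕ) L.F (AlgEquiv.restrictNormalHom L.F g • Tower23.locMap K.F L.F q t) =
      mulMap (q : ℕ) K.F (AlgEquiv.restrictNormalHom K.F g • t) := by
  induction t using TensorProduct.induction_on with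
  | zero => simp
  | tmul x a =>
    rw [Tower23.locMap_tmul, Interface23.smul_tmul', Interface23.smul_tmul', mulMap_tmul,
      mulMap_tmul, ← restrictNormalHom_tower, coe_algebraMap_tower]
  | add a b ha hb => rw [map_add, smul_add, map_add, ha, hb, smul_add, map_add]

/-- **Tower compatibility of `Θ`**: `Θ_L ∘ inclI = Θ_K`. -/
theorem thetaS_inclI (u : Interface23.IT S K.F) :
    thetaS L.F L.unr (Additive.ofMul (Tower23.inclI S K.F L.F u)) =
      thetaS K.F K.unr (Additive.ofMul u) := by
  apply (ISequiv S).injective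
  funext q
  rw [ISequiv_thetaS, ISequiv_thetaS]
  ext g
  rw [toFun_theta, toFun_theta]
  apply locVal_injective
  rw [locVal_thetaFun, locVal_thetaFun]
  exact mulMap_locMap K L (q : Nat.Primes) g _

end Tower

/-! ### Every element of `I_S` comes from a finite level -/

/-- Every element of `I_S` is fixed by `Gal(ℚ̄/L)` for a level `L` containing a given one. -/
theorem exists_lev_fixing (K : Lev S) (x : IS S) :
    ∃ L : Lev S, K.F ≤ L.F ∧ ∀ s ∈ L.U, (IS S).ρ s x = x := by
  obtain ⟨U, hU, hx⟩ := isDiscrete_IS S x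
  obtain ⟨L, hL⟩ := exists_lev_le hU
  refine ⟨K.sup L, K.le_sup_left L, fun s hs => hx s (hL ?_)⟩
  exact IntermediateField.fixingSubgroup_antitone (K.le_sup_right L) hs

/-- Every element of `I_S` is in the image of `Θ_L` for a level `L` containing a given one. -/
theorem exists_lev_thetaS_eq (K : Lev S) (x : IS S) :
    ∃ L : Lev S, K.F ≤ L.F ∧ ∃ u, thetaS L.F L.unr u = x := by
  obtain ⟨L, hKL, hx⟩ := exists_lev_fixing K x
  exact ⟨L, hKL, exists_thetaS_eq L.F L.unr x hx⟩

end Fermat.Agent.PT.GLUE.Levels21
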