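/-
Program F (S55, Poitou–Tate), sub-chapter GLUE — helper27.  (CAP) **`p`-primary capitulation inside
`ℚ_S`** (`p ∈ S`).

* `exists_lev_principal` : a divisor `D` (prime to `S`) of a level `K` with `D ^ (p ^ a)` principal
  becomes principal in a bigger level `L` (adjoin successively `p`-th roots: the Kummer extensions
  are unramified outside `S` by helper15's `KummerUnramA15`);
* `exists_coprime_capitulates` : there is `m` prime to `p` such that for every `c ∈ C_S(K)` the class
  `c ^ m` is represented, in a bigger level `L`, by an idele with trivial divisor part.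
-/
import Mathlib
import Fermat.Agent.PT.GLUE.Levels21
import Fermat.Agent.PT.GLUE.ESLevel27
import Fermat.Agent.PT.GLOB.KummerUnramA15
import Fermat.Agent.PT.GLOB.FirstIneq16
import Fermat.Agent.PT.GLOB.TowerTrans23
import Fermat.Agent.PT.GLOB.ClassKillCT15

set_option autoImplicit false
set_option linter.unusedSectionVars false

namespace Fermat.Agent.PT.GLUE.Capitulation27

open NumberField IsDedekindDomain
open Fermat.Agent.PT.GLUE.Objects21 Fermat.Agent.PT.GLUE.Levels21 Fermat.Agent.PT.GLOB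
open Fermat.Agent.PT.GLOB.SelmerFinite15 Fermat.Agent.PT.GLOB.H1Finite15

local notation "Qbar" => AlgebraicClosure ℚ
local notation "Γ" => (AlgebraicClosure ℚ ≃ₐ[ℚ] AlgebraicClosure ℚ)

local instance isAlgClosureQbarC27 : IsAlgClosure ℚ Qbar := ⟨inferInstance, inferInstance⟩
local instance normalQbarC27 : Normal ℚ Qbar := IsAlgClosure.normal ℚ Qbar
local instance isGaloisQbarC27 : IsGalois ℚ Qbar := IsAlgClosure.isGalois ℚ Qbar

variable {S : Finset Nat.Primes}

/-! ### Divisors: powers -/

section Div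

variable (S) (L : Type*) [Field L] [NumberField L]

theorem toFinsupp_pow (D : Interface23.DivT S L) (n : ℕ) (P : Interface23.PrimeAway S L) :
    Interface23.DivT.toFinsupp S L (D ^ n) P = (n : ℤ) * Interface23.DivT.toFinsupp S L D P := by
  have h : Interface23.DivT.toFinsupp S L (D ^ n) = n • Interface23.DivT.toFinsupp S L D :=
    toAdd_pow (α := Interface23.PrimeAway S L →₀ ℤ) D n
  rw [h, Finsupp.smul_apply, nsmul_eq_mul]

/-- `DivT` is torsion free. -/
theorem divT_pow_left_injective {n : ℕ} (hn : n ≠ 0) {D E : Interface23.DivT S L}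
    (h : D ^ n = E ^ n) : D = E := by
  apply ClassAction23.divT_ext
  intro P
  have h1 := congrArg (fun X => Interface23.DivT.toFinsupp S L X P) h
  simp only [toFinsupp_pow] at h1
  exact mul_left_cancel₀ (by exact_mod_cast hn) h1

end Div

/-! ### Selmer elements from divisors which are `p`-th powers -/

section Selmer

variable (S) (K : IntermediateField ℚ Qbar) [FiniteDimensional ℚ K]

theorem mem_selSub_of_pow_eq (p n : ℕ) (D : Interface23.DivT S K) (α : (↥K)ˣ)
    (h : D ^ (p * n) = Interface23.divT S K α) :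
    α ∈ selSub (R := 𝓞 K) (K := K) (primesAboveS S K) p := by
  intro v hv
  have hP : ∀ q ∈ S, (((q : ℕ) : ℤ) : 𝓞 K) ∉ v.asIdeal := by
    intro q hq hmem
    apply hv
    refine ⟨q, hq, ?_⟩
    rwa [Int.cast_natCast] at hmem
  have h1 : Interface23.ordAt K v α =
      ((p * n : ℕ) : ℤ) * Interface23.DivT.toFinsupp S K D ⟨v, hP⟩ := by
    rw [← toFinsupp_pow, h]
    rfl
  rw [ClassKillCT15.ordAt_eq_neg_toAdd] at h1
  refine ⟨-((n : ℤ) * Interface23.DivT.toFinsupp S K D ⟨v, hP⟩), ?_⟩
  have h2 : Multiplicative.toAdd (v.valuationOfNeZero α) =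
      -(((p * n : ℕ) : ℤ) * Interface23.DivT.toFinsupp S K D ⟨v, hP⟩) := by
    rw [← h1, neg_neg]
  rw [h2]
  push_cast
  ring

end Selmer

/-! ### The level generated by a field unramified outside `S` -/

/-- the Galois closure of a field unramified outside `S`, as a level -/
noncomputable def levOf (F : IntermediateField ℚ Qbar) (hF : F.IsUnramifiedOutside S) : Lev S :=
  have := hF.1
  ⟨IntermediateField.normalClosure ℚ F Qbar, normalClosure.is_finiteDimensional ℚ F Qbar,
    IsGalois.normalClosure ℚ F Qbar,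
    Fermat.Agent.PT.BR.UnramBridge13.isUnramifiedOutside_normalClosure hF⟩

theorem le_levOf (F : IntermediateField ℚ Qbar) (hF : F.IsUnramifiedOutside S) :
    F ≤ (levOf F hF).F :=
  IntermediateField.le_normalClosure F

/-! ### (a) principalisation of divisors of `p`-power order -/

section Principal

variable (p : ℕ) (hp : p.Prime) (hpS : (⟨p, hp⟩ : Nat.Primes) ∈ S)

include hpS

/-- **(CAP)(a)** a divisor of a level whose `p ^ a`-th power is principal becomes principal in a
bigger level. -/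
theorem exists_lev_principal (K : Lev S) (a : ℕ) (D : Interface23.DivT S K.F) (α : (↥K.F)ˣ)
    (h : D ^ (p ^ a) = Interface23.divT S K.F α) :
    ∃ (L : Lev S) (_ : Fact (K.F ≤ L.F)) (y : (↥L.F)ˣ),
      Interface23.divT S L.F y = Tower23.inclDiv S K.F L.F D := by
  induction a generalizing K D α with
  | zero =>
    have hK : Fact (K.F ≤ K.F) := ⟨le_rfl⟩
    refine ⟨K, hK, α, ?_⟩
    have h1 := @Tower23.inclDiv_divT S K.F K.F _ _ _ _ (algTower K K) α
    have h2 : Units.map (@algebraMap K.F K.F _ _ (algTower K K) : K.F →* K.F) α = α :=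
      Units.ext (Subtype.ext rfl)
    rw [h2] at h1
    rw [← h1, ← h, pow_zero, pow_one]
  | succ a ih =>
    -- a `p`-th root of `α`
    obtain ⟨β, hβ⟩ := IsAlgClosed.exists_pow_nat_eq (((α : K.F) : Qbar)) hp.pos
    have hsel : α ∈ selSub (R := 𝓞 K.F) (K := K.F) (primesAboveS S K.F) p :=
      mem_selSub_of_pow_eq S K.F p (p ^ a) D α (by rw [← pow_succ']; exact h)
    have hF₁ := KummerUnramA15.isUnramifiedOutside_adjoin_root S K.F hp hpS K.unr α hsel β hβ
    set L₁ : Lev S := levOf _ hF₁ with hL₁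
    have hKL₁ : K.F ≤ L₁.F := le_trans le_sup_left (le_levOf _ hF₁)
    have hβL₁ : β ∈ L₁.F :=
      le_levOf _ hF₁ ((le_sup_right : IntermediateField.adjoin ℚ {β} ≤ _)
        (IntermediateField.mem_adjoin_simple_self ℚ β))
    have hfact₁ : Fact (K.F ≤ L₁.F) := ⟨hKL₁⟩
    have hβ0 : (⟨β, hβL₁⟩ : L₁.F) ≠ 0 := by
      intro h0
      have h1 : β = 0 := congrArg Subtype.val h0
      rw [h1, zero_pow hp.ne_zero] at hβ
      exact α.ne_zero (Subtype.ext hβ.symm)
    set y₁ : (↥L₁.F)ˣ := Units.mk0 ⟨β, hβL₁⟩ hβ0 with hy₁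
    have hy₁p : y₁ ^ p = Units.map (algebraMap K.F L₁.F : K.F →* L₁.F) α := by
      apply Units.ext
      apply Subtype.ext
      rw [Units.val_pow_eq_pow_val]
      exact hβ
    have hdiv : Interface23.divT S L₁.F y₁ = (Tower23.inclDiv S K.F L₁.F D) ^ (p ^ a) := by
      apply divT_pow_left_injective S L₁.F hp.ne_zero
      rw [← map_pow, hy₁p, ← Tower23.inclDiv_divT, ← h, ← pow_mul, ← pow_succ, map_pow]
    obtain ⟨L, hfact, y, hy⟩ := ih L₁ (Tower23.inclDiv S K.F L₁.F D) y₁ hdiv.symm
    have hKL : Fact (K.F ≤ L.F) := ⟨hKL₁.trans hfact.out⟩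
    have htower : IsScalarTower K.F L₁.F L.F := IsScalarTower.of_algebraMap_eq (fun _ => rfl)
    refine ⟨L, hKL, y, ?_⟩
    rw [hy, TowerTrans23.inclDiv_inclDiv]

/-- **(CAP)(b)** there is `m` prime to `p` such that for every class `c ∈ C_S(K)` the class `c ^ m`
is represented, in a bigger level, by an idele with trivial divisor part. -/
theorem exists_coprime_capitulates (K : Lev S) :
    ∃ m : ℕ, 0 < m ∧ Nat.Coprime p m ∧ ∀ c : Interface23.CT S K.F,
      ∃ (L : Lev S) (_ : Fact (K.F ≤ L.F)) (ι : Interface23.IT S L.F),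
        Tower23.inclCT S K.F L.F (c ^ m) = Interface23.toCT S L.F (ι, 1) := by
  have hfin : Finite (Interface23.DivT S K.F ⧸ (Interface23.divT S K.F).range) :=
    FirstIneq16.finite_classGroupT S K.F
  set h : ℕ := Nat.card (Interface23.DivT S K.F ⧸ (Interface23.divT S K.F).range) with hh
  have hh0 : h ≠ 0 := Nat.card_pos.ne'
  obtain ⟨a, m, hpm, hham⟩ := Nat.exists_eq_pow_mul_and_not_dvd hh0 p hp.ne_one
  have hm0 : 0 < m := by
    rcases Nat.eq_zero_or_pos m with h0 | h0
    · rw [h0, mul_zero] at hham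
      exact absurd hham hh0
    · exact h0
  refine ⟨m, hm0, (Nat.Prime.coprime_iff_not_dvd hp).2 hpm, fun c => ?_⟩
  obtain ⟨⟨i, D⟩, rfl⟩ := QuotientGroup.mk'_surjective (Interface23.diagJ S K.F).range c
  -- `D ^ h` is principal
  have hDh : D ^ h ∈ (Interface23.divT S K.F).range := by
    rw [← QuotientGroup.eq_one_iff, QuotientGroup.mk_pow, hh]
    exact pow_card_eq_one'
  obtain ⟨α, hα⟩ := hDh
  have hDm : (D ^ m) ^ (p ^ a) = Interface23.divT S K.F α := by
    rw [← pow_mul, mul_comm, ← hham, hα]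
  obtain ⟨L, hfact, y, hy⟩ := exists_lev_principal p hp hpS K a (D ^ m) α hDm
  refine ⟨L, hfact, Tower23.inclI S K.F L.F (i ^ m) * (Interface23.diagI S L.F y)⁻¹, ?_⟩
  change Tower23.inclCT S K.F L.F ((Interface23.toCT S K.F (i, D)) ^ m) = _
  rw [← map_pow, Tower23.inclCT_toCT]
  have hJ : Tower23.inclJ S K.F L.F ((i, D) ^ m) =
      (Tower23.inclI S K.F L.F (i ^ m) * (Interface23.diagI S L.F y)⁻¹, 1) *
        Interface23.diagJ S L.F y := by
    apply Prod.ext
    · change Tower23.inclI S K.F L.F (i ^ m) =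
        Tower23.inclI S K.F L.F (i ^ m) * (Interface23.diagI S L.F y)⁻¹ * Interface23.diagI S L.F y
      rw [inv_mul_cancel_right]
    · change Tower23.inclDiv S K.F L.F (D ^ m) = 1 * Interface23.divT S L.F y
      rw [one_mul, hy]
  rw [hJ, map_mul]
  have h1 : Interface23.toCT S L.F (Interface23.diagJ S L.F y) = 1 :=
    (QuotientGroup.eq_one_iff _).2 ⟨y, rfl⟩
  rw [h1, mul_one]

end Principal

end Fermat.Agent.PT.GLUE.Capitulation27
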