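/-
Program F (S55, Poitou–Tate), sub-chapter GLUE, helper21: (GL3) the comparison
`Φ_K : (C_S)^{Gal(ℚ̄/K)} ↪ CT S K` between the invariants of the limit module `C_S = I_S / E_S`
(`Objects21.CS S`) and GLOB's finite-level `S`-idele class group `CT S K` (`Interface23`),
for the finite levels `K : Lev S` (`Levels21`).

* `toCS_thetaS_eq_iff` (KEY): for `ι ι' ∈ IT S L`, the classes of `Θ_L ι`, `Θ_L ι'` in `C_S` agree
  iff the classes of `(ι,1)`, `(ι',1)` in `CT S L` agree (both say `ι/ι'` is an `S`-unit of `L`);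
* `Rel K x c`: "`x = [Θ_L ι]` and `inclCT c = [(ι,1)]` for some level `L ⊇ K` and `ι ∈ IT S L`";
  total on the `Gal(ℚ̄/K)`-invariants (`exists_rel`, Galois descent `TowerMaps6` (BC4)), functional
  (`rel_unique`), additive, injective, equivariant;
* `phi K hS x hx : CT S K` with its API, and the description of its range (`exists_phi_eq`).
-/
import Mathlib
import Fermat.Agent.PT.GLUE.Levels21
import Fermat.Agent.PT.GLUE.ESLevel27
import Fermat.Agent.PT.GLOB.TowerTrans23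
import Fermat.Agent.PT.GLOB.TowerMaps6

set_option autoImplicit false
set_option linter.unusedSectionVars false
set_option linter.style.haveILetI false

namespace Fermat.Agent.PT.GLUE.LevelCT21

open scoped TensorProduct
open Fermat.Agent.PT.PRO.LevelCoh28 Fermat.Agent.PT.GLUE.SmCoind21 Fermat.Agent.PT.GLUE.Objects21
open Fermat.Agent.PT.GLUE.FiniteLevelI21 Fermat.Agent.PT.GLUE.Levels21
open Fermat.Agent.PT.GLUE.ESLevel27
open Fermat.Agent.PT.GLOB

local notation "Qbar" => AlgebraicClosure ℚ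
local notation "Γ" => (AlgebraicClosure ℚ ≃ₐ[ℚ] AlgebraicClosure ℚ)

local instance isAlgClosureQbarC21 : IsAlgClosure ℚ Qbar := ⟨inferInstance, inferInstance⟩
local instance normalQbarC21 : Normal ℚ Qbar := IsAlgClosure.normal ℚ Qbar
local instance isGaloisQbarC21 : IsGalois ℚ Qbar := IsAlgClosure.isGalois ℚ Qbar

variable {S : Finset Nat.Primes}

/-! ### Shortcut instances (instance search for the Galois actions on `IT`, `CT` is slow) -/

noncomputable instance instActIT (L : Lev S) :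
    MulDistribMulAction (↥L.F ≃ₐ[ℚ] ↥L.F) (Interface23.IT S L.F) := inferInstance

noncomputable instance instActCT (L : Lev S) :
    MulDistribMulAction (↥L.F ≃ₐ[ℚ] ↥L.F) (Interface23.CT S L.F) := inferInstance

noncomputable instance instActCTrel (K L : Lev S) [Fact (K.F ≤ L.F)] :
    MulDistribMulAction (↥L.F ≃ₐ[↥K.F] ↥L.F) (Interface23.CT S L.F) := inferInstance

/-! ### One level: `IT S L / (S-units) ↪ C_S` -/

section OneLevel

variable (L : Lev S)

/-- `Θ_L` of a diagonal `S`-unit is the diagonal image of the corresponding element of `E_S`. -/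
theorem thetaS_diagI_ker (y : (Interface23.divT S L.F).ker) :
    thetaS L.F L.unr (Additive.ofMul (Interface23.diagI S L.F (y : (↥L.F)ˣ))) =
      diag S (Additive.ofMul ((esLevel L.unr y : levelSub S L.F) : ESgroup S) : ES S) :=
  thetaS_diagI L.F L.unr (y : (↥L.F)ˣ) _ (coe_coe_esLevel L.unr y)

/-- If `Θ_L ι` is in the image of `E_S`, then `ι` is a diagonal `S`-unit. -/
theorem exists_diagI_eq_of_thetaS_eq_diag (hS : S.Nonempty) (ι : Additive (Interface23.IT S L.F))
    (e : ES S) (h : thetaS L.F L.unr ι = diag S e) :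
    ∃ y : (Interface23.divT S L.F).ker,
      ι = Additive.ofMul (Interface23.diagI S L.F (y : (↥L.F)ˣ)) := by
  have hfix : ∀ s ∈ L.F.fixingSubgroup, (ES S).ρ s e = e := by
    intro s hs
    apply diag_injective S hS
    rw [diag_ρ, ← h, ρ_thetaS L.F L.unr ι hs]
  obtain ⟨y, hy⟩ := exists_esLevel_eq_of_fixed S L.F L.unr e hfix
  refine ⟨y, thetaS_injective L.F L.unr ?_⟩
  rw [h, thetaS_diagI_ker, hy]
  rfl

/-- **KEY**: the two quotients of `IT S L` agree. -/
theorem toCS_thetaS_eq_iff (hS : S.Nonempty) (ι ι' : Interface23.IT S L.F) :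
    toCS S (thetaS L.F L.unr (Additive.ofMul ι)) = toCS S (thetaS L.F L.unr (Additive.ofMul ι')) ↔
      Interface23.toCT S L.F (ι, 1) = Interface23.toCT S L.F (ι', 1) := by
  rw [FixedClass6.toCT_eq_iff]
  constructor
  · intro h
    have h0 : toCS S (thetaS L.F L.unr (Additive.ofMul (ι / ι'))) = 0 := by
      rw [ofMul_div, map_sub, map_sub, h, sub_self]
    obtain ⟨e, he⟩ := (toCS_eq_zero_iff S _).1 h0
    obtain ⟨y, hy⟩ := exists_diagI_eq_of_thetaS_eq_diag L hS _ e he.symm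
    refine ⟨(y : (↥L.F)ˣ), ?_⟩
    refine Prod.ext ?_ ?_
    · exact (Additive.ofMul.injective hy).symm
    · change Interface23.divT S L.F (y : (↥L.F)ˣ) = 1 / 1
      rw [div_one]
      exact y.2
  · rintro ⟨y, hy⟩
    have h1 : Interface23.diagI S L.F y = ι / ι' := congrArg Prod.fst hy
    have h2 : Interface23.divT S L.F y = 1 := by
      have h3 : Interface23.divT S L.F y = (1 : Interface23.DivT S L.F) / 1 := congrArg Prod.snd hy
      rwa [div_one] at h3
    have h0 : toCS S (thetaS L.F L.unr (Additive.ofMul (ι / ι'))) = 0 := by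
      rw [← h1]
      rw [thetaS_diagI_ker L ⟨y, h2⟩]
      exact (toCS_eq_zero_iff S _).2 ⟨_, rfl⟩
    rw [ofMul_div, map_sub, map_sub, sub_eq_zero] at h0
    exact h0

end OneLevel

/-! ### The two class maps on `IT S L` -/

section ClassMaps

variable (L : Lev S)

/-- The class of `(ι,1)` in `CT S L`. -/
noncomputable def idCT (ι : Interface23.IT S L.F) : Interface23.CT S L.F :=
  Interface23.toCT S L.F (ι, 1)

/-- The class of `Θ_L ι` in `C_S`. -/
noncomputable def idCS (ι : Interface23.IT S L.F) : CS S :=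
  toCS S (thetaS L.F L.unr (Additive.ofMul ι))

theorem idCT_mul (ι ι' : Interface23.IT S L.F) : idCT L (ι * ι') = idCT L ι * idCT L ι' := by
  unfold idCT
  rw [← map_mul]
  congr 1

theorem idCT_one : idCT L (1 : Interface23.IT S L.F) = 1 := map_one (Interface23.toCT S L.F)

theorem idCS_mul (ι ι' : Interface23.IT S L.F) : idCS L (ι * ι') = idCS L ι + idCS L ι' := by
  unfold idCS
  rw [ofMul_mul, map_add, map_add]

theorem idCS_one : idCS L (1 : Interface23.IT S L.F) = 0 := by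
  unfold idCS
  rw [ofMul_one, map_zero, map_zero]

theorem idCS_eq_iff (hS : S.Nonempty) (ι ι' : Interface23.IT S L.F) :
    idCS L ι = idCS L ι' ↔ idCT L ι = idCT L ι' := toCS_thetaS_eq_iff L hS ι ι'

/-- Equivariance of `idCS`. -/
theorem idCS_smul (g : Γ) (ι : Interface23.IT S L.F) :
    idCS L (AlgEquiv.restrictNormalHom L.F g • ι) = (CS S).ρ g (idCS L ι) := by
  unfold idCS
  rw [thetaS_smul, toCS_ρ]

/-- Equivariance of `idCT`. -/
theorem idCT_smul (σ : ↥L.F ≃ₐ[ℚ] ↥L.F) (ι : Interface23.IT S L.F) :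
    idCT L (σ • ι) = σ • idCT L ι := by
  unfold idCT
  rw [ClassAction23.smul_toCT]
  congr 1

/-- The image of `idCS` consists of `Gal(ℚ̄/L)`-invariants. -/
theorem ρ_idCS (ι : Interface23.IT S L.F) {s : Γ} (hs : s ∈ L.U) :
    (CS S).ρ s (idCS L ι) = idCS L ι := by
  unfold idCS
  rw [← toCS_ρ, ρ_thetaS L.F L.unr _ hs]

/-- Every element of `C_S` comes from some level. -/
theorem exists_idCS_eq (K : Lev S) (x : CS S) :
    ∃ (L : Lev S) (_ : K.F ≤ L.F) (ι : Interface23.IT S L.F), idCS L ι = x := by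
  obtain ⟨y, rfl⟩ := toCS_surjective S x
  obtain ⟨L, hKL, u, hu⟩ := exists_lev_thetaS_eq K y
  exact ⟨L, hKL, Additive.toMul u, by unfold idCS; rw [ofMul_toMul, hu]⟩

end ClassMaps

/-! ### Towers -/

section Tower

variable (K L : Lev S) [hKL : Fact (K.F ≤ L.F)]

/-- Three levels form a scalar tower. -/
instance isScalarTower_three (M : Lev S) [Fact (L.F ≤ M.F)] [Fact (K.F ≤ M.F)] :
    IsScalarTower K.F L.F M.F :=
  IsScalarTower.of_algebraMap_eq (fun _ => rfl)

theorem idCS_inclI (ι : Interface23.IT S K.F) :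
    idCS L (Tower23.inclI S K.F L.F ι) = idCS K ι := by
  unfold idCS
  rw [thetaS_inclI]

theorem inclCT_idCT (ι : Interface23.IT S K.F) :
    Tower23.inclCT S K.F L.F (idCT K ι) = idCT L (Tower23.inclI S K.F L.F ι) := by
  unfold idCT
  rw [Tower23.inclCT_toCT]
  congr 1
  exact Prod.ext rfl (map_one (Tower23.inclDiv S K.F L.F))

/-- Every `K`-automorphism of `L` is induced by an element of `Gal(ℚ̄/K)`. -/
theorem exists_mem_U_restrict (τ : ↥L.F ≃ₐ[↥K.F] ↥L.F) :
    ∃ s ∈ K.U, AlgEquiv.restrictNormalHom L.F s = τ.restrictScalars ℚ := by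
  obtain ⟨s, hs⟩ := AlgEquiv.restrictNormalHom_surjective (F := ℚ) (K₁ := ↥L.F) Qbar
    (τ.restrictScalars ℚ)
  refine ⟨s, ?_, hs⟩
  intro x
  have h1 : (((AlgEquiv.restrictNormalHom L.F s) (algebraMap K.F L.F x) : L.F) : Qbar) =
      s ((algebraMap K.F L.F x : L.F) : Qbar) :=
    AlgEquiv.restrictNormal_commutes s L.F (algebraMap K.F L.F x)
  rw [hs] at h1
  have h2 : (τ.restrictScalars ℚ) (algebraMap K.F L.F x) = algebraMap K.F L.F x := τ.commutes x
  rw [h2] at h1
  exact h1.symm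

/-- Restriction in stages. -/
theorem restrictNormal_restrictNormalHom (g : Γ) :
    (AlgEquiv.restrictNormalHom L.F g).restrictNormal K.F = AlgEquiv.restrictNormalHom K.F g := by
  refine AlgEquiv.ext fun x => ?_
  apply (algebraMap K.F L.F).injective
  rw [AlgEquiv.restrictNormal_commutes, restrictNormalHom_tower]

/-- Equivariance of the tower map for the action of `Γ` through the two levels. -/
theorem inclCT_restrictNormalHom_smul (g : Γ) (c : Interface23.CT S K.F) :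
    Tower23.inclCT S K.F L.F (AlgEquiv.restrictNormalHom K.F g • c) =
      AlgEquiv.restrictNormalHom L.F g • Tower23.inclCT S K.F L.F c := by
  rw [← TowerMaps6.inclCT_smul S ℚ K.F L.F (AlgEquiv.restrictNormalHom L.F g) c,
    restrictNormal_restrictNormalHom]

/-- The class of `(ι,1)` is `Gal(L/K)`-invariant as soon as the class of `Θ_L ι` is
`Gal(ℚ̄/K)`-invariant. -/
theorem smul_idCT_eq_of_fixed (hS : S.Nonempty) (ι : Interface23.IT S L.F)
    (hx : ∀ s ∈ K.U, (CS S).ρ s (idCS L ι) = idCS L ι) (τ : ↥L.F ≃ₐ[↥K.F] ↥L.F) :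
    τ • idCT L ι = idCT L ι := by
  obtain ⟨s, hsK, hs⟩ := exists_mem_U_restrict K L τ
  have h1 : τ • idCT L ι = (τ.restrictScalars ℚ : ↥L.F ≃ₐ[ℚ] ↥L.F) • idCT L ι := rfl
  rw [h1, ← hs, ← idCT_smul, ← idCS_eq_iff L hS, idCS_smul]
  exact hx s hsK

end Tower

/-! ### The relation `Rel K x c` -/

section Relation

variable (K : Lev S)

/-- `x ∈ C_S` and `c ∈ CT S K` are represented by the same `ι ∈ IT S L` at some level `L ⊇ K`. -/
def Rel (x : CS S) (c : Interface23.CT S K.F) : Prop :=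
  ∃ (L : Lev S) (_ : Fact (K.F ≤ L.F)) (ι : Interface23.IT S L.F),
    idCS L ι = x ∧ Tower23.inclCT S K.F L.F c = idCT L ι

variable {K}

/-- Enlarging the level of a representative. -/
theorem Rel.exists_ge {x : CS S} {c : Interface23.CT S K.F} (h : Rel K x c) (M₀ : Lev S) :
    ∃ (M : Lev S) (_ : Fact (K.F ≤ M.F)) (_ : M₀.F ≤ M.F) (ι : Interface23.IT S M.F),
      idCS M ι = x ∧ Tower23.inclCT S K.F M.F c = idCT M ι := by
  obtain ⟨L, hL, ι, h1, h2⟩ := h
  haveI : Fact (L.F ≤ (L.sup M₀).F) := ⟨L.le_sup_left M₀⟩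
  haveI hKM : Fact (K.F ≤ (L.sup M₀).F) := ⟨le_trans hL.out (L.le_sup_left M₀)⟩
  refine ⟨L.sup M₀, hKM, L.le_sup_right M₀, Tower23.inclI S L.F (L.sup M₀).F ι, ?_, ?_⟩
  · rw [idCS_inclI, h1]
  · rw [← TowerTrans23.inclCT_inclCT S K.F L.F (L.sup M₀).F c, h2, inclCT_idCT]

/-- **(R2)** the relation is functional. -/
theorem rel_unique (hS : S.Nonempty) {x : CS S} {c c' : Interface23.CT S K.F}
    (h : Rel K x c) (h' : Rel K x c') : c = c' := by
  obtain ⟨L, hL, ι, h1, h2⟩ := h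
  obtain ⟨M, hM, hLM, ι', h1', h2'⟩ := h'.exists_ge L
  haveI : Fact (L.F ≤ M.F) := ⟨hLM⟩
  apply TowerMaps6.inclCT_injective S K.F M.F hS
  rw [h2', ← TowerTrans23.inclCT_inclCT S K.F L.F M.F c, h2, inclCT_idCT, ← idCS_eq_iff M hS,
    idCS_inclI, h1, h1']

/-- the relation is injective in the other direction -/
theorem rel_unique_left (hS : S.Nonempty) {x x' : CS S} {c : Interface23.CT S K.F}
    (h : Rel K x c) (h' : Rel K x' c) : x = x' := by
  obtain ⟨L, hL, ι, h1, h2⟩ := h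
  obtain ⟨M, hM, hLM, ι', h1', h2'⟩ := h'.exists_ge L
  haveI : Fact (L.F ≤ M.F) := ⟨hLM⟩
  rw [← h1, ← h1', ← idCS_inclI L M ι, idCS_eq_iff M hS, ← h2', ← inclCT_idCT, ← h2,
    TowerTrans23.inclCT_inclCT]

/-- **(R1)** the relation is total on the `Gal(ℚ̄/K)`-invariants. -/
theorem exists_rel (hS : S.Nonempty) (x : CS S) (hx : ∀ s ∈ K.U, (CS S).ρ s x = x) :
    ∃ c, Rel K x c := by
  obtain ⟨L, hKL, ι, rfl⟩ := exists_idCS_eq K x
  haveI : Fact (K.F ≤ L.F) := ⟨hKL⟩
  obtain ⟨c, hc⟩ := TowerMaps6.exists_inclCT_eq_of_fixed S K.F L.F hS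
    (isUnramifiedOutside_tower K L) (idCT L ι) (smul_idCT_eq_of_fixed K L hS ι hx)
  exact ⟨c, L, ⟨hKL⟩, ι, rfl, hc⟩

/-- the relation is `Γ`-equivariant -/
theorem Rel.smul {x : CS S} {c : Interface23.CT S K.F} (h : Rel K x c) (g : Γ) :
    Rel K ((CS S).ρ g x) (AlgEquiv.restrictNormalHom K.F g • c) := by
  obtain ⟨L, hL, ι, rfl, h2⟩ := h
  refine ⟨L, hL, AlgEquiv.restrictNormalHom L.F g • ι, idCS_smul L g ι, ?_⟩
  rw [inclCT_restrictNormalHom_smul, h2, idCT_smul]

/-- the left-hand side of the relation is `Gal(ℚ̄/K)`-invariant -/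
theorem Rel.fixed (hS : S.Nonempty) {x : CS S} {c : Interface23.CT S K.F} (h : Rel K x c)
    {s : Γ} (hs : s ∈ K.U) : (CS S).ρ s x = x := by
  have h1 := h.smul s
  rw [restrictNormalHom_eq_one_of_mem K.F hs, one_smul] at h1
  exact rel_unique_left hS h1 h

theorem rel_zero : Rel K (0 : CS S) (1 : Interface23.CT S K.F) :=
  ⟨K, ⟨le_rfl⟩, 1, idCS_one K, by rw [map_one, idCT_one]⟩

theorem Rel.add (hS : S.Nonempty) {x x' : CS S} {c c' : Interface23.CT S K.F}
    (h : Rel K x c) (h' : Rel K x' c') : Rel K (x + x') (c * c') := by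
  obtain ⟨L, hL, ι, h1, h2⟩ := h
  obtain ⟨M, hM, hLM, ι', h1', h2'⟩ := h'.exists_ge L
  haveI : Fact (L.F ≤ M.F) := ⟨hLM⟩
  refine ⟨M, hM, Tower23.inclI S L.F M.F ι * ι', ?_, ?_⟩
  · rw [idCS_mul, idCS_inclI, h1, h1']
  · rw [map_mul, idCT_mul, h2', ← TowerTrans23.inclCT_inclCT S K.F L.F M.F c, h2, inclCT_idCT]

end Relation

/-! ### The map `Φ_K` -/

section Phi

variable (hS : S.Nonempty) (K : Lev S)

/-- **`Φ_K : (C_S)^{Gal(ℚ̄/K)} → CT S K`.** -/
noncomputable def phi (x : CS S) (hx : ∀ s ∈ K.U, (CS S).ρ s x = x) : Interface23.CT S K.F :=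
  Classical.choose (exists_rel hS x hx)

theorem rel_phi (x : CS S) (hx : ∀ s ∈ K.U, (CS S).ρ s x = x) : Rel K x (phi hS K x hx) :=
  Classical.choose_spec (exists_rel hS x hx)

variable {K}

theorem phi_eq_of_rel {x : CS S} {c : Interface23.CT S K.F} (h : Rel K x c)
    (hx : ∀ s ∈ K.U, (CS S).ρ s x = x) : phi hS K x hx = c :=
  rel_unique hS (rel_phi hS K x hx) h

theorem phi_zero (hx : ∀ s ∈ K.U, (CS S).ρ s (0 : CS S) = 0) : phi hS K 0 hx = 1 :=
  phi_eq_of_rel hS rel_zero hx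

theorem phi_add {x x' : CS S} (hx : ∀ s ∈ K.U, (CS S).ρ s x = x)
    (hx' : ∀ s ∈ K.U, (CS S).ρ s x' = x') (hxx' : ∀ s ∈ K.U, (CS S).ρ s (x + x') = x + x') :
    phi hS K (x + x') hxx' = phi hS K x hx * phi hS K x' hx' :=
  phi_eq_of_rel hS ((rel_phi hS K x hx).add hS (rel_phi hS K x' hx')) hxx'

theorem phi_smul {x : CS S} (hx : ∀ s ∈ K.U, (CS S).ρ s x = x) (g : Γ)
    (hgx : ∀ s ∈ K.U, (CS S).ρ s ((CS S).ρ g x) = (CS S).ρ g x) :
    phi hS K ((CS S).ρ g x) hgx = AlgEquiv.restrictNormalHom K.F g • phi hS K x hx :=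
  phi_eq_of_rel hS ((rel_phi hS K x hx).smul g) hgx

theorem phi_injective {x x' : CS S} (hx : ∀ s ∈ K.U, (CS S).ρ s x = x)
    (hx' : ∀ s ∈ K.U, (CS S).ρ s x' = x') (h : phi hS K x hx = phi hS K x' hx') : x = x' := by
  have h1 := rel_phi hS K x hx
  rw [h] at h1
  exact rel_unique_left hS h1 (rel_phi hS K x' hx')

/-- **The range of `Φ_K`**: the classes that become idelic (`= [(ι,1)]`) at some level. -/
theorem exists_phi_eq {c : Interface23.CT S K.F} (L : Lev S) [Fact (K.F ≤ L.F)]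
    (ι : Interface23.IT S L.F) (h : Tower23.inclCT S K.F L.F c = idCT L ι) :
    ∃ (x : CS S) (hx : ∀ s ∈ K.U, (CS S).ρ s x = x), phi hS K x hx = c := by
  have hrel : Rel K (idCS L ι) c := ⟨L, inferInstance, ι, rfl, h⟩
  exact ⟨idCS L ι, fun s hs => hrel.fixed hS hs, phi_eq_of_rel hS hrel _⟩

/-- `Φ_K` on the classes coming from `IT S K`. -/
theorem phi_idCS (ι : Interface23.IT S K.F) (hx : ∀ s ∈ K.U, (CS S).ρ s (idCS K ι) = idCS K ι) :
    phi hS K (idCS K ι) hx = idCT K ι := by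
  haveI hM : Fact (K.F ≤ (K.sup K).F) := ⟨K.le_sup_left K⟩
  exact phi_eq_of_rel hS ⟨K.sup K, hM, Tower23.inclI S K.F (K.sup K).F ι,
    idCS_inclI K (K.sup K) ι, inclCT_idCT K (K.sup K) ι⟩ hx

end Phi

end Fermat.Agent.PT.GLUE.LevelCT21
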