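/-
Program F (S55, Poitou–Tate), sub-chapter GLUE, helper13 (leaf LEVQ of helper21's plan):
the finite quotient `Γ ⧸ Gal(ℚ̄/K)` of a level `K : Lev S` is `Gal(K/ℚ)`, and every NORMAL member
of the level basis `levelS S` is the subgroup of a level.
-/
import Mathlib
import Fermat.Agent.PT.GLUE.Levels21

set_option autoImplicit false
set_option linter.unusedSectionVars false

namespace Fermat.Agent.PT.GLUE.LevelQuot13

open Fermat.Agent.PT.PRO.LevelCoh28 Fermat.Agent.PT.GLUE.Objects21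
open Fermat.Agent.PT.GLUE.FiniteLevelI21 Fermat.Agent.PT.GLUE.Levels21

local notation "Qbar" => AlgebraicClosure ℚ
local notation "Γ" => (AlgebraicClosure ℚ ≃ₐ[ℚ] AlgebraicClosure ℚ)

local instance isAlgClosureQbarLQ13 : IsAlgClosure ℚ Qbar := ⟨inferInstance, inferInstance⟩
local instance normalQbarLQ13 : Normal ℚ Qbar := IsAlgClosure.normal ℚ Qbar
local instance isGaloisQbarLQ13 : IsGalois ℚ Qbar := IsAlgClosure.isGalois ℚ Qbar

variable {S : Finset Nat.Primes}

/-- `Gal(ℚ̄/K)` is the kernel of the restriction to `K` (in the instance form of `Levels21`). -/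
theorem U_eq_ker (K : Lev S) :
    K.U = (AlgEquiv.restrictNormalHom (F := ℚ) (K₁ := Qbar) K.F).ker := by
  ext s
  rw [MonoidHom.mem_ker]
  exact ⟨fun hs => restrictNormalHom_eq_one_of_mem K.F hs,
    fun hs => mem_fixingSubgroup_of_restrictNormalHom_eq_one K.F hs⟩

theorem mem_U_iff (K : Lev S) (s : Γ) : s ∈ K.U ↔ AlgEquiv.restrictNormalHom K.F s = 1 := by
  rw [U_eq_ker, MonoidHom.mem_ker]

/-- Restriction `Γ → Gal(K/ℚ)` is surjective. -/
theorem restrictNormalHom_surjective (K : Lev S) :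
    Function.Surjective (AlgEquiv.restrictNormalHom (F := ℚ) (K₁ := Qbar) K.F) :=
  AlgEquiv.restrictNormalHom_surjective (F := ℚ) (K₁ := K.F) Qbar

/-- **`Γ ⧸ Gal(ℚ̄/K) ≃ Gal(K/ℚ)`**. -/
noncomputable def eLev (K : Lev S) : Γ ⧸ K.U ≃* (↥K.F ≃ₐ[ℚ] ↥K.F) :=
  (QuotientGroup.quotientMulEquivOfEq (U_eq_ker K)).trans
    (QuotientGroup.quotientKerEquivOfSurjective _ (restrictNormalHom_surjective K))

theorem eLev_mk (K : Lev S) (g : Γ) :
    eLev K (g : Γ ⧸ K.U) = AlgEquiv.restrictNormalHom K.F g := rfl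

theorem eLev_symm_restrictNormalHom (K : Lev S) (g : Γ) :
    (eLev K).symm (AlgEquiv.restrictNormalHom K.F g) = (g : Γ ⧸ K.U) := by
  rw [← eLev_mk, MulEquiv.symm_apply_apply]

/-- Every element of `Gal(K/ℚ)` is `eLev` of the class of a lift. -/
theorem exists_eLev_eq (K : Lev S) (σ : ↥K.F ≃ₐ[ℚ] ↥K.F) :
    ∃ g : Γ, eLev K (g : Γ ⧸ K.U) = σ := by
  obtain ⟨g, hg⟩ := restrictNormalHom_surjective K σ
  exact ⟨g, hg⟩

instance finite_quot (K : Lev S) : Finite (Γ ⧸ K.U) :=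
  Finite.of_equiv _ (eLev K).symm.toEquiv

/-- **Every normal member of the level basis of `G_S` is the subgroup of a level.** -/
theorem exists_lev_U_eq {V' : Subgroup Γ} (hV' : V' ∈ (levelS S).sets) [hn : V'.Normal] :
    ∃ K : Lev S, K.U = V' := by
  obtain ⟨F, hF, rfl⟩ := hV'
  have hfd : FiniteDimensional ℚ F := hF.1
  have hgal : IsGalois ℚ F := (InfiniteGalois.normal_iff_isGalois F).1 hn
  exact ⟨⟨F, hfd, hgal, hF⟩, rfl⟩

/-- The action of `Γ` on `K.F` through `eLev`. -/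
theorem eLev_mk_apply (K : Lev S) (g : Γ) (x : K.F) :
    ((eLev K (g : Γ ⧸ K.U) x : K.F) : Qbar) = g (x : Qbar) :=
  AlgEquiv.restrictNormal_commutes g K.F x

end Fermat.Agent.PT.GLUE.LevelQuot13
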