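/-
Program F (S55, Poitou–Tate), sub-chapter GLUE, helper2: the (G1) CONSUMER.

Fundamental classes at all finite levels of the limit module `C_S = I_S / E_S`
(`Objects21.CS S` over `Γ = Gal(ℚ̄/ℚ)` with the level basis `levelS S`), from GLOB's level-wise
statement (GCF') `RecAssembly15.FundClassExists p S`:

* `phiAdd hS K : fixedSub K.U (CS S).ρ →+ Additive (CT S K.F)` — helper21's `LevelCT21.phi`
  packaged as an additive map, `phiAdd_injective`, `phiAdd_fixedRep` (equivariance through
  `Γ ⧸ K.U → Gal(K/ℚ)`), `exists_phiAdd_eq` (range);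
* `exists_isFundClass_lev`: a fundamental class of `repCT S ℚ K.F` gives one of
  `FundRaw18.fixedObj K.U (CS S).ρ` (transfer `FundClassSub2.exists_isFundClass_of_equiv_injective`
  along `LevelQuot13.eLev K` and `Φ_K`, whose range contains the `m`-th powers for some `m` prime
  to `p` by the capitulation lemma `Capitulation27.exists_coprime_capitulates`);
* `fundFixed_CS`: `∀ V ∈ (levelS S).sets, V.Normal → ∃ u, IsFundClass p (fixedObj V (CS S).ρ) u`
  (= `FundHyp12.FundFixed (CS S).ρ (levelS S).sets p` = `hfund` of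
  `HypPFund18.hypPDatum_of_isFundClass`).
-/
import Mathlib
import Fermat.Agent.PT.FG.FundClassSub2
import Fermat.Agent.PT.PRO.FundRaw18
import Fermat.Agent.PT.GLUE.LevelCT21
import Fermat.Agent.PT.GLUE.LevelQuot13
import Fermat.Agent.PT.GLUE.Capitulation27
import Fermat.Agent.PT.GLOB.RecAssembly15

set_option autoImplicit false
set_option linter.unusedSectionVars false

namespace Fermat.Agent.PT.GLUE.FundLevel2

open Fermat.Agent.PT.GLUE.Objects21 Fermat.Agent.PT.GLUE.Levels21
open Fermat.Agent.PT.GLUE.FiniteLevelI21 Fermat.Agent.PT.GLUE.LevelCT21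
open Fermat.Agent.PT.GLUE.LevelQuot13
open Fermat.Agent.PT.GLOB Fermat.Agent.PT.GLOB.ClassAction23
open Fermat.Agent.PT.PRO.HyperColim18 Fermat.Agent.PT.PRO.FundRaw18
open Fermat.Agent.PT.FG.Interface8 Fermat.Agent.PT.FG.FundClassSub2
open groupCohomology

local notation "Qbar" => AlgebraicClosure ℚ
local notation "Γ" => (AlgebraicClosure ℚ ≃ₐ[ℚ] AlgebraicClosure ℚ)

local instance isAlgClosureQbarFL2 : IsAlgClosure ℚ Qbar := ⟨inferInstance, inferInstance⟩
local instance normalQbarFL2 : Normal ℚ Qbar := IsAlgClosure.normal ℚ Qbar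
local instance isGaloisQbarFL2 : IsGalois ℚ Qbar := IsAlgClosure.isGalois ℚ Qbar

variable {S : Finset Nat.Primes}

section Hom

variable (hS : S.Nonempty) (K : Lev S)

/-- `Φ_K` packaged as an additive map on the `Gal(ℚ̄/K)`-invariants of `C_S`. -/
noncomputable def phiAdd : fixedSub K.U (CS S).ρ →+ Additive (Interface23.CT S K.F) where
  toFun x := Additive.ofMul (phi hS K (x : CS S) x.2)
  map_zero' := congrArg Additive.ofMul (phi_zero hS _)
  map_add' x y := congrArg Additive.ofMul (phi_add hS x.2 y.2 _)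

theorem phiAdd_apply (x : fixedSub K.U (CS S).ρ) :
    phiAdd hS K x = Additive.ofMul (phi hS K (x : CS S) x.2) := rfl

theorem phiAdd_injective : Function.Injective (phiAdd hS K) := by
  intro x y h
  exact Subtype.ext (phi_injective hS x.2 y.2 (Additive.ofMul.injective h))

theorem phiAdd_fixedRep (g : Γ) (x : fixedSub K.U (CS S).ρ) :
    phiAdd hS K (fixedRep K.U (CS S).ρ (g : Γ ⧸ K.U) x) =
      Additive.ofMul (AlgEquiv.restrictNormalHom K.F g • Additive.toMul (phiAdd hS K x)) :=
  congrArg Additive.ofMul (phi_smul hS x.2 g _)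

/-- The range of `Φ_K` contains the classes that become idelic at some level. -/
theorem exists_phiAdd_eq {c : Interface23.CT S K.F} (L : Lev S) [Fact (K.F ≤ L.F)]
    (ι : Interface23.IT S L.F)
    (h : Tower23.inclCT S K.F L.F c = Interface23.toCT S L.F (ι, 1)) :
    ∃ x : fixedSub K.U (CS S).ρ, phiAdd hS K x = Additive.ofMul c := by
  obtain ⟨x, hx, hxc⟩ := exists_phi_eq hS L ι h
  exact ⟨⟨x, hx⟩, congrArg Additive.ofMul hxc⟩

end Hom

section Fund

variable (p : ℕ) [hp : Fact p.Prime]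

/-- **(G1) at a level**: a fundamental class of `CT S K` over `Gal(K/ℚ)` gives one of
`(C_S)^{Gal(ℚ̄/K)}` over `Γ ⧸ Gal(ℚ̄/K)`. -/
theorem exists_isFundClass_lev (hpS : (⟨p, hp.out⟩ : Nat.Primes) ∈ S) (K : Lev S)
    (u : H2 (repCT S ℚ K.F)) (hu : IsFundClass p (repCT S ℚ K.F) u) :
    ∃ u' : H2 (fixedObj K.U (CS S).ρ), IsFundClass p (fixedObj K.U (CS S).ρ) u' := by
  have hS : S.Nonempty := ⟨_, hpS⟩
  obtain ⟨m, -, hm, hcap⟩ := Capitulation27.exists_coprime_capitulates p hp.out hpS K
  refine exists_isFundClass_of_equiv_injective p (eLev K) (repCT S ℚ K.F)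
    (fixedObj K.U (CS S).ρ) (phiAdd hS K) (phiAdd_injective hS K) ?_ m hm ?_ u hu
  · intro g y
    induction g using QuotientGroup.induction_on with
    | H g => exact phiAdd_fixedRep hS K g y
  · intro c
    obtain ⟨L, hL, ι, h⟩ := hcap (Additive.toMul c)
    exact exists_phiAdd_eq hS K L ι h

/-- **(G1)** fundamental classes at all finite levels of `(Γ, levelS S, C_S)`, from GLOB's (GCF').
This is `FundHyp12.FundFixed (CS S).ρ (levelS S).sets p`, i.e. the hypothesis `hfund` of
`HypPFund18.hypPDatum_of_isFundClass`, unfolded. -/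
theorem fundFixed_CS (hp2 : p ≠ 2) (hpS : (⟨p, hp.out⟩ : Nat.Primes) ∈ S)
    (hGCF : RecAssembly15.FundClassExists p S) :
    ∀ V ∈ (levelS S).sets, ∀ hn : V.Normal, haveI := hn;
      ∃ u : H2 (fixedObj V (CS S).ρ), IsFundClass p (fixedObj V (CS S).ρ) u := by
  intro V hV hn
  obtain ⟨K, rfl⟩ := exists_lev_U_eq hV
  obtain ⟨u, hu⟩ := hGCF hp.out hp2 ⟨_, hpS, rfl⟩ ℚ K.F
    ((Fermat.Agent.PT.BR.UnramGlob13.isUnramifiedOutside_iff S K.F).1 K.unr)
  exact exists_isFundClass_lev p hpS K u hu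

end Fund

end Fermat.Agent.PT.GLUE.FundLevel2
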