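/-
Program F (S55, Poitou–Tate), sub-chapter GLUE — helper27.

**`E_S` is `p`-divisible** (`p ∈ S`), contains `μ_p`, and `E_S[p] = μ_p`.

`ESgroup S ⊆ ℚ̄ˣ` (helper21, `Objects21`) is the group of `S`-units of `ℚ_S`.  For `y ∈ ℚ̄ˣ` with
`y ^ p ∈ ESgroup S` and `p ∈ S`:
* `F(y)/F` is unramified outside `S` for `F ∋ y ^ p` unramified outside `S` (an inertia element
  `σ` at `q ∉ S` fixing `F` multiplies `y` by a `p`-th root of unity `η ≡ 1 mod 𝔪`, and `η ≠ 1`
  would force `p ∈ 𝔪`: the argument of helper15's `KummerUnramA15.apply_root_eq`, run for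
  `S`-units directly on `ℚ̄`);
* `y` and `y⁻¹` are `S`-integral (`IsIntegral.of_pow`).
-/
import Mathlib
import Fermat.Agent.PT.GLUE.Objects21
import Fermat.Agent.PT.GLOB.KummerUnramA15

set_option autoImplicit false
set_option linter.unusedSectionVars false

namespace Fermat.Agent.PT.GLUE.ESDivisible27

open Fermat.Agent.PT.GLUE.Objects21
open Fermat.Agent.PT.GLOB.KummerUnramA15 (mem_fixingSubgroup_adjoin valuation_natCast_lt_one_of_root)

local notation "Qbar" => AlgebraicClosure ℚ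
local notation "Γ" => (AlgebraicClosure ℚ ≃ₐ[ℚ] AlgebraicClosure ℚ)

variable {S : Finset Nat.Primes}

/-! ### Valuations of `S`-units at places outside `S` -/

section Val

variable (A : ValuationSubring Qbar) {q : Nat.Primes} (hq : q ∉ S) (hA : A.LiesOverPrime (q : ℕ))

include hq hA

theorem valuation_prodS_eq_one : A.valuation ((prodS S : ℕ) : Qbar) = 1 := by
  unfold prodS
  rw [Nat.cast_prod, map_prod]
  refine Finset.prod_eq_one fun ℓ hℓ => ?_
  have hne : (q : ℕ) ≠ (ℓ : ℕ) := by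
    intro h
    apply hq
    have : q = ℓ := Subtype.ext h
    rwa [this]
  exact Fermat.Agent.S05.Inertia.valuation_prime_eq_one (A := A) q.2 hA ℓ.2 hne

theorem valuation_le_one_of_isSInt {x : Qbar} (hx : IsSInt S x) : A.valuation x ≤ 1 := by
  obtain ⟨n, hn⟩ := hx
  have hmem : ((prodS S : ℕ) : Qbar) ^ n * x ∈ A :=
    Fermat.Agent.S13.UnramVal.mem_of_isIntegral_int A hn
  have h := (ValuationSubring.valuation_le_one_iff A _).mpr hmem
  rwa [map_mul, map_pow, valuation_prodS_eq_one A hq hA, one_pow, one_mul] at h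

theorem valuation_eq_one_of_mem_ESgroup {u : Qbarˣ} (hu : u ∈ ESgroup S) :
    A.valuation (u : Qbar) = 1 := by
  have h1 := valuation_le_one_of_isSInt A hq hA hu.2.1
  have h2 := valuation_le_one_of_isSInt A hq hA hu.2.2
  rw [Units.val_inv_eq_inv_val, map_inv₀] at h2
  have hpos : 0 < A.valuation (u : Qbar) := by
    rw [Valuation.pos_iff]
    exact u.ne_zero
  refine le_antisymm h1 ?_
  have := (inv_le_one₀ hpos).1 h2
  exact this

end Val

/-! ### `p`-th roots of `S`-units generate extensions unramified outside `S` -/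

theorem isSInt_of_pow {p : ℕ} (hp : 0 < p) {x : Qbar} (h : IsSInt S (x ^ p)) : IsSInt S x := by
  obtain ⟨n, hn⟩ := h
  refine ⟨n, IsIntegral.of_pow hp ?_⟩
  have hN : IsIntegral ℤ (((prodS S : ℕ) : Qbar) ^ (n * (p - 1))) := by
    have h0 : IsIntegral ℤ ((prodS S : ℕ) : Qbar) := by
      have := isIntegral_algebraMap (R := ℤ) (A := Qbar) (x := ((prodS S : ℕ) : ℤ))
      simpa using this
    exact h0.pow _
  have e : (((prodS S : ℕ) : Qbar) ^ n * x) ^ p =
      ((prodS S : ℕ) : Qbar) ^ (n * (p - 1)) * (((prodS S : ℕ) : Qbar) ^ n * x ^ p) := by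
    obtain ⟨k, rfl⟩ : ∃ k, p = k + 1 := ⟨p - 1, (Nat.succ_pred_eq_of_pos hp).symm⟩
    simp only [Nat.add_sub_cancel]
    ring
  rw [e]
  exact hN.mul hn

section Root

variable {p : ℕ} (hp : p.Prime) (hpS : (⟨p, hp⟩ : Nat.Primes) ∈ S)

include hpS

/-- An inertia element at `q ∉ S` which fixes the `S`-unit `y ^ p` fixes `y` (`p ∈ S`). -/
theorem apply_root_eq_of_mem_ESgroup (q : Nat.Primes) (hq : q ∉ S) (A : ValuationSubring Qbar)
    (hA : A.LiesOverPrime (q : ℕ)) (σ : Γ) (hσ : σ ∈ A.inertiaSubgroupIn ℚ)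
    (y : Qbarˣ) (hy : y ^ p ∈ ESgroup S) (hσy : σ ((y : Qbar) ^ p) = (y : Qbar) ^ p) :
    σ (y : Qbar) = (y : Qbar) := by
  have hy0 : (y : Qbar) ≠ 0 := y.ne_zero
  have hv := valuation_eq_one_of_mem_ESgroup A hq hA hy
  rw [Units.val_pow_eq_pow_val, map_pow] at hv
  have hy1 : A.valuation (y : Qbar) = 1 := (pow_eq_one_iff_left hp.ne_zero).mp hv
  set η : Qbar := σ (y : Qbar) / (y : Qbar) with hη
  have hηp : η ^ p = 1 := by
    rw [hη, div_pow, ← map_pow, hσy, div_self (pow_ne_zero _ hy0)]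
  have hsub : σ (y : Qbar) - (y : Qbar) = (η - 1) * (y : Qbar) := by
    rw [hη]
    field_simp
  have hlt : A.valuation (η - 1) < 1 := by
    have h := Fermat.Agent.S05.Inertia.valuation_sub_lt_one hσ hy1.le
    rwa [hsub, map_mul, hy1, mul_one] at h
  by_contra hne
  have hη1 : η ≠ 1 := by
    intro h
    apply hne
    rw [hη, div_eq_one_iff_eq hy0] at h
    exact h
  have hplt := valuation_natCast_lt_one_of_root hp A hηp hη1 hlt
  have hqp : (q : ℕ) ≠ p := by
    intro h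
    apply hq
    have : q = ⟨p, hp⟩ := Subtype.ext h
    rwa [this]
  have hp1 := Fermat.Agent.S05.Inertia.valuation_prime_eq_one (A := A) q.2 hA hp hqp
  rw [hp1] at hplt
  exact lt_irrefl _ hplt

/-- `F(y)` is unramified outside `S` if `F` is, `y ^ p ∈ F` is an `S`-unit and `p ∈ S`. -/
theorem isUnramifiedOutside_sup_adjoin_root (F : IntermediateField ℚ Qbar)
    (hF : F.IsUnramifiedOutside S) (y : Qbarˣ) (hy : y ^ p ∈ ESgroup S)
    (hyF : (y : Qbar) ^ p ∈ F) :
    (F ⊔ IntermediateField.adjoin ℚ {(y : Qbar)}).IsUnramifiedOutside S := by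
  have := hF.1
  have : FiniteDimensional ℚ (IntermediateField.adjoin ℚ ({(y : Qbar)} : Set Qbar)) :=
    IntermediateField.adjoin.finiteDimensional (Algebra.IsIntegral.isIntegral (y : Qbar))
  refine ⟨IntermediateField.finiteDimensional_sup F _, fun q hq A hA σ hσ => ?_⟩
  have hσF : σ ∈ F.fixingSubgroup := hF.2 q hq A hA hσ
  rw [IntermediateField.fixingSubgroup_sup]
  refine ⟨hσF, mem_fixingSubgroup_adjoin σ _ ?_⟩
  rintro x rfl
  exact apply_root_eq_of_mem_ESgroup hp hpS q hq A hA σ hσ y hy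
    ((IntermediateField.mem_fixingSubgroup_iff _ σ).mp hσF _ hyF)

/-- **`p`-th roots of `S`-units of `ℚ_S` are `S`-units of `ℚ_S`** (`p ∈ S`). -/
theorem mem_ESgroup_of_pow_mem (y : Qbarˣ) (hy : y ^ p ∈ ESgroup S) : y ∈ ESgroup S := by
  obtain ⟨F, hF, hyF⟩ := hy.1
  rw [Units.val_pow_eq_pow_val] at hyF
  refine ⟨⟨_, isUnramifiedOutside_sup_adjoin_root hp hpS F hF y hy hyF,
    (le_sup_right : IntermediateField.adjoin ℚ {(y : Qbar)} ≤ _)
      (IntermediateField.mem_adjoin_simple_self ℚ _)⟩, ?_, ?_⟩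
  · apply isSInt_of_pow hp.pos
    have := hy.2.1
    rwa [Units.val_pow_eq_pow_val] at this
  · apply isSInt_of_pow hp.pos
    have := hy.2.2
    rwa [← inv_pow, Units.val_pow_eq_pow_val] at this

/-- `E_S` is `p`-divisible (`p ∈ S`). -/
theorem exists_pow_eq (u : Qbarˣ) (hu : u ∈ ESgroup S) : ∃ y ∈ ESgroup S, y ^ p = u := by
  obtain ⟨z, hz⟩ := IsAlgClosed.exists_pow_nat_eq (u : Qbar) hp.pos
  have hz0 : z ≠ 0 := by
    rintro rfl
    rw [zero_pow hp.ne_zero] at hz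
    exact u.ne_zero hz.symm
  have hyu : (Units.mk0 z hz0) ^ p = u := by
    apply Units.ext
    rw [Units.val_pow_eq_pow_val, Units.val_mk0, hz]
  exact ⟨Units.mk0 z hz0, mem_ESgroup_of_pow_mem hp hpS _ (hyu ▸ hu), hyu⟩

/-- `μ_p ⊆ E_S` (`p ∈ S`). -/
theorem mem_ESgroup_of_pow_eq_one (ζ : Qbarˣ) (hζ : ζ ^ p = 1) : ζ ∈ ESgroup S :=
  mem_ESgroup_of_pow_mem hp hpS ζ (hζ ▸ (ESgroup S).one_mem)

/-- `E_S[p] = μ_p`. -/
theorem mem_ESgroup_and_pow_eq_one_iff (ζ : Qbarˣ) :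
    (ζ ∈ ESgroup S ∧ ζ ^ p = 1) ↔ ζ ^ p = 1 :=
  ⟨fun h => h.2, fun h => ⟨mem_ESgroup_of_pow_eq_one hp hpS ζ h, h⟩⟩

/-! ### `Rep` forms -/

/-- `ES S` is `p`-divisible as a `ℤ`-module. -/
theorem exists_nsmul_eq (a : ES S) : ∃ b : ES S, p • b = a := by
  obtain ⟨y, hy, hyu⟩ := exists_pow_eq hp hpS ((Additive.toMul (α := ESgroup S) a : ESgroup S) : Qbarˣ)
    (Additive.toMul (α := ESgroup S) a).2
  refine ⟨Additive.ofMul (⟨y, hy⟩ : ESgroup S), ?_⟩
  apply Additive.toMul.injective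
  apply Subtype.ext
  exact hyu

/-- `ES S` is `p`-divisible, `ℤ`-scalar form (the `hdiv` hypothesis of `HomCx29.lcomp_surjective`). -/
theorem exists_zsmul_eq (a : ES S) : ∃ b : ES S, (p : ℤ) • b = a := by
  obtain ⟨b, hb⟩ := exists_nsmul_eq hp hpS a
  exact ⟨b, by rw [Nat.cast_smul_eq_nsmul ℤ]; exact hb⟩

/-- the `p`-th power map of `ES S` is surjective -/
theorem surjective_nsmul : Function.Surjective fun b : ES S => p • b :=
  fun a => exists_nsmul_eq hp hpS a

/-- every `p`-th root of unity of `ℚ̄` defines a `p`-torsion element of `ES S` -/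
theorem exists_ES_of_pow_eq_one (ζ : Qbarˣ) (hζ : ζ ^ p = 1) :
    ∃ a : ES S, ((Additive.toMul (α := ESgroup S) a : ESgroup S) : Qbarˣ) = ζ ∧ p • a = 0 := by
  refine ⟨Additive.ofMul (⟨ζ, mem_ESgroup_of_pow_eq_one hp hpS ζ hζ⟩ : ESgroup S), rfl, ?_⟩
  apply Additive.toMul.injective
  apply Subtype.ext
  exact hζ

end Root

end Fermat.Agent.PT.GLUE.ESDivisible27
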