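import Mathlib
import Fermat.Agent.PT.PRO.NormTrans11
import Fermat.Agent.PT.PRO.HyperColim18

set_option autoImplicit false

namespace Fermat.Agent.PT.GLUE.GexCore16

open Fermat.Agent.PT.PRO.GlobalDuality20 Fermat.Agent.PT.PRO.NormTrans11
open Fermat.Agent.PT.PRO.HyperColim18

section Core

variable {G C : Type*} [Group G] [AddCommGroup C] (ρ : Representation ℤ G C)

/-- **Abstract (GEXnorm) chase.**  `Φ_U`, `Φ_V` embed the `U`- resp. `V`-invariants into groups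
`A_U`, `A_V`, compatibly with `incl : A_U → A_V` and with the norms; the image of `Φ_U` contains
all `m`-th powers (`p ∤ m`); and every norm is `incl` of a `p`-th power.  Then
`N_{U/V} C^V ⊆ p C^U`. -/
theorem gex_core (U V : Subgroup G) (hVU : V ≤ U) [V.FiniteIndex]
    {AU AV : Type*} [CommGroup AU] [CommGroup AV]
    (ΦU : fixedSub U ρ →+ Additive AU) (ΦV : fixedSub V ρ →+ Additive AV)
    (hΦU : Function.Injective ΦU)
    (incl : AU →* AV) (hincl : Function.Injective incl)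
    (N : AV → AV)
    (htower : ∀ (x : C) (hx : FixedBy ρ U x),
      ΦV ⟨x, hx.mono hVU⟩ = Additive.ofMul (incl (Additive.toMul (ΦU ⟨x, hx⟩))))
    (hnorm : ∀ (x : C) (hx : FixedBy ρ V x),
      ΦV ⟨relNrm ρ U V x, (relNrm_fixed hx).mono hVU⟩ =
        Additive.ofMul (N (Additive.toMul (ΦV ⟨x, hx⟩))))
    (p m : ℕ) (hpm : p.Coprime m)
    (hcap : ∀ a : AU, ∃ y : fixedSub U ρ, ΦU y = Additive.ofMul (a ^ m))
    (hrec : ∀ c : AV, ∃ d : AU, N c = incl (d ^ p)) :
    ∀ x, FixedBy ρ V x → ∃ x', FixedBy ρ U x' ∧ relNrm ρ U V x = (p : ℤ) • x' := by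
  intro x hx
  have hNx : FixedBy ρ U (relNrm ρ U V x) := relNrm_fixed hx
  obtain ⟨d, hd⟩ := hrec (Additive.toMul (ΦV ⟨x, hx⟩))
  -- `Φ_U (N x) = d ^ p`
  have h1 : ΦU ⟨relNrm ρ U V x, hNx⟩ = Additive.ofMul (d ^ p) := by
    have h2 := htower _ hNx
    rw [hnorm x hx, hd] at h2
    have h3 := hincl (Additive.ofMul.injective h2)
    rw [h3]
    rfl
  obtain ⟨y, hy⟩ := hcap d
  -- Bezout
  have hco : IsCoprime (p : ℤ) (m : ℤ) := Nat.isCoprime_iff_coprime.mpr hpm
  obtain ⟨a, b, hab⟩ := hco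
  let x' : fixedSub U ρ := a • ⟨relNrm ρ U V x, hNx⟩ + b • y
  have hx' : ΦU x' = Additive.ofMul d := by
    show ΦU (a • ⟨relNrm ρ U V x, hNx⟩ + b • y) = Additive.ofMul d
    rw [map_add, map_zsmul, map_zsmul, h1, hy]
    apply Additive.toMul.injective
    show (d ^ p) ^ a * (d ^ m) ^ b = d
    rw [← zpow_natCast, ← zpow_natCast, ← zpow_mul, ← zpow_mul, ← zpow_add]
    have : (p : ℤ) * a + (m : ℤ) * b = 1 := by linarith
    rw [this, zpow_one]
  refine ⟨x', x'.2, ?_⟩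
  have h4 : ΦU ((p : ℤ) • x') = ΦU ⟨relNrm ρ U V x, hNx⟩ := by
    rw [map_zsmul, hx', h1]
    apply Additive.toMul.injective
    show d ^ (p : ℤ) = d ^ p
    rw [zpow_natCast]
  have h5 := hΦU h4
  have h6 := congrArg (fun z : fixedSub U ρ => (z : C)) h5
  exact h6.symm

end Core

end Fermat.Agent.PT.GLUE.GexCore16
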