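/-
Program F (S55, Poitou–Tate), sub-chapter GLUE, helper21: (GL3, part 2) the comparison map
`Φ_K` of `LevelCT21` PACKAGED as an additive homomorphism on PRO's fixed-point submodule
`HyperColim18.fixedSub K.U (CS S).ρ`:

  `PhiHom hS K : fixedSub K.U (CS S).ρ →+ Additive (Interface23.CT S K.F)`

with: characterisation (`inclCT_PhiHom_idCS`: `inclCT (Φ_K [Θ_L ι]) = [(ι,1)]`), injectivity, tower
compatibility `Φ_L x = inclCT (Φ_K x)`, `Γ`-equivariance, description of the range, and (with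
`Capitulation27`) `m • CT S K ⊆ range Φ_K` for some `m` prime to `p`.
-/
import Mathlib
import Fermat.Agent.PT.GLUE.LevelCT21
import Fermat.Agent.PT.GLUE.Capitulation27
import Fermat.Agent.PT.PRO.HyperColim18

set_option autoImplicit false
set_option linter.unusedSectionVars false
set_option linter.style.haveILetI false

namespace Fermat.Agent.PT.GLUE.LevelCTHom21

open Fermat.Agent.PT.GLUE.Objects21 Fermat.Agent.PT.GLUE.FiniteLevelI21
open Fermat.Agent.PT.GLUE.Levels21 Fermat.Agent.PT.GLUE.LevelCT21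
open Fermat.Agent.PT.PRO.GlobalDuality20 Fermat.Agent.PT.PRO.HyperColim18
open Fermat.Agent.PT.GLOB

local notation "Qbar" => AlgebraicClosure ℚ
local notation "Γ" => (AlgebraicClosure ℚ ≃ₐ[ℚ] AlgebraicClosure ℚ)

local instance isAlgClosureQbarH21 : IsAlgClosure ℚ Qbar := ⟨inferInstance, inferInstance⟩
local instance normalQbarH21 : Normal ℚ Qbar := IsAlgClosure.normal ℚ Qbar
local instance isGaloisQbarH21 : IsGalois ℚ Qbar := IsAlgClosure.isGalois ℚ Qbar

variable {S : Finset Nat.Primes} (hS : S.Nonempty)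

/-! ### Tower compatibility and the characterising property, for `phi` -/

section PhiTower

variable {K : Lev S}

/-- The relation is compatible with enlarging the base level. -/
theorem rel_incl {x : CS S} {c : Interface23.CT S K.F} (h : Rel K x c) (L : Lev S)
    [Fact (K.F ≤ L.F)] : Rel L x (Tower23.inclCT S K.F L.F c) := by
  obtain ⟨M, hM, hLM, ι, h1, h2⟩ := h.exists_ge L
  haveI : Fact (L.F ≤ M.F) := ⟨hLM⟩
  exact ⟨M, ⟨hLM⟩, ι, h1, by rw [TowerTrans23.inclCT_inclCT, h2]⟩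

/-- Invariants under `Gal(ℚ̄/K)` are invariant under the smaller group `Gal(ℚ̄/L)`. -/
theorem fixed_mono {x : CS S} (L : Lev S) [h : Fact (K.F ≤ L.F)]
    (hx : ∀ s ∈ K.U, (CS S).ρ s x = x) : ∀ s ∈ L.U, (CS S).ρ s x = x :=
  fun s hs => hx s (IntermediateField.fixingSubgroup_antitone h.out hs)

/-- **(ii) tower compatibility**: `Φ_L x = inclCT (Φ_K x)`. -/
theorem phi_tower {x : CS S} (hx : ∀ s ∈ K.U, (CS S).ρ s x = x) (L : Lev S) [Fact (K.F ≤ L.F)]
    (hx' : ∀ s ∈ L.U, (CS S).ρ s x = x) :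
    phi hS L x hx' = Tower23.inclCT S K.F L.F (phi hS K x hx) :=
  phi_eq_of_rel hS (rel_incl (rel_phi hS K x hx) L) hx'

/-- **The characterising property of `Φ_K`**: `inclCT (Φ_K [Θ_L ι]) = [(ι,1)]`. -/
theorem inclCT_phi_idCS (L : Lev S) [Fact (K.F ≤ L.F)] (ι : Interface23.IT S L.F)
    (hx : ∀ s ∈ K.U, (CS S).ρ s (idCS L ι) = idCS L ι) :
    Tower23.inclCT S K.F L.F (phi hS K (idCS L ι) hx) = idCT L ι := by
  rw [← phi_tower hS hx L (fixed_mono L hx)]
  exact phi_idCS hS ι _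

end PhiTower

/-! ### The packaged homomorphism -/

section Hom

variable (K : Lev S)

/-- **`Φ_K` as an additive homomorphism** from the `Gal(ℚ̄/K)`-invariants of `C_S` to `CT S K`. -/
noncomputable def PhiHom : fixedSub K.U (CS S).ρ →+ Additive (Interface23.CT S K.F) where
  toFun x := Additive.ofMul (phi hS K x.1 x.2)
  map_zero' := by
    change Additive.ofMul (phi hS K 0 _) = 0
    rw [phi_zero]
    rfl
  map_add' x y := by
    change Additive.ofMul (phi hS K (x.1 + y.1) _) = _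
    rw [phi_add hS x.2 y.2]
    rfl

theorem PhiHom_apply (x : fixedSub K.U (CS S).ρ) :
    PhiHom hS K x = Additive.ofMul (phi hS K x.1 x.2) := rfl

theorem toMul_PhiHom (x : CS S) (hx : FixedBy (CS S).ρ K.U x) :
    Additive.toMul (PhiHom hS K ⟨x, hx⟩) = phi hS K x hx := rfl

theorem PhiHom_injective : Function.Injective (PhiHom hS K) := by
  intro x y h
  exact Subtype.ext (phi_injective hS x.2 y.2 (Additive.ofMul.injective h))

/-- **(iii) equivariance** (raw form). -/
theorem PhiHom_smul (g : Γ) (x : CS S) (hx : FixedBy (CS S).ρ K.U x)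
    (hgx : FixedBy (CS S).ρ K.U ((CS S).ρ g x)) :
    PhiHom hS K ⟨(CS S).ρ g x, hgx⟩ =
      Additive.ofMul (AlgEquiv.restrictNormalHom K.F g • Additive.toMul (PhiHom hS K ⟨x, hx⟩)) :=
  congrArg Additive.ofMul (phi_smul hS hx g hgx)

/-- **(iii) equivariance** for the action `fixedRep` of `Γ ⧸ K.U` on the invariants. -/
theorem PhiHom_fixedRep (g : Γ) (x : fixedSub K.U (CS S).ρ) :
    PhiHom hS K (fixedRep K.U (CS S).ρ (g : Γ ⧸ K.U) x) =
      Additive.ofMul (AlgEquiv.restrictNormalHom K.F g • Additive.toMul (PhiHom hS K x)) :=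
  PhiHom_smul hS K g x.1 x.2 _

/-- **(ii) tower compatibility.** -/
theorem PhiHom_tower (L : Lev S) [Fact (K.F ≤ L.F)] (x : CS S) (hx : FixedBy (CS S).ρ K.U x)
    (hx' : FixedBy (CS S).ρ L.U x) :
    PhiHom hS L ⟨x, hx'⟩ =
      Additive.ofMul (Tower23.inclCT S K.F L.F (Additive.toMul (PhiHom hS K ⟨x, hx⟩))) :=
  congrArg Additive.ofMul (phi_tower hS hx L hx')

/-- **The characterising property** (helper5's `IsLevelCT`). -/
theorem inclCT_PhiHom_idCS (L : Lev S) [Fact (K.F ≤ L.F)] (ι : Interface23.IT S L.F)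
    (hx : FixedBy (CS S).ρ K.U (toCS S (thetaS L.F L.unr (Additive.ofMul ι)))) :
    Tower23.inclCT S K.F L.F (Additive.toMul (PhiHom hS K ⟨_, hx⟩)) =
      Interface23.toCT S L.F (ι, 1) :=
  inclCT_phi_idCS hS L ι hx

/-- `Φ_K` on the classes of the ideles of `K` itself. -/
theorem PhiHom_idCS (ι : Interface23.IT S K.F)
    (hx : FixedBy (CS S).ρ K.U (toCS S (thetaS K.F K.unr (Additive.ofMul ι)))) :
    PhiHom hS K ⟨_, hx⟩ = Additive.ofMul (Interface23.toCT S K.F (ι, 1)) :=
  congrArg Additive.ofMul (phi_idCS hS ι hx)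

/-- The classes of the ideles of `K` are `Gal(ℚ̄/K)`-invariant. -/
theorem fixedBy_idCS (ι : Interface23.IT S K.F) :
    FixedBy (CS S).ρ K.U (toCS S (thetaS K.F K.unr (Additive.ofMul ι))) :=
  fun _ hs => ρ_idCS K ι hs

/-- **The range of `Φ_K`** contains every class that becomes idelic at some level. -/
theorem exists_PhiHom_eq {c : Interface23.CT S K.F} (L : Lev S) [Fact (K.F ≤ L.F)]
    (ι : Interface23.IT S L.F) (h : Tower23.inclCT S K.F L.F c = Interface23.toCT S L.F (ι, 1)) :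
    ∃ x : fixedSub K.U (CS S).ρ, PhiHom hS K x = Additive.ofMul c := by
  obtain ⟨x, hx, hc⟩ := exists_phi_eq hS L ι h
  exact ⟨⟨x, hx⟩, congrArg Additive.ofMul hc⟩

/-- **(iv)** `m • CT S K ⊆ range Φ_K` for some `m` prime to `p` (`p ∈ S`): capitulation of the
`p`-primary `S`-ideal classes inside `ℚ_S`. -/
theorem exists_coprime_PhiHom_eq (p : ℕ) (hp : p.Prime) (hpS : (⟨p, hp⟩ : Nat.Primes) ∈ S) :
    ∃ m : ℕ, 0 < m ∧ Nat.Coprime p m ∧ ∀ c : Interface23.CT S K.F,
      ∃ x : fixedSub K.U (CS S).ρ, PhiHom hS K x = Additive.ofMul (c ^ m) := by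
  obtain ⟨m, hm0, hpm, hc⟩ := Capitulation27.exists_coprime_capitulates p hp hpS K
  refine ⟨m, hm0, hpm, fun c => ?_⟩
  obtain ⟨L, hL, ι, h⟩ := hc c
  exact exists_PhiHom_eq hS K L ι h

end Hom

end Fermat.Agent.PT.GLUE.LevelCTHom21
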