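/-
Program F (S55, Poitou–Tate), chapter GLUE, helper16: relative norm = Galois norm.

For levels `K ≤ L` (`Levels21.Lev S`): `quotEquiv K L : U_K / U_L ≃* Gal(L/K)` (restriction), and
for any additive `Γ`-equivariant map `Ψ : C^{U_L} → CT S L` (`Γ` acting on `CT S L` through
`Γ → Gal(L/ℚ)`, packaged as `galAct`):
  `Ψ (N_{U_K/U_L} x) = InterfaceCF23.normCT S K L (Ψ x)`   (`map_relNrm`).
This is the hypothesis `hnorm` of `GexCore16.gex_core`.
-/
import Mathlib
import Fermat.Agent.PT.GLUE.Levels21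
import Fermat.Agent.PT.PRO.NormTrans11
import Fermat.Agent.PT.PRO.HyperColim18
import Fermat.Agent.PT.GLOB.InterfaceCF23
import Fermat.Agent.PT.GLOB.Devissage19
import Fermat.Agent.PT.BR.LevelBridge13
import Fermat.Agent.PT.GLOB.FirstIneq16

set_option autoImplicit false
set_option linter.unusedSectionVars false

namespace Fermat.Agent.PT.GLUE.RelNrmGalois16

open Fermat.Agent.PT.GLUE.Levels21 Fermat.Agent.PT.GLUE.Objects21
open Fermat.Agent.PT.PRO.GlobalDuality20 Fermat.Agent.PT.PRO.NormTrans11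
open Fermat.Agent.PT.PRO.HyperColim18
open Fermat.Agent.PT.GLOB

local notation "Qbar" => AlgebraicClosure ℚ
local notation "Γ" => (AlgebraicClosure ℚ ≃ₐ[ℚ] AlgebraicClosure ℚ)

local instance isAlgClosureQbarRN16 : IsAlgClosure ℚ Qbar := ⟨inferInstance, inferInstance⟩
local instance normalQbarRN16 : Normal ℚ Qbar := IsAlgClosure.normal ℚ Qbar
local instance isGaloisQbarRN16 : IsGalois ℚ Qbar := IsAlgClosure.isGalois ℚ Qbar

variable {S : Finset Nat.Primes}

instance finiteIndex_U (L : Lev S) : (L.U).FiniteIndex :=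
  Fermat.Agent.PT.BR.LevelBridge13.finiteIndex_fixingSubgroup L.F

variable (K L : Lev S) [h : Fact (K.F ≤ L.F)]

theorem U_le : L.U ≤ K.U := IntermediateField.fixingSubgroup_antitone h.out

theorem coe_restrictNormalHom (g : Γ) (x : L.F) :
    ((AlgEquiv.restrictNormalHom L.F g x : L.F) : Qbar) = g (x : Qbar) :=
  AlgEquiv.restrictNormal_commutes g L.F x

/-- The restriction of `g ∈ Gal(ℚ̄/K)` to `L`, as a `K`-automorphism. -/
noncomputable def resKL (g : K.U) : L.F ≃ₐ[K.F] L.F :=
  { (AlgEquiv.restrictNormalHom L.F (g : Γ)).toRingEquiv with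
    commutes' := fun x => by
      apply Subtype.ext
      show ((AlgEquiv.restrictNormalHom L.F (g : Γ) (algebraMap K.F L.F x) : L.F) : Qbar) = _
      rw [coe_restrictNormalHom, coe_algebraMap_tower]
      exact g.2 x }

theorem resKL_apply (g : K.U) (x : L.F) :
    resKL K L g x = AlgEquiv.restrictNormalHom L.F (g : Γ) x := rfl

theorem restrictScalars_resKL (g : K.U) :
    (resKL K L g).restrictScalars ℚ = AlgEquiv.restrictNormalHom L.F (g : Γ) := by
  ext x
  rfl

/-- Restriction `Gal(ℚ̄/K) → Gal(L/K)` as a group homomorphism. -/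
noncomputable def resHom : K.U →* (L.F ≃ₐ[K.F] L.F) where
  toFun := resKL K L
  map_one' := by
    ext x
    rw [resKL_apply]
    simp
  map_mul' a b := by
    ext x
    rw [AlgEquiv.mul_apply, resKL_apply, resKL_apply, resKL_apply]
    simp

theorem resHom_apply (g : K.U) : resHom K L g = resKL K L g := rfl

theorem ker_resHom : (resHom K L).ker = (L.U).subgroupOf K.U := by
  ext g
  rw [MonoidHom.mem_ker, Subgroup.mem_subgroupOf]
  constructor
  · intro hg x
    have h1 := DFunLike.congr_fun hg x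
    have h2 : ((resKL K L g x : L.F) : Qbar) = ((x : L.F) : Qbar) := congrArg Subtype.val h1
    rw [resKL_apply, coe_restrictNormalHom] at h2
    exact h2
  · intro hg
    ext x
    rw [resHom_apply, resKL_apply, coe_restrictNormalHom]
    exact hg x

theorem resHom_surjective : Function.Surjective (resHom K L) := by
  intro σ
  obtain ⟨g, hg⟩ := AlgEquiv.restrictNormalHom_surjective (F := ℚ) (K₁ := L.F) Qbar
    (σ.restrictScalars ℚ)
  have hgK : g ∈ K.U := by
    intro x
    have h1 := coe_restrictNormalHom L g (algebraMap K.F L.F x)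
    rw [hg, coe_algebraMap_tower] at h1
    show g (x : Qbar) = x
    rw [← h1]
    show ((σ (algebraMap K.F L.F x) : L.F) : Qbar) = _
    rw [σ.commutes, coe_algebraMap_tower]
  refine ⟨⟨g, hgK⟩, ?_⟩
  ext x
  rw [resHom_apply, resKL_apply]
  show ((AlgEquiv.restrictNormalHom L.F g x : L.F) : Qbar) = _
  rw [hg]
  rfl

/-- `Gal(ℚ̄/K) / Gal(ℚ̄/L) ≃ Gal(L/K)`. -/
noncomputable def quotEquiv : (↥K.U ⧸ (L.U).subgroupOf K.U) ≃* (L.F ≃ₐ[K.F] L.F) :=
  (QuotientGroup.quotientMulEquivOfEq (ker_resHom K L).symm).trans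
    (QuotientGroup.quotientKerEquivOfSurjective (resHom K L) (resHom_surjective K L))

theorem quotEquiv_mk (g : K.U) : quotEquiv K L (g : ↥K.U ⧸ (L.U).subgroupOf K.U) = resKL K L g :=
  rfl

section Norm

/-- The action of `g ∈ Γ` on `CT S L` through `Γ → Gal(L/ℚ)` (packaged: the instance search for
this `•` is slow). -/
noncomputable def galAct (L : Lev S) (g : Γ) (c : Interface23.CT S L.F) : Interface23.CT S L.F :=
  set_option synthInstance.maxHeartbeats 400000 in
  AlgEquiv.restrictNormalHom L.F g • c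

set_option synthInstance.maxHeartbeats 400000 in
theorem galAct_def (L : Lev S) (g : Γ) (c : Interface23.CT S L.F) :
    galAct L g c = AlgEquiv.restrictNormalHom L.F g • c := rfl

variable {C : Type*} [AddCommGroup C] (ρ : Representation ℤ Γ C)

/-- **Relative norm = Galois norm.**  For an additive map `Ψ : C^{U_L} → CT S L` which is
`Γ`-equivariant (through `Γ → Gal(L/ℚ)`), `Ψ (N_{U_K/U_L} x) = ∏_{h ∈ Gal(L/K)} h • Ψ x`. -/
theorem map_relNrm (Ψ : fixedSub L.U ρ →+ Additive (Interface23.CT S L.F))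
    (hΨ : ∀ (g : Γ) (x : C) (hx : FixedBy ρ L.U x),
      Ψ ⟨ρ g x, fixedBy_apply ρ g hx⟩ =
        Additive.ofMul (galAct L g (Additive.toMul (Ψ ⟨x, hx⟩))))
    (x : C) (hx : FixedBy ρ L.U x) :
    Ψ ⟨relNrm ρ K.U L.U x, (relNrm_fixed hx).mono (U_le K L)⟩ =
      Additive.ofMul (InterfaceCF23.normCT S K.F L.F (Additive.toMul (Ψ ⟨x, hx⟩))) := by
  classical
  have : Fintype (↥K.U ⧸ (L.U).subgroupOf K.U) := Fintype.ofFinite _
  have h1 : relNrm ρ K.U L.U x =
      ∑ r : ↥K.U ⧸ (L.U).subgroupOf K.U, ρ ((Quotient.out r : ↥K.U) : Γ) x :=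
    relNrm_eq_sum hx _ (fun q => QuotientGroup.out_eq' q)
  have h2 : (⟨relNrm ρ K.U L.U x, (relNrm_fixed hx).mono (U_le K L)⟩ : fixedSub L.U ρ) =
      ∑ r : ↥K.U ⧸ (L.U).subgroupOf K.U,
        (⟨ρ ((Quotient.out r : ↥K.U) : Γ) x, fixedBy_apply ρ _ hx⟩ : fixedSub L.U ρ) := by
    apply Subtype.ext
    rw [Submodule.coe_sum]
    exact h1
  rw [h2, map_sum]
  refine (Finset.sum_congr rfl (fun r _ => hΨ ((Quotient.out r : ↥K.U) : Γ) x hx)).trans ?_
  rw [← ofMul_prod]
  congr 1
  unfold InterfaceCF23.normCT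
  refine Fintype.prod_equiv (quotEquiv K L).toEquiv _ _ (fun r => ?_)
  have h3 : (quotEquiv K L).toEquiv r = resKL K L (Quotient.out r) := by
    conv_lhs => rw [← QuotientGroup.out_eq' r]
    rfl
  rw [h3, ← Devissage19.restrictScalars_smul_CT S ℚ K.F L.F, restrictScalars_resKL]
  rfl

end Norm

end Fermat.Agent.PT.GLUE.RelNrmGalois16
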