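/-
Program F (S55, Poitou–Tate), sub-chapter GLUE — helper15.

**(GEXnorm) for `C_S`.**  The hypothesis `hgex` of `NormTrans11.recn` (= `HypPFund18.GexNorm`)
for the global datum `(CS S).ρ`:
every `U` in the level basis of `G_S` contains a normal level subgroup `V` with
`N_{U/V} C_S^V ⊆ p · C_S^U`.
-/
import Mathlib
import Fermat.Agent.PT.GLUE.Levels21
import Fermat.Agent.PT.GLUE.ESDivisible27
import Fermat.Agent.PT.GLUE.GexCore16
import Fermat.Agent.PT.GLUE.LevelRec13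
import Fermat.Agent.PT.PRO.HypPFund18
import Fermat.Agent.PT.PRO.FundHyp12
import Fermat.Agent.PT.GLOB.TowerMaps6
import Fermat.Agent.PT.GLUE.LevelCTHom21
import Fermat.Agent.PT.GLUE.RelNrmGalois16
import Fermat.Agent.PT.PRO.GlobalHypP8

set_option autoImplicit false
set_option linter.unusedSectionVars false

namespace Fermat.Agent.PT.GLUE.GexNorm15

open Fermat.Agent.PT.PRO.GlobalDuality20 Fermat.Agent.PT.PRO.NormTrans11
open Fermat.Agent.PT.PRO.HyperColim18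

/-! ### Transitivity of the relative norm -/

section Abstract

variable {k : Type*} [CommRing k] {G : Type*} [Group G] {Y : Type*} [AddCommGroup Y] [Module k Y]

/-- The relative norm does not change when the ambient group is replaced by a subgroup
containing `V`. -/
theorem relNrm_comp_subtype (ρ : Representation k G Y) {U V W : Subgroup G} (hVU : V ≤ U)
    [W.FiniteIndex] {e : Y} (he : FixedBy ρ W e) :
    relNrm (ρ.comp U.subtype) (V.subgroupOf U) (W.subgroupOf U) e = relNrm ρ V W e := by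
  classical
  have : Fintype (↥V ⧸ W.subgroupOf V) := Fintype.ofFinite _
  let ψ : ↥(V.subgroupOf U) ≃* ↥V := Subgroup.subgroupOfEquivOfLe hVU
  have hψ : ∀ a : ↥(V.subgroupOf U), ((ψ a : ↥V) : G) = ((a : ↥U) : G) := fun a => rfl
  let E : ↥(V.subgroupOf U) ⧸ (W.subgroupOf U).subgroupOf (V.subgroupOf U) ≃
      ↥V ⧸ W.subgroupOf V :=
    Quotient.congr ψ.toEquiv (fun a b => by
      rw [QuotientGroup.leftRel_apply, QuotientGroup.leftRel_apply, Subgroup.mem_subgroupOf,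
        Subgroup.mem_subgroupOf, Subgroup.mem_subgroupOf]
      rfl)
  have : Fintype (↥(V.subgroupOf U) ⧸ (W.subgroupOf U).subgroupOf (V.subgroupOf U)) :=
    Fintype.ofEquiv _ E.symm
  have hE : ∀ a : ↥(V.subgroupOf U), E (a : _ ⧸ _) = ((ψ a : ↥V) : ↥V ⧸ W.subgroupOf V) :=
    fun a => rfl
  have heW : FixedBy (ρ.comp U.subtype) (W.subgroupOf U) e := fixedBy_comp_subtype he
  rw [relNrm_eq_sum (ρ := ρ.comp U.subtype) heW (fun r => Quotient.out r)
      (fun r => QuotientGroup.out_eq' r),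
    relNrm_eq_sum he (fun r => ψ (Quotient.out (E.symm r))) (fun r => by
      rw [← hE, QuotientGroup.out_eq', Equiv.apply_symm_apply])]
  refine Fintype.sum_equiv E _ _ (fun r => ?_)
  rw [Equiv.symm_apply_apply]
  rfl

/-- **Transitivity of the relative norm**: `N_{U/W} = N_{U/V} ∘ N_{V/W}` on `W`-fixed vectors. -/
theorem relNrm_trans (ρ : Representation k G Y) {U V W : Subgroup G} (hVU : V ≤ U) (hWV : W ≤ V)
    [W.FiniteIndex] {e : Y} (he : FixedBy ρ W e) :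
    relNrm ρ U W e = relNrm ρ U V (relNrm ρ V W e) := by
  have : (W.subgroupOf U).FiniteIndex := inferInstance
  have h1 := nrm_trans (ρ := ρ.comp U.subtype) (U := V.subgroupOf U) (V := W.subgroupOf U)
    (Subgroup.subgroupOf_mono U hWV) (fixedBy_comp_subtype he)
  rw [relNrm_comp_subtype ρ hVU he] at h1
  exact h1

lemma relNrm_smul (ρ : Representation k G Y) {U V : Subgroup G} [V.FiniteIndex] (r : k) (e : Y) :
    relNrm ρ U V (r • e) = r • relNrm ρ U V e :=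
  nrm_smul (ρ := ρ.comp U.subtype) (U := V.subgroupOf U) r e

/-- **Shrinking `U`**: if `N_{U'/V} Y^V ⊆ p Y^{U'}` and `V ≤ U' ≤ U`, then
`N_{U/V} Y^V ⊆ p Y^U`. -/
theorem gex_of_le (ρ : Representation k G Y) {U U' V : Subgroup G} (hU' : U' ≤ U) (hV : V ≤ U')
    [V.FiniteIndex] (p : ℕ)
    (h : ∀ x, FixedBy ρ V x → ∃ x', FixedBy ρ U' x' ∧ relNrm ρ U' V x = (p : k) • x') :
    ∀ x, FixedBy ρ V x → ∃ x', FixedBy ρ U x' ∧ relNrm ρ U V x = (p : k) • x' := by
  intro x hx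
  have : U'.FiniteIndex := Subgroup.finiteIndex_of_le hV
  obtain ⟨x', hx', hxx'⟩ := h x hx
  refine ⟨relNrm ρ U U' x', relNrm_fixed hx', ?_⟩
  rw [relNrm_trans ρ hU' hV hx, hxx', relNrm_smul]

end Abstract

/-- `GexCore16.gex_core` for an arbitrary `ℤ`-module instance on `C` (the `Rep` carrier of `C_S`
does not come with `AddCommGroup.toIntModule`). -/
theorem gex_core' {G C : Type*} [Group G] [AddCommGroup C] [inst : Module ℤ C]
    (ρ : Representation ℤ G C) (U V : Subgroup G) (hVU : V ≤ U) [V.FiniteIndex]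
    {AU AV : Type*} [CommGroup AU] [CommGroup AV]
    (ΦU : fixedSub U ρ →+ Additive AU) (ΦV : fixedSub V ρ →+ Additive AV)
    (hΦU : Function.Injective ΦU)
    (incl : AU →* AV) (hincl : Function.Injective incl)
    (N : AV → AV)
    (htower : ∀ (x : C) (hx : FixedBy ρ U x),
      ΦV ⟨x, hx.mono hVU⟩ = Additive.ofMul (incl (Additive.toMul (ΦU ⟨x, hx⟩))))
    (hnorm : ∀ (x : C) (hx : FixedBy ρ V x),
      ΦV ⟨relNrm ρ U V x, (relNrm_fixed hx).mono hVU⟩ =
        Additive.ofMul (N (Additive.toMul (ΦV ⟨x, hx⟩))))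
    (p m : ℕ) (hpm : p.Coprime m)
    (hcap : ∀ a : AU, ∃ y : fixedSub U ρ, ΦU y = Additive.ofMul (a ^ m))
    (hrec : ∀ c : AV, ∃ d : AU, N c = incl (d ^ p)) :
    ∀ x, FixedBy ρ V x → ∃ x', FixedBy ρ U x' ∧ relNrm ρ U V x = (p : ℤ) • x' := by
  obtain rfl : inst = AddCommGroup.toIntModule C := Subsingleton.elim _ _
  exact GexCore16.gex_core ρ U V hVU ΦU ΦV hΦU incl hincl N htower hnorm p m hpm hcap hrec

/-! ### The levels of `G_S` -/

section Levels

open Fermat.Agent.PT.GLUE.Objects21 Fermat.Agent.PT.GLUE.Levels21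
open Fermat.Agent.PT.GLOB

local notation "Qbar" => AlgebraicClosure ℚ
local notation "Γ" => (AlgebraicClosure ℚ ≃ₐ[ℚ] AlgebraicClosure ℚ)

variable {S : Finset Nat.Primes}

/-- A finite subextension of `ℚ̄/ℚ` unramified outside `S` lies in a level. -/
theorem exists_lev_ge (F : IntermediateField ℚ Qbar) (hF : F.IsUnramifiedOutside S) :
    ∃ L : Lev S, F ≤ L.F := by
  have := hF.1
  exact ⟨⟨IntermediateField.normalClosure ℚ F Qbar, normalClosure.is_finiteDimensional ℚ F Qbar,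
    IsGalois.normalClosure ℚ F Qbar,
    Fermat.Agent.PT.BR.UnramBridge13.isUnramifiedOutside_normalClosure hF⟩,
    IntermediateField.le_normalClosure F⟩

/-- For `p ∈ S`, every level lies in a level containing a primitive `p`-th root of unity. -/
theorem exists_lev_primitiveRoot {p : ℕ} (hp : p.Prime) (hpS : (⟨p, hp⟩ : Nat.Primes) ∈ S)
    (K : Lev S) : ∃ K' : Lev S, K.F ≤ K'.F ∧ ∃ ζ : K'.F, IsPrimitiveRoot ζ p := by
  have : NeZero (p : Qbar) := ⟨by exact_mod_cast hp.ne_zero⟩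
  obtain ⟨ζ, hζ⟩ := HasEnoughRootsOfUnity.exists_primitiveRoot Qbar p
  have hζ0 : ζ ≠ 0 := hζ.ne_zero hp.ne_zero
  have hpow : (Units.mk0 ζ hζ0) ^ p = 1 := by
    apply Units.ext
    rw [Units.val_pow_eq_pow_val, Units.val_mk0, hζ.pow_eq_one, Units.val_one]
  have hunr := ESDivisible27.isUnramifiedOutside_sup_adjoin_root hp hpS K.F K.unr
    (Units.mk0 ζ hζ0) (hpow ▸ (ESgroup S).one_mem)
    (by rw [Units.val_mk0, hζ.pow_eq_one]; exact one_mem _)
  obtain ⟨K', hK'⟩ := exists_lev_ge _ hunr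
  have hζK' : ζ ∈ K'.F := by
    apply hK'
    apply (le_sup_right : IntermediateField.adjoin ℚ {((Units.mk0 ζ hζ0 : Qbarˣ) : Qbar)} ≤ _)
    rw [Units.val_mk0]
    exact IntermediateField.mem_adjoin_simple_self ℚ ζ
  refine ⟨K', le_trans le_sup_left hK', ⟨ζ, hζK'⟩, ?_⟩
  exact IsPrimitiveRoot.of_map_of_injective (f := K'.F.val) hζ K'.F.val.injective

theorem U_le_of_le {K L : Lev S} (h : K.F ≤ L.F) : L.U ≤ K.U :=
  IntermediateField.fixingSubgroup_antitone h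

instance finiteIndex_U (K : Lev S) : (K.U).FiniteIndex :=
  Subgroup.finiteIndex_of_finite_quotient

/-- **(GEXnorm) for `C_S`, conditional form**: from a family of injective additive maps
`Φ_K : (C_S)^{K.U} → CT S K` compatible with the tower inclusions and the norms, whose ranges
contain the `m`-th powers for some `m` prime to `p`, and from (REC) in norm form. -/
theorem gexNorm_of {p : ℕ} (hp : p.Prime) (hp2 : p ≠ 2) (hpS : (⟨p, hp⟩ : Nat.Primes) ∈ S)
    (hREC : InterfaceCF23.RecNormForm p S)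
    (Φ : ∀ K : Lev S, fixedSub K.U (CS S).ρ →+ Additive (Interface23.CT S K.F))
    (hinj : ∀ K : Lev S, Function.Injective (Φ K))
    (htower : ∀ (K L : Lev S) [h : Fact (K.F ≤ L.F)] (x : CS S) (hx : FixedBy (CS S).ρ K.U x),
      Φ L ⟨x, hx.mono (U_le_of_le h.out)⟩ =
        Additive.ofMul (Tower23.inclCT S K.F L.F (Additive.toMul (Φ K ⟨x, hx⟩))))
    (hnorm : ∀ (K L : Lev S) [h : Fact (K.F ≤ L.F)] (x : CS S) (hx : FixedBy (CS S).ρ L.U x),
      Φ L ⟨relNrm (CS S).ρ K.U L.U x, (relNrm_fixed hx).mono (U_le_of_le h.out)⟩ =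
        Additive.ofMul (InterfaceCF23.normCT S K.F L.F (Additive.toMul (Φ L ⟨x, hx⟩))))
    (hcap : ∀ K : Lev S, ∃ m : ℕ, p.Coprime m ∧
      ∀ a : Interface23.CT S K.F, ∃ y : fixedSub K.U (CS S).ρ, Φ K y = Additive.ofMul (a ^ m))
    (hS : S.Nonempty)
    (ℱ : Set (Subgroup Γ))
    (hdown : ∀ U ∈ ℱ, ∀ V ∈ (levelS S).sets, V.Normal → V ≤ U → V ∈ ℱ)
    (hsub : ℱ ⊆ (levelS S).sets) :
    Fermat.Agent.PT.PRO.HypPFund18.GexNorm (CS S).ρ ℱ p := by
  intro U hU
  obtain ⟨K₀, hK₀⟩ := exists_lev_le (hsub hU)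
  obtain ⟨K, hK₀K, hζ⟩ := exists_lev_primitiveRoot hp hpS K₀
  obtain ⟨M, hKM, hM⟩ := LevelRec13.recNormForm_lev p hREC hp hp2 ⟨⟨p, hp⟩, hpS, rfl⟩ K hζ
  have hMK : M.U ≤ K.U := U_le_of_le hKM.out
  have hKU : K.U ≤ U := le_trans (U_le_of_le hK₀K) hK₀
  refine ⟨M.U, hdown U hU M.U M.U_mem inferInstance (le_trans hMK hKU), le_trans hMK hKU, ?_⟩
  obtain ⟨m, hpm, hm⟩ := hcap K
  refine gex_of_le (CS S).ρ hKU hMK p ?_
  exact gex_core' (AU := Interface23.CT S K.F) (AV := Interface23.CT S M.F)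
    (CS S).ρ K.U M.U hMK (Φ K) (Φ M) (hinj K)
    (Tower23.inclCT S K.F M.F) (TowerMaps6.inclCT_injective S K.F M.F hS)
    (InterfaceCF23.normCT S K.F M.F) (htower K M) (hnorm K M) p m hpm hm hM

/-- The conditional (GEXnorm) on the good subgroups of a representation `ρ0` (the `ℱ` of
`FundHyp12.hypP_of_fixed` / `GlobalHypP8`). -/
theorem gexNorm_goodSet_of {p : ℕ} (hp : p.Prime) (hp2 : p ≠ 2)
    (hpS : (⟨p, hp⟩ : Nat.Primes) ∈ S) (hREC : InterfaceCF23.RecNormForm p S)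
    (Φ : ∀ K : Lev S, fixedSub K.U (CS S).ρ →+ Additive (Interface23.CT S K.F))
    (hinj : ∀ K : Lev S, Function.Injective (Φ K))
    (htower : ∀ (K L : Lev S) [h : Fact (K.F ≤ L.F)] (x : CS S) (hx : FixedBy (CS S).ρ K.U x),
      Φ L ⟨x, hx.mono (U_le_of_le h.out)⟩ =
        Additive.ofMul (Tower23.inclCT S K.F L.F (Additive.toMul (Φ K ⟨x, hx⟩))))
    (hnorm : ∀ (K L : Lev S) [h : Fact (K.F ≤ L.F)] (x : CS S) (hx : FixedBy (CS S).ρ L.U x),
      Φ L ⟨relNrm (CS S).ρ K.U L.U x, (relNrm_fixed hx).mono (U_le_of_le h.out)⟩ =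
        Additive.ofMul (InterfaceCF23.normCT S K.F L.F (Additive.toMul (Φ L ⟨x, hx⟩))))
    (hcap : ∀ K : Lev S, ∃ m : ℕ, p.Coprime m ∧
      ∀ a : Interface23.CT S K.F, ∃ y : fixedSub K.U (CS S).ρ, Φ K y = Additive.ofMul (a ^ m))
    (hS : S.Nonempty)
    {k : Type*} [CommRing k] {Y : Type*} [AddCommGroup Y] [Module k Y]
    (ρ0 : Representation k Γ Y) :
    Fermat.Agent.PT.PRO.HypPFund18.GexNorm (CS S).ρ
      (Fermat.Agent.PT.PRO.FundHyp12.goodSet (levelS S).sets ρ0) p :=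
  gexNorm_of hp hp2 hpS hREC Φ hinj htower hnorm hcap hS _
    (fun _ hU _ hV hVn hVU => ⟨hV, hVn, fun s hs x => hU.2.2 s (hVU hs) x⟩)
    (Fermat.Agent.PT.PRO.FundHyp12.goodSet_sub _ _)

/-- `RelNrmGalois16.map_relNrm` for an arbitrary `ℤ`-module instance on `C`. -/
theorem map_relNrm' (K L : Lev S) [h : Fact (K.F ≤ L.F)] {C : Type*} [AddCommGroup C]
    [inst : Module ℤ C] (ρ : Representation ℤ Γ C)
    (Ψ : fixedSub L.U ρ →+ Additive (Interface23.CT S L.F))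
    (hΨ : ∀ (g : Γ) (x : C) (hx : FixedBy ρ L.U x),
      Ψ ⟨ρ g x, fixedBy_apply ρ g hx⟩ =
        Additive.ofMul (RelNrmGalois16.galAct L g (Additive.toMul (Ψ ⟨x, hx⟩))))
    (x : C) (hx : FixedBy ρ L.U x) :
    Ψ ⟨relNrm ρ K.U L.U x, (relNrm_fixed hx).mono (U_le_of_le h.out)⟩ =
      Additive.ofMul (InterfaceCF23.normCT S K.F L.F (Additive.toMul (Ψ ⟨x, hx⟩))) := by
  obtain rfl : inst = AddCommGroup.toIntModule C := Subsingleton.elim _ _
  exact RelNrmGalois16.map_relNrm K L ρ Ψ hΨ x hx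

/-- **(GEXnorm) for `C_S`** on any family `ℱ` of level subgroups which is downward closed among
the normal level subgroups, from (REC) in norm form. -/
theorem gexNorm {p : ℕ} (hp : p.Prime) (hp2 : p ≠ 2) (hpS : (⟨p, hp⟩ : Nat.Primes) ∈ S)
    (hREC : InterfaceCF23.RecNormForm p S) (ℱ : Set (Subgroup Γ))
    (hdown : ∀ U ∈ ℱ, ∀ V ∈ (levelS S).sets, V.Normal → V ≤ U → V ∈ ℱ)
    (hsub : ℱ ⊆ (levelS S).sets) :
    Fermat.Agent.PT.PRO.HypPFund18.GexNorm (CS S).ρ ℱ p := by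
  have hS : S.Nonempty := ⟨_, hpS⟩
  refine gexNorm_of hp hp2 hpS hREC (fun K => LevelCTHom21.PhiHom hS K)
    (fun K => LevelCTHom21.PhiHom_injective hS K)
    (fun K L _ x hx => LevelCTHom21.PhiHom_tower hS K L x hx _)
    (fun K L _ x hx => map_relNrm' K L (CS S).ρ (LevelCTHom21.PhiHom hS L)
      (fun g y hy => LevelCTHom21.PhiHom_smul hS L g y hy _) x hx)
    (fun K => ?_) hS ℱ hdown hsub
  obtain ⟨m, _, hpm, hm⟩ := LevelCTHom21.exists_coprime_PhiHom_eq hS K p hp hpS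
  exact ⟨m, hpm, hm⟩

/-- **(GEXnorm) for `C_S`** on the good subgroups of a representation `ρ0` of `Γ` (the `ℱ` of
`FundHyp12.hypP_of_fixed`). -/
theorem gexNorm_goodSet {p : ℕ} (hp : p.Prime) (hp2 : p ≠ 2)
    (hpS : (⟨p, hp⟩ : Nat.Primes) ∈ S) (hREC : InterfaceCF23.RecNormForm p S)
    {k : Type*} [CommRing k] {Y : Type*} [AddCommGroup Y] [Module k Y]
    (ρ0 : Representation k Γ Y) :
    Fermat.Agent.PT.PRO.HypPFund18.GexNorm (CS S).ρ
      (Fermat.Agent.PT.PRO.FundHyp12.goodSet (levelS S).sets ρ0) p :=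
  gexNorm hp hp2 hpS hREC _
    (fun _ hU _ hV hVn hVU => ⟨hV, hVn, fun s hs x => hU.2.2 s (hVU hs) x⟩)
    (Fermat.Agent.PT.PRO.FundHyp12.goodSet_sub _ _)

/-- **(GEXnorm) for `C_S`** in the shape `GlobalHypP8.GexNormLevel` (all normal members of the
level basis). -/
theorem gexNormLevel {p : ℕ} (hp : p.Prime) (hp2 : p ≠ 2)
    (hpS : (⟨p, hp⟩ : Nat.Primes) ∈ S) (hREC : InterfaceCF23.RecNormForm p S) :
    Fermat.Agent.PT.PRO.GlobalHypP8.GexNormLevel (CS S).ρ (levelS S).sets p := by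
  intro U hU hUn
  obtain ⟨V, hV, hVU, h⟩ := gexNorm hp hp2 hpS hREC {V | V ∈ (levelS S).sets ∧ V.Normal}
    (fun _ _ V hV hVn _ => ⟨hV, hVn⟩) (fun _ h => h.1) U ⟨hU, hUn⟩
  exact ⟨V, hV.1, hV.2, hVU, h⟩

/-- **(GEXnorm) for `C_S`** on `GlobalHypP8.trivFam R (levelS S).sets`. -/
theorem gexNorm_trivFam {p : ℕ} (hp : p.Prime) (hp2 : p ≠ 2)
    (hpS : (⟨p, hp⟩ : Nat.Primes) ∈ S) (hREC : InterfaceCF23.RecNormForm p S)
    {k : Type*} [CommRing k] {P1 P0 M : Type*} [AddCommGroup P1] [Module k P1]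
    [AddCommGroup P0] [Module k P0] [AddCommGroup M] [Module k M]
    (R : Fermat.Agent.PT.PRO.IndRes20.Res k Γ P1 P0 M) :
    Fermat.Agent.PT.PRO.HypPFund18.GexNorm (CS S).ρ
      (Fermat.Agent.PT.PRO.GlobalHypP8.trivFam R (levelS S).sets) p :=
  gexNorm hp hp2 hpS hREC _
    (fun _ hU _ hV hVn hVU => ⟨hV, hVn, fun s hs x => hU.2.2 s (hVU hs) x⟩)
    (fun _ h => h.1)

end Levels

end Fermat.Agent.PT.GLUE.GexNorm15
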