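/-
Program F (S55, Poitou–Tate), sub-chapter GLUE — helper15.

**(REC) and (GEXnorm), unconditional.**  `FundClassExists6.fundClassExists` (helper6) discharges
the last hypothesis of `RecFinal15.recNormForm`, hence of `GexNorm15.gexNorm`.
-/
import Fermat.Agent.PT.GLUE.GexNorm15
import Fermat.Agent.PT.GLOB.RecFinal15
import Fermat.Agent.PT.GLOB.FundClassExists6

set_option autoImplicit false

namespace Fermat.Agent.PT.GLUE.GexNormFinal15

open Fermat.Agent.PT.GLUE.Objects21 Fermat.Agent.PT.GLOB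

local notation "Γ" => (AlgebraicClosure ℚ ≃ₐ[ℚ] AlgebraicClosure ℚ)

/-- **(REC)** reciprocity mod `p` in norm form, unconditional. -/
theorem recNormForm (p : ℕ) (S : Finset Nat.Primes) : InterfaceCF23.RecNormForm p S :=
  RecFinal15.recNormForm p S (FundClassExists6.fundClassExists p S)

variable {S : Finset Nat.Primes} {p : ℕ}

/-- **(GEXnorm) for `C_S`**, unconditional, on any family of level subgroups which is downward
closed among the normal level subgroups (= `hgex` of `NormTrans11.recn`). -/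
theorem gexNorm (hp : p.Prime) (hp2 : p ≠ 2) (hpS : (⟨p, hp⟩ : Nat.Primes) ∈ S)
    (ℱ : Set (Subgroup Γ))
    (hdown : ∀ U ∈ ℱ, ∀ V ∈ (levelS S).sets, V.Normal → V ≤ U → V ∈ ℱ)
    (hsub : ℱ ⊆ (levelS S).sets) :
    Fermat.Agent.PT.PRO.HypPFund18.GexNorm (CS S).ρ ℱ p :=
  GexNorm15.gexNorm hp hp2 hpS (recNormForm p S) ℱ hdown hsub

/-- **(GEXnorm) for `C_S`**, unconditional, in the shape `GlobalHypP8.GexNormLevel`. -/
theorem gexNormLevel (hp : p.Prime) (hp2 : p ≠ 2) (hpS : (⟨p, hp⟩ : Nat.Primes) ∈ S) :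
    Fermat.Agent.PT.PRO.GlobalHypP8.GexNormLevel (CS S).ρ (levelS S).sets p :=
  GexNorm15.gexNormLevel hp hp2 hpS (recNormForm p S)

/-- **(GEXnorm) for `C_S`**, unconditional, on `GlobalHypP8.trivFam R (levelS S).sets`. -/
theorem gexNorm_trivFam (hp : p.Prime) (hp2 : p ≠ 2) (hpS : (⟨p, hp⟩ : Nat.Primes) ∈ S)
    {k : Type*} [CommRing k] {P1 P0 M : Type*} [AddCommGroup P1] [Module k P1]
    [AddCommGroup P0] [Module k P0] [AddCommGroup M] [Module k M]
    (R : Fermat.Agent.PT.PRO.IndRes20.Res k Γ P1 P0 M) :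
    Fermat.Agent.PT.PRO.HypPFund18.GexNorm (CS S).ρ
      (Fermat.Agent.PT.PRO.GlobalHypP8.trivFam R (levelS S).sets) p :=
  GexNorm15.gexNorm_trivFam hp hp2 hpS (recNormForm p S) R

/-- **(GEXnorm) for `C_S`**, unconditional, on the good subgroups of a representation. -/
theorem gexNorm_goodSet (hp : p.Prime) (hp2 : p ≠ 2) (hpS : (⟨p, hp⟩ : Nat.Primes) ∈ S)
    {k : Type*} [CommRing k] {Y : Type*} [AddCommGroup Y] [Module k Y]
    (ρ0 : Representation k Γ Y) :
    Fermat.Agent.PT.PRO.HypPFund18.GexNorm (CS S).ρ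
      (Fermat.Agent.PT.PRO.FundHyp12.goodSet (levelS S).sets ρ0) p :=
  GexNorm15.gexNorm_goodSet hp hp2 hpS (recNormForm p S) ρ0

end Fermat.Agent.PT.GLUE.GexNormFinal15
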