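/-
Program F (S55, Poitou–Tate), chapter GLUE, helper29.

`LocS2_29`: input (S2) of `PRO/HK20.forall_resH1_eq_zero_iff` (plan v4) in its exact shape, for the
concrete objects of `GLUE/Objects21`: for a prime `q`, with `r = localGaloisToGlobal q : Γ_q → Γ`
and `ev : I_{S,q} → ℚ̄_qˣ` evaluation at `1`, the change-of-group map on plain level cohomology

  `[φ] ↦ [ev ∘ φ ∘ (r × r)] : H²_lev(Γ, levelS S; I_{S,q}) → H²_lev(Γ_q, levelLoc q; ℚ̄_qˣ)`

is injective, and the analogous map on `H¹_lev` is bijective.  This is helper13's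
`LocI13.locI2_injective` / `locI1_bijective` (`LevelCoh28` model) transported to
`Resolved4.Hlev2` / `Hlev1` by `LevelEquiv29.h2Equiv_ppH2` / `h1Equiv_ppH1`.
Both `PairingRes1.resH_i` (helper1, used by `HK20`) and `PairingRes4.resHlev_i` (helper4) forms.
-/
import Mathlib
import Fermat.Agent.PT.GLUE.LocI13
import Fermat.Agent.PT.PRO.LevelEquiv29
import Fermat.Agent.PT.PRO.PairingRes1
import Fermat.Agent.PT.PRO.PairingRes4

set_option autoImplicit false

namespace Fermat.Agent.PT.GLUE.LocS2_29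

open Function
open Fermat.Agent.PT.PRO Fermat.Agent.PT.GLUE
open Fermat.Agent.PT.GLUE.Objects21 Fermat.Agent.PT.PRO.LevelEquiv29

/-! ### Generic transport: `LevelCohRes28.ppH_i` ⇝ `plainPHom … .mapH_i` -/

section Generic

universe u

variable {k G H : Type u} [CommRing k] [Group G] [Group H]
variable {𝓑G : LevelCoh28.LevelBasis G} {𝓑H : LevelCoh28.LevelBasis H}
variable (f : G →* H) {A : Rep.{u} k H} {B : Rep.{u} k G}
variable (hA : LevelCoh28.IsDiscrete 𝓑H.sets A) (hB : LevelCoh28.IsDiscrete 𝓑G.sets B)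
variable (φ : A →ₗ[k] B) (hφ : ∀ (g : G) (a : A), φ (A.ρ (f g) a) = B.ρ g (φ a))
variable (hf : LevelCohRes28.IsLevelHom f 𝓑G.sets 𝓑H.sets)

theorem mapH2_injective_of_ppH2 (h : Injective (LevelCohRes28.ppH2 f φ hφ hf)) :
    Injective (HyperRes25.plainPHom (isLevelHom_iff.1 hf) (basis 𝓑H) (basis 𝓑G) hA hB φ
      hφ).mapH2 := by
  intro x y hxy
  obtain ⟨x', rfl⟩ := (h2Equiv 𝓑H A hA).surjective x
  obtain ⟨y', rfl⟩ := (h2Equiv 𝓑H A hA).surjective y
  rw [← h2Equiv_ppH2 f hA hB φ hφ hf x', ← h2Equiv_ppH2 f hA hB φ hφ hf y'] at hxy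
  rw [h ((h2Equiv 𝓑G B hB).injective hxy)]

theorem mapH1_injective_of_ppH1 (h : Injective (LevelCohRes28.ppH1 f φ hφ hf)) :
    Injective (HyperRes25.plainPHom (isLevelHom_iff.1 hf) (basis 𝓑H) (basis 𝓑G) hA hB φ
      hφ).mapH1 := by
  intro x y hxy
  obtain ⟨x', rfl⟩ := (h1Equiv 𝓑H A hA).surjective x
  obtain ⟨y', rfl⟩ := (h1Equiv 𝓑H A hA).surjective y
  rw [← h1Equiv_ppH1 f hA hB φ hφ hf x', ← h1Equiv_ppH1 f hA hB φ hφ hf y'] at hxy
  rw [h ((h1Equiv 𝓑G B hB).injective hxy)]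

theorem mapH1_surjective_of_ppH1 (h : Surjective (LevelCohRes28.ppH1 f φ hφ hf)) :
    Surjective (HyperRes25.plainPHom (isLevelHom_iff.1 hf) (basis 𝓑H) (basis 𝓑G) hA hB φ
      hφ).mapH1 := by
  intro z
  obtain ⟨z', rfl⟩ := (h1Equiv 𝓑G B hB).surjective z
  obtain ⟨x', rfl⟩ := h z'
  exact ⟨h1Equiv 𝓑H A hA x', (h1Equiv_ppH1 f hA hB φ hφ hf x').symm⟩

theorem mapH2_surjective_of_ppH2 (h : Surjective (LevelCohRes28.ppH2 f φ hφ hf)) :
    Surjective (HyperRes25.plainPHom (isLevelHom_iff.1 hf) (basis 𝓑H) (basis 𝓑G) hA hB φ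
      hφ).mapH2 := by
  intro z
  obtain ⟨z', rfl⟩ := (h2Equiv 𝓑G B hB).surjective z
  obtain ⟨x', rfl⟩ := h z'
  exact ⟨h2Equiv 𝓑H A hA x', (h2Equiv_ppH2 f hA hB φ hφ hf x').symm⟩

end Generic

/-! ### The concrete localisation `(r_q, ev_q)` -/

local notation "Γ" => (AlgebraicClosure ℚ ≃ₐ[ℚ] AlgebraicClosure ℚ)

variable (S : Finset Nat.Primes) (q : ℕ) [Fact q.Prime]

/-- `localGaloisToGlobal q` is continuous for `levelLoc q`, `levelS S` (`HyperRes25` form). -/
theorem isLevelHom_loc :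
    HyperRes25.IsLevelHom (localGaloisToGlobal q) (levelLoc q).sets (levelS S).sets :=
  isLevelHom_iff.1 (LocI13.isLevelHom_levelLoc S q)

/-- Evaluation at `1`, `I_{S,q} → ℚ̄_qˣ`. -/
noncomputable abbrev evq : (ISq S q) →ₗ[ℤ] (unitsLoc q) :=
  SmCoind21.ev (localGaloisToGlobal q) (levelS S) (unitsLoc q)

theorem evq_ρ (h : PadicAlgCl q ≃ₐ[ℚ_[q]] PadicAlgCl q) (f : ISq S q) :
    evq S q ((ISq S q).ρ (localGaloisToGlobal q h) f) = (unitsLoc q).ρ h (evq S q f) :=
  SmCoind21.ev_ρ (localGaloisToGlobal q) (levelS S) (unitsLoc q) h f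

/-- The plain change-of-group morphism `(r_q, ev_q)` on level complexes. -/
noncomputable abbrev locHom :
    HyperLevel25.Cpx.Hom
      (HyperCompare25.plainCpx (basis (levelS S)) (ISq S q).ρ (isDiscrete_ISq S q))
      (HyperCompare25.plainCpx (basis (levelLoc q)) (unitsLoc q).ρ (isDiscrete_unitsLoc q)) :=
  HyperRes25.plainPHom (isLevelHom_loc S q) (basis (levelS S)) (basis (levelLoc q))
    (isDiscrete_ISq S q) (isDiscrete_unitsLoc q) (evq S q) (evq_ρ S q)

/-- **(S2), `plainPHom` form.** -/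
theorem locHom_mapH2_injective : Injective (locHom S q).mapH2 :=
  mapH2_injective_of_ppH2 (localGaloisToGlobal q) (isDiscrete_ISq S q) (isDiscrete_unitsLoc q)
    (evq S q) (evq_ρ S q) (LocI13.isLevelHom_levelLoc S q) (LocI13.locI2_injective S q)

/-- **Plain `H¹` version: bijective.** -/
theorem locHom_mapH1_bijective : Bijective (locHom S q).mapH1 :=
  ⟨mapH1_injective_of_ppH1 (localGaloisToGlobal q) (isDiscrete_ISq S q) (isDiscrete_unitsLoc q)
      (evq S q) (evq_ρ S q) (LocI13.isLevelHom_levelLoc S q) (LocI13.locI1_bijective S q).1,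
    mapH1_surjective_of_ppH1 (localGaloisToGlobal q) (isDiscrete_ISq S q) (isDiscrete_unitsLoc q)
      (evq S q) (evq_ρ S q) (LocI13.isLevelHom_levelLoc S q) (LocI13.locI1_bijective S q).2⟩

/-- **(S2) in the exact shape of `HK20.forall_resH1_eq_zero_iff`** (`PairingRes1.resH2`). -/
theorem resH2_injective :
    Injective (PairingRes1.resH2 (isLevelHom_loc S q) (basis (levelS S)) (basis (levelLoc q))
      (isDiscrete_ISq S q) (isDiscrete_unitsLoc q) (evq S q) (evq_ρ S q)) :=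
  locHom_mapH2_injective S q

/-- Plain `H¹`: `PairingRes1.resH1` along `(r_q, ev_q)` is bijective. -/
theorem resH1_bijective :
    Bijective (PairingRes1.resH1 (isLevelHom_loc S q) (basis (levelS S)) (basis (levelLoc q))
      (isDiscrete_ISq S q) (isDiscrete_unitsLoc q) (evq S q) (evq_ρ S q)) :=
  locHom_mapH1_bijective S q

/-- (S2), `PairingRes4.resHlev2` form. -/
theorem resHlev2_injective :
    Injective (PairingRes4.resHlev2 (isLevelHom_loc S q) (basis (levelS S)) (basis (levelLoc q))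
      (isDiscrete_ISq S q) (isDiscrete_unitsLoc q) (evq S q) (evq_ρ S q)) :=
  locHom_mapH2_injective S q

/-- Plain `H¹`, `PairingRes4.resHlev1` form. -/
theorem resHlev1_bijective :
    Bijective (PairingRes4.resHlev1 (isLevelHom_loc S q) (basis (levelS S)) (basis (levelLoc q))
      (isDiscrete_ISq S q) (isDiscrete_unitsLoc q) (evq S q) (evq_ρ S q)) :=
  locHom_mapH1_bijective S q

end Fermat.Agent.PT.GLUE.LocS2_29
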