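/-
Program F (S55, Poitou–Tate), sub-chapter GLUE, helper21: the `q`-component of `I_S` at a finite
level, for the local-global injectivity (LG):

* `thetaFix q K : Additive (K ⊗ ℚ_q)ˣ ≃+ (ISq S q)^{Gal(ℚ̄/K)}` (`= fixedSub K.U (ISq S q).ρ`),
  its `ℤ`-linear version `thetaFixLin`, equivariance `thetaFix_smul`;
* `inclq S q : ISq S q → IS S` (the inclusion of the `q`-component), `thetaS_mulSingle`;
* (v) `PhiHom_toCS_inclq`: `Φ_K [incl_q (θ_q u)] = locToCT S q u`.
-/
import Mathlib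
import Fermat.Agent.PT.GLUE.LevelCTHom21
import Fermat.Agent.PT.GLOB.InterfaceCF23

set_option autoImplicit false
set_option linter.unusedSectionVars false
set_option linter.style.haveILetI false

namespace Fermat.Agent.PT.GLUE.LevelTheta21

open scoped TensorProduct
open Fermat.Agent.PT.PRO.LevelCoh28 Fermat.Agent.PT.GLUE.SmCoind21
open Fermat.Agent.PT.GLUE.Objects21 Fermat.Agent.PT.GLUE.FiniteLevelI21
open Fermat.Agent.PT.GLUE.Levels21 Fermat.Agent.PT.GLUE.LevelCT21
open Fermat.Agent.PT.GLUE.LevelCTHom21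
open Fermat.Agent.PT.PRO.GlobalDuality20 Fermat.Agent.PT.PRO.HyperColim18
open Fermat.Agent.PT.GLOB

local notation "Qbar" => AlgebraicClosure ℚ
local notation "Γ" => (AlgebraicClosure ℚ ≃ₐ[ℚ] AlgebraicClosure ℚ)

local instance isAlgClosureQbarT21 : IsAlgClosure ℚ Qbar := ⟨inferInstance, inferInstance⟩
local instance normalQbarT21 : Normal ℚ Qbar := IsAlgClosure.normal ℚ Qbar
local instance isGaloisQbarT21 : IsGalois ℚ Qbar := IsAlgClosure.isGalois ℚ Qbar

variable {S : Finset Nat.Primes}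

/-! ### The `q`-component at level `K` -/

section Theta

variable (q : ↥S) (K : Lev S)

/-- `θ_q` takes values in the `Gal(ℚ̄/K)`-invariants. -/
theorem fixedBy_theta (u : Additive (Interface23.Loc K.F q.1)ˣ) :
    FixedBy (ISq S ((q : Nat.Primes) : ℕ)).ρ K.U (theta ((q : Nat.Primes) : ℕ) K.F S K.unr u) :=
  (ρ_eq_self_iff _ _).2 (theta_invOn ((q : Nat.Primes) : ℕ) K.F K.unr u)

/-- `θ_q` as a homomorphism into the invariants. -/
noncomputable def thetaFixHom : Additive (Interface23.Loc K.F q.1)ˣ →+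
    fixedSub K.U (ISq S ((q : Nat.Primes) : ℕ)).ρ :=
  (theta ((q : Nat.Primes) : ℕ) K.F S K.unr).codRestrict _ (fixedBy_theta q K)

theorem thetaFixHom_bijective : Function.Bijective (thetaFixHom q K) := by
  constructor
  · intro u v h
    exact theta_injective ((q : Nat.Primes) : ℕ) K.F K.unr (congrArg Subtype.val h)
  · rintro ⟨f, hf⟩
    obtain ⟨u, hu⟩ := theta_surjective_of_invOn ((q : Nat.Primes) : ℕ) K.F K.unr f
      ((ρ_eq_self_iff _ _).1 hf)
    exact ⟨u, Subtype.ext hu⟩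

/-- **`(K ⊗ ℚ_q)ˣ ≃ (ISq S q)^{Gal(ℚ̄/K)}`.** -/
noncomputable def thetaFix : Additive (Interface23.Loc K.F q.1)ˣ ≃+
    fixedSub K.U (ISq S ((q : Nat.Primes) : ℕ)).ρ :=
  AddEquiv.ofBijective (thetaFixHom q K) (thetaFixHom_bijective q K)

@[simp] theorem coe_thetaFix (u : Additive (Interface23.Loc K.F q.1)ˣ) :
    ((thetaFix q K u : fixedSub K.U (ISq S ((q : Nat.Primes) : ℕ)).ρ) :
      ISq S ((q : Nat.Primes) : ℕ)) = theta ((q : Nat.Primes) : ℕ) K.F S K.unr u := rfl

/-- Equivariance of `thetaFix`. -/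
theorem thetaFix_smul (g : Γ) (u : Additive (Interface23.Loc K.F q.1)ˣ) :
    thetaFix q K (Additive.ofMul (AlgEquiv.restrictNormalHom K.F g • Additive.toMul u)) =
      fixedRep K.U (ISq S ((q : Nat.Primes) : ℕ)).ρ (g : Γ ⧸ K.U) (thetaFix q K u) := by
  apply Subtype.ext
  rw [coe_thetaFix, fixedRep_mk, coe_thetaFix]
  exact theta_smul ((q : Nat.Primes) : ℕ) K.F K.unr g (Additive.toMul u)

/-- The `ℤ`-linear version of `thetaFix` (any `ℤ`-module structures). -/
noncomputable def thetaFixLin : Additive (Interface23.Loc K.F q.1)ˣ ≃ₗ[ℤ]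
    fixedSub K.U (ISq S ((q : Nat.Primes) : ℕ)).ρ :=
  { thetaFix q K with
    map_smul' := fun n u => map_intCast_smul (thetaFix q K) ℤ ℤ n u }

@[simp] theorem thetaFixLin_apply (u : Additive (Interface23.Loc K.F q.1)ˣ) :
    thetaFixLin q K u = thetaFix q K u := rfl

end Theta

/-! ### The inclusion of the `q`-component -/

section Inclq

variable (S) [DecidableEq ↥S] (q : ↥S)

/-- The inclusion `ISq S q → IS S` of the `q`-component. -/
noncomputable def inclq : Lin (ISq S ((q : Nat.Primes) : ℕ)) (IS S) :=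
  (ISequiv S).symm.toLinearMap ∘ₗ
    LinearMap.single ℤ (fun r : ↥S => ISq S ((r : Nat.Primes) : ℕ)) q

theorem ISequiv_inclq (x : ISq S ((q : Nat.Primes) : ℕ)) :
    ISequiv S (inclq S q x) =
      Pi.single (M := fun r : ↥S => ISq S ((r : Nat.Primes) : ℕ)) q x := by
  change ISequiv S ((ISequiv S).symm _) = _
  rw [LinearEquiv.apply_symm_apply]
  rfl

theorem inclq_ρ (g : Γ) (x : ISq S ((q : Nat.Primes) : ℕ)) :
    inclq S q ((ISq S ((q : Nat.Primes) : ℕ)).ρ g x) = (IS S).ρ g (inclq S q x) := by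
  apply (ISequiv S).injective
  funext r
  rw [ISequiv_ρ, ISequiv_inclq, ISequiv_inclq]
  by_cases h : r = q
  · subst h
    rw [Pi.single_eq_same, Pi.single_eq_same]
  · rw [Pi.single_eq_of_ne h, Pi.single_eq_of_ne h, map_zero]

theorem inclq_injective : Function.Injective (inclq S q) := by
  intro x y h
  have := congrFun (congrArg (ISequiv S) h) q
  rwa [ISequiv_inclq, ISequiv_inclq, Pi.single_eq_same, Pi.single_eq_same] at this

variable {S}

/-- `Θ_K` of an idele concentrated at `q` is the `q`-component `θ_q`. -/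
theorem thetaS_mulSingle (K : Lev S) (u : (Interface23.Loc K.F q.1)ˣ) :
    thetaS K.F K.unr (Additive.ofMul (Pi.mulSingle (M := fun r : ↥S => (Interface23.Loc K.F r.1)ˣ) q u)) =
      inclq S q (theta ((q : Nat.Primes) : ℕ) K.F S K.unr (Additive.ofMul u)) := by
  apply (ISequiv S).injective
  funext r
  rw [ISequiv_thetaS, ISequiv_inclq, toMul_ofMul]
  by_cases h : r = q
  · subst h
    rw [Pi.mulSingle_eq_same, Pi.single_eq_same]
  · rw [Pi.mulSingle_eq_of_ne h, Pi.single_eq_of_ne h, ofMul_one, map_zero]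

/-- The classes of the `q`-component are `Gal(ℚ̄/K)`-invariant. -/
theorem fixedBy_toCS_inclq (K : Lev S) (u : (Interface23.Loc K.F q.1)ˣ) :
    FixedBy (CS S).ρ K.U
      (toCS S (inclq S q (theta ((q : Nat.Primes) : ℕ) K.F S K.unr (Additive.ofMul u)))) := by
  rw [← thetaS_mulSingle]
  exact fixedBy_idCS K _

/-- **(v)** `Φ_K [incl_q (θ_q u)] = locToCT S q u`. -/
theorem PhiHom_toCS_inclq (hS : S.Nonempty) (K : Lev S) (u : (Interface23.Loc K.F q.1)ˣ)
    (hx : FixedBy (CS S).ρ K.U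
      (toCS S (inclq S q (theta ((q : Nat.Primes) : ℕ) K.F S K.unr (Additive.ofMul u))))) :
    PhiHom hS K ⟨_, hx⟩ = Additive.ofMul (InterfaceCF23.locToCT S q u) := by
  have h1 := PhiHom_idCS hS K (Pi.mulSingle (M := fun r : ↥S => (Interface23.Loc K.F r.1)ˣ) q u)
    (fixedBy_idCS K _)
  have h2 : (⟨_, hx⟩ : fixedSub K.U (CS S).ρ) = ⟨_, fixedBy_idCS K
      (Pi.mulSingle (M := fun r : ↥S => (Interface23.Loc K.F r.1)ˣ) q u)⟩ :=
    Subtype.ext (congrArg (toCS S) (thetaS_mulSingle q K u).symm)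
  rw [h2, h1]
  rfl

end Inclq

end Fermat.Agent.PT.GLUE.LevelTheta21
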