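/-
Program F (S55, Poitou–Tate), sub-chapter GLUE — helper27.  **(LG) local–global injectivity in the
limit** (plan v4): for `q ∈ S` the map

  `(toCS ∘ incl_q)_* : H²(Γ, levelS S; I_{S,q})[p] → H²(Γ, levelS S; C_S)`

is injective, from GLOB's finite-level statement `InterfaceCF23.LocalInjectivity p S` (L1).

Route (no map `(C_S)^{U_K} → C_S(K)` is needed): a level 1-cochain of `C_S = I_S / E_S` bounding
`toCS ∘ incl_q ∘ φ` is lifted to `I_S` (`LimitInj27.exists_level_lift`), so that at a finite level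
`K` one has `incl_q ∘ φ = d y + diag ∘ e` with `y` in `(I_S)^{U_K} = IT S K` (`thetaS`) and `e` in
`(E_S)^{U_K} = S`-units of `K` (`ESLevel27`); the `S`-units die in `CT S K`, whence
`locToCT ∘ φ = d (toCT ∘ y)` and L1 applies (`LimitInj27.finInjP_of_pushH`,
`LimitInj27.finInjLift_of_finInjP`, `LimitInj27.eq_zero_of_finLift`).
-/
import Mathlib
import Fermat.Agent.PT.PRO.LimitInj27
import Fermat.Agent.PT.GLUE.LevelQuot13
import Fermat.Agent.PT.GLUE.ESLevel27
import Fermat.Agent.PT.GLOB.InterfaceCF23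

set_option autoImplicit false
set_option linter.unusedSectionVars false

namespace Fermat.Agent.PT.GLUE.LocalGlobalLimit27

open scoped TensorProduct
open Fermat.Agent.PT.PRO.HyperLevel25 Fermat.Agent.PT.PRO.Resolved4
  Fermat.Agent.PT.PRO.HyperColim18 Fermat.Agent.PT.PRO.LimitInj27
open Fermat.Agent.PT.GLUE.Objects21 Fermat.Agent.PT.GLUE.FiniteLevelI21
  Fermat.Agent.PT.GLUE.Levels21 Fermat.Agent.PT.GLUE.LevelQuot13 Fermat.Agent.PT.GLUE.SmCoind21
  Fermat.Agent.PT.GLUE.ESLevel27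
open Fermat.Agent.PT.GLOB Fermat.Agent.PT.GLOB.Interface23 Fermat.Agent.PT.GLOB.ClassAction23
  Fermat.Agent.PT.GLOB.InterfaceCF23

local notation "Qbar" => AlgebraicClosure ℚ
local notation "Γ" => (AlgebraicClosure ℚ ≃ₐ[ℚ] AlgebraicClosure ℚ)

local instance isAlgClosureQbarLG27 : IsAlgClosure ℚ Qbar := ⟨inferInstance, inferInstance⟩
local instance normalQbarLG27 : Normal ℚ Qbar := IsAlgClosure.normal ℚ Qbar
local instance isGaloisQbarLG27 : IsGalois ℚ Qbar := IsAlgClosure.isGalois ℚ Qbar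

variable {S : Finset Nat.Primes}

/-! ### The invariants of `Gal(ℚ̄/K)` on `I_{S,q}` and `I_S` -/

section Fixed

variable (K : Lev S)

/-- `theta` with values in the `Gal(ℚ̄/K)`-invariants. -/
noncomputable def thetaFixHom (q : ↥S) :
    Additive (Loc K.F (q : Nat.Primes))ˣ →+
      fixedSub K.U (ISq S ((q : Nat.Primes) : ℕ)).ρ :=
  AddMonoidHom.mk' (fun u => ⟨theta ((q : Nat.Primes) : ℕ) K.F S K.unr u,
      (ρ_eq_self_iff _ _).2 (theta_invOn ((q : Nat.Primes) : ℕ) K.F K.unr u)⟩)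
    (fun u v => Subtype.ext (map_add _ u v))

theorem thetaFixHom_bijective (q : ↥S) : Function.Bijective (thetaFixHom K q) := by
  constructor
  · intro u v h
    exact theta_injective ((q : Nat.Primes) : ℕ) K.F K.unr (congrArg Subtype.val h)
  · intro x
    obtain ⟨u, hu⟩ := theta_surjective_of_invOn ((q : Nat.Primes) : ℕ) K.F K.unr x.1
      ((ρ_eq_self_iff _ _).1 x.2)
    exact ⟨u, Subtype.ext hu⟩

/-- **`(I_{S,q})^{Gal(ℚ̄/K)} = (K ⊗ ℚ_q)ˣ`.** -/
noncomputable def thetaFix (q : ↥S) :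
    Additive (Loc K.F (q : Nat.Primes))ˣ ≃+
      fixedSub K.U (ISq S ((q : Nat.Primes) : ℕ)).ρ :=
  AddEquiv.ofBijective (thetaFixHom K q) (thetaFixHom_bijective K q)

theorem coe_thetaFix (q : ↥S) (u : Additive (Loc K.F (q : Nat.Primes))ˣ) :
    ((thetaFix K q u : fixedSub K.U (ISq S ((q : Nat.Primes) : ℕ)).ρ) :
      ISq S ((q : Nat.Primes) : ℕ)) = theta ((q : Nat.Primes) : ℕ) K.F S K.unr u := rfl

theorem thetaFix_smul (q : ↥S) (g : Γ) (u : Additive (Loc K.F (q : Nat.Primes))ˣ) :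
    fixedRep K.U (ISq S ((q : Nat.Primes) : ℕ)).ρ (g : Γ ⧸ K.U) (thetaFix K q u) =
      thetaFix K q (Additive.ofMul (AlgEquiv.restrictNormalHom K.F g • Additive.toMul u)) := by
  apply Subtype.ext
  rw [fixedRep_mk, coe_thetaFix, coe_thetaFix]
  exact (theta_smul ((q : Nat.Primes) : ℕ) K.F K.unr g (Additive.toMul u)).symm

/-- `thetaS` with values in the `Gal(ℚ̄/K)`-invariants. -/
noncomputable def thetaSFixHom : Additive (IT S K.F) →+ fixedSub K.U (IS S).ρ :=
  AddMonoidHom.mk' (fun u => ⟨thetaS K.F K.unr u, fun _ hs => ρ_thetaS K.F K.unr u hs⟩)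
    (fun u v => Subtype.ext (map_add _ u v))

theorem thetaSFixHom_bijective : Function.Bijective (thetaSFixHom K) := by
  constructor
  · intro u v h
    exact thetaS_injective K.F K.unr (congrArg Subtype.val h)
  · intro x
    obtain ⟨u, hu⟩ := exists_thetaS_eq K.F K.unr x.1 x.2
    exact ⟨u, Subtype.ext hu⟩

/-- **`(I_S)^{Gal(ℚ̄/K)} = IT S K`.** -/
noncomputable def thetaSFix : Additive (IT S K.F) ≃+ fixedSub K.U (IS S).ρ :=
  AddEquiv.ofBijective (thetaSFixHom K) (thetaSFixHom_bijective K)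

theorem coe_thetaSFix (u : Additive (IT S K.F)) :
    ((thetaSFix K u : fixedSub K.U (IS S).ρ) : IS S) = thetaS K.F K.unr u := rfl

theorem thetaSFix_smul (g : Γ) (u : Additive (IT S K.F)) :
    fixedRep K.U (IS S).ρ (g : Γ ⧸ K.U) (thetaSFix K u) =
      thetaSFix K (Additive.ofMul (AlgEquiv.restrictNormalHom K.F g • Additive.toMul u)) := by
  apply Subtype.ext
  rw [fixedRep_mk, coe_thetaSFix, coe_thetaSFix]
  exact (thetaS_smul K.F K.unr g (Additive.toMul u)).symm

/-- `IT S K → CT S K`, `u ↦ [(u, 1)]`. -/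
noncomputable def itToCT : Additive (IT S K.F) →+ Additive (CT S K.F) :=
  MonoidHom.toAdditive ((toCT S K.F).comp (MonoidHom.inl (IT S K.F) (DivT S K.F)))

theorem itToCT_apply (u : Additive (IT S K.F)) :
    itToCT K u = Additive.ofMul (toCT S K.F (Additive.toMul u, 1)) := rfl

/-- **The map `(I_S)^{Gal(ℚ̄/K)} → CT S K`.** -/
noncomputable def cMap : fixedSub K.U (IS S).ρ →+ Additive (CT S K.F) :=
  (itToCT K).comp (thetaSFix K).symm.toAddMonoidHom

theorem cMap_thetaSFix (u : Additive (IT S K.F)) :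
    cMap K (thetaSFix K u) = Additive.ofMul (toCT S K.F (Additive.toMul u, 1)) := by
  change itToCT K ((thetaSFix K).symm (thetaSFix K u)) = _
  rw [AddEquiv.symm_apply_apply, itToCT_apply]

end Fixed

/-! ### The finite-level statement -/

section FiniteLevel

open CategoryTheory groupCohomology Fermat.Agent.PT.FG.Interface8

variable (K : Lev S)

/-- the inclusion of the `q`-factor, on the image of `theta` -/
theorem inc_theta (q : ↥S) (inc : ISq S ((q : Nat.Primes) : ℕ) →ₗ[ℤ] IS S)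
    (hsame : ∀ x, ISequiv S (inc x) q = x)
    (hne : ∀ x (q' : ↥S), q' ≠ q → ISequiv S (inc x) q' = 0) [DecidableEq ↥S]
    (u : Additive (Loc K.F (q : Nat.Primes))ˣ) :
    inc (theta ((q : Nat.Primes) : ℕ) K.F S K.unr u) =
      thetaS K.F K.unr (Additive.ofMul (Pi.mulSingle q (Additive.toMul u))) := by
  apply (ISequiv S).injective
  funext q'
  rw [ISequiv_thetaS, toMul_ofMul]
  by_cases h : q' = q
  · subst h
    rw [hsame, Pi.mulSingle_eq_same]
    rfl
  · rw [hne _ q' h, Pi.mulSingle_eq_of_ne h]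
    exact (map_zero (theta ((q' : Nat.Primes) : ℕ) K.F S K.unr)).symm

/-- **(LG) at a finite level**, in the raw form consumed by `LimitInj27.eq_zero_of_finLift`. -/
theorem finInjLift_level (p : ℕ) (q : ↥S) [DecidableEq ↥S]
    (hL1 : ∀ x : H2 (repLoc ℚ K.F (q : Nat.Primes)), p • x = 0 →
      pushH 2 (locToCTRep S ℚ K.F q) x = 0 → x = 0)
    (inc : ISq S ((q : Nat.Primes) : ℕ) →ₗ[ℤ] IS S)
    (hinc : ∀ g x, inc ((ISq S ((q : Nat.Primes) : ℕ)).ρ g x) = (IS S).ρ g (inc x))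
    (hsame : ∀ x, ISequiv S (inc x) q = x)
    (hne : ∀ x (q' : ↥S), q' ≠ q → ISequiv S (inc x) q' = 0) :
    FinInjLift (fixedRep K.U (ISq S ((q : Nat.Primes) : ℕ)).ρ) (fixedRep K.U (IS S).ρ)
      (fixedMap K.U (ISq S ((q : Nat.Primes) : ℕ)).ρ (IS S).ρ inc hinc)
      (fixedMap K.U (ES S).ρ (IS S).ρ (diag S) (diag_ρ S)) p := by
  have hP := finInjP_of_pushH (locToCTRep S ℚ K.F q) p hL1
  refine finInjLift_of_finInjP (eLev K) (thetaFix K q).symm ?_ (cMap K) ?_ ?_ ?_ hP
  · -- equivariance of `theta⁻¹`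
    intro g x
    induction g using QuotientGroup.induction_on with
    | H g =>
      obtain ⟨u, rfl⟩ := (thetaFix K q).surjective x
      rw [thetaFix_smul, AddEquiv.symm_apply_apply, AddEquiv.symm_apply_apply]
      rfl
  · -- equivariance of `cMap`
    intro g y
    induction g using QuotientGroup.induction_on with
    | H g =>
      obtain ⟨u, rfl⟩ := (thetaSFix K).surjective y
      rw [thetaSFix_smul]
      change cMap K (thetaSFix K _) = Additive.ofMul (AlgEquiv.restrictNormalHom K.F g •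
        Additive.toMul (cMap K (thetaSFix K u)))
      rw [cMap_thetaSFix, cMap_thetaSFix, toMul_ofMul, toMul_ofMul, smul_toCT, Prod.smul_mk,
        smul_one]
  · -- compatibility with the inclusion of the `q`-factor
    intro x
    obtain ⟨u, rfl⟩ := (thetaFix K q).surjective x
    have h1 : fixedMap K.U (ISq S ((q : Nat.Primes) : ℕ)).ρ (IS S).ρ inc hinc (thetaFix K q u) =
        thetaSFix K (Additive.ofMul (Pi.mulSingle q (Additive.toMul u))) := by
      apply Subtype.ext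
      rw [coe_fixedMap, coe_thetaFix, coe_thetaSFix]
      exact inc_theta K q inc hsame hne u
    rw [h1, AddEquiv.symm_apply_apply]
    change cMap K (thetaSFix K _) = Additive.ofMul (locToCT S q (Additive.toMul u))
    rw [cMap_thetaSFix, toMul_ofMul]
    rfl
  · -- the `S`-units die in `CT S K`
    intro b
    obtain ⟨x, hx⟩ := exists_esLevel_eq_of_fixed S K.F K.unr b.1 b.2
    have h1 : fixedMap K.U (ES S).ρ (IS S).ρ (diag S) (diag_ρ S) b =
        thetaSFix K (Additive.ofMul (diagI S K.F x.1)) := by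
      apply Subtype.ext
      rw [coe_fixedMap, coe_thetaSFix,
        thetaS_diagI K.F K.unr x.1 ((esLevel K.unr x : levelSub S K.F) : ESgroup S)
          (coe_coe_esLevel K.unr x), hx]
      rfl
    rw [h1]
    change cMap K (thetaSFix K _) = (0 : Additive (CT S K.F))
    rw [cMap_thetaSFix, toMul_ofMul]
    have h2 : (diagI S K.F x.1, (1 : DivT S K.F)) = diagJ S K.F x.1 := by
      have h3 : divT S K.F x.1 = 1 := x.2
      rw [diagJ, MonoidHom.prod_apply, h3]
    rw [h2]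
    have h4 : toCT S K.F (diagJ S K.F x.1) = 1 :=
      (QuotientGroup.eq_one_iff _).2 ⟨x.1, rfl⟩
    rw [h4]
    rfl

end FiniteLevel

/-! ### The limit -/

section Limit

open Fermat.Agent.PT.FG.Interface8

/-- **(LG) local–global injectivity in the limit**, in the literal shape of hypothesis `hLG` of
`HK20.forall_resH1_eq_zero_iff` (`t := toCS S`, `inc` any equivariant inclusion of the `q`-factor
of `I_S = ∏_q I_{S,q}`): from GLOB's `LocalInjectivity p S`. -/
theorem localGlobal_limit (p : ℕ) (hp : p.Prime) (hp2 : p ≠ 2) (hpS : ∃ q ∈ S, (q : ℕ) = p)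
    (hL1 : LocalInjectivity p S) (q : ↥S)
    (h𝒰 : IsLevelBasis (levelS S).sets)
    (hX : IsDiscrete (levelS S).sets (ISq S ((q : Nat.Primes) : ℕ)).ρ)
    (hI : IsDiscrete (levelS S).sets (IS S).ρ) (hC : IsDiscrete (levelS S).sets (CS S).ρ)
    (inc : ISq S ((q : Nat.Primes) : ℕ) →ₗ[ℤ] IS S)
    (hinc : ∀ g x, inc ((ISq S ((q : Nat.Primes) : ℕ)).ρ g x) = (IS S).ρ g (inc x))
    (hsame : ∀ x, ISequiv S (inc x) q = x)
    (hne : ∀ x (q' : ↥S), q' ≠ q → ISequiv S (inc x) q' = 0)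
    (w : Hlev2 h𝒰 (ISq S ((q : Nat.Primes) : ℕ)).ρ hX) (hpw : p • w = 0)
    (hw : (lvlHom h𝒰 hI hC (toCS S) (toCS_ρ S)).mapH2
      ((lvlHom h𝒰 hX hI inc hinc).mapH2 w) = 0) : w = 0 := by
  classical
  have hS : S.Nonempty := by
    obtain ⟨q₀, hq₀, -⟩ := hpS
    exact ⟨q₀, hq₀⟩
  have hE : IsDiscrete (levelS S).sets (ES S).ρ := fun b => isDiscrete_ES S b
  refine eq_zero_of_finLift h𝒰 (ISq S ((q : Nat.Primes) : ℕ)).ρ hX (IS S).ρ hI (ES S).ρ hE
    (CS S).ρ hC inc hinc (diag S) (diag_ρ S) (toCS S) (toCS_ρ S) p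
    (ℱ := {V | ∃ K : Lev S, K.U = V}) ?_ ?_ ?_ (diag_injective S hS) (toCS_surjective S)
    (fun x hx => (toCS_eq_zero_iff S x).1 hx) ?_ w hpw hw
  · rintro V ⟨K, rfl⟩
    exact K.U_mem
  · rintro V ⟨K, rfl⟩
    infer_instance
  · intro U hU
    obtain ⟨K, hK⟩ := exists_lev_le hU
    exact ⟨K.U, ⟨K, rfl⟩, hK⟩
  · rintro V ⟨K, rfl⟩
    exact finInjLift_level K p q
      (hL1 hp hp2 hpS K.F ((Fermat.Agent.PT.BR.UnramGlob13.isUnramifiedOutside_iff S K.F).1 K.unr)
        q) inc hinc hsame hne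

end Limit

end Fermat.Agent.PT.GLUE.LocalGlobalLimit27
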