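/-
Program F (S55, Poitou–Tate), sub-chapter GLUE — helper27.  (LG) instantiated at the standard
inclusions `LevelTheta21.inclq S q : I_{S,q} → I_S`: hypothesis `hLG` of
`HK20.forall_resH1_eq_zero_iff` for `ι := ↥S`, `Iq q := ISq S q`, `I := IS S`, `C := CS S`,
`t := toCS S`, `inc q := inclq S q`, from GLOB's `LocalInjectivity p S`.
-/
import Mathlib
import Fermat.Agent.PT.GLUE.LocalGlobalLimit27
import Fermat.Agent.PT.GLUE.LevelTheta21

set_option autoImplicit false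

namespace Fermat.Agent.PT.GLUE.LocalGlobalInst27

open Fermat.Agent.PT.PRO.HyperLevel25 Fermat.Agent.PT.PRO.Resolved4
open Fermat.Agent.PT.GLUE.Objects21 Fermat.Agent.PT.GLUE.LevelTheta21
open Fermat.Agent.PT.GLOB.InterfaceCF23 Fermat.Agent.PT.GLUE.LocalGlobalLimit27

variable (S : Finset Nat.Primes) [DecidableEq ↥S]

theorem ISequiv_inclq_same (q : ↥S) (x : ISq S ((q : Nat.Primes) : ℕ)) :
    ISequiv S (inclq S q x) q = x :=
  (congrFun (ISequiv_inclq S q x) q).trans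
    (Pi.single_eq_same (M := fun r : ↥S => ISq S ((r : Nat.Primes) : ℕ)) q x)

theorem ISequiv_inclq_ne (q : ↥S) (x : ISq S ((q : Nat.Primes) : ℕ)) (q' : ↥S) (hq' : q' ≠ q) :
    ISequiv S (inclq S q x) q' = 0 :=
  (congrFun (ISequiv_inclq S q x) q').trans
    (Pi.single_eq_of_ne (M := fun r : ↥S => ISq S ((r : Nat.Primes) : ℕ)) hq' x)

/-- **(LG)** in the literal shape of `hLG` of `HK20.forall_resH1_eq_zero_iff`, for the standard
inclusions `inclq S q`. -/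
theorem hLG_inclq (p : ℕ) (hp : p.Prime) (hp2 : p ≠ 2) (hpS : ∃ q ∈ S, (q : ℕ) = p)
    (hL1 : LocalInjectivity p S)
    (h𝒰 : IsLevelBasis (levelS S).sets)
    (hIq : ∀ q : ↥S, IsDiscrete (levelS S).sets (ISq S ((q : Nat.Primes) : ℕ)).ρ)
    (hI : IsDiscrete (levelS S).sets (IS S).ρ) (hC : IsDiscrete (levelS S).sets (CS S).ρ) :
    ∀ (q : ↥S) (w : Hlev2 h𝒰 (ISq S ((q : Nat.Primes) : ℕ)).ρ (hIq q)), p • w = 0 →
      (lvlHom h𝒰 hI hC (toCS S) (toCS_ρ S)).mapH2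
        ((lvlHom h𝒰 (hIq q) hI (inclq S q) (inclq_ρ S q)).mapH2 w) = 0 → w = 0 :=
  fun q w hpw hw =>
    localGlobal_limit p hp hp2 hpS hL1 q h𝒰 (hIq q) hI hC (inclq S q) (inclq_ρ S q)
      (ISequiv_inclq_same S q) (ISequiv_inclq_ne S q) w hpw hw

end Fermat.Agent.PT.GLUE.LocalGlobalInst27
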