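/-
Program F (S55, Poitou–Tate), sub-chapter GLUE, row 325 (local side), helper11.

`LocalSide11`: the FINITE LEVELS of the local datum `(Γ_q, levelLoc q, unitsLoc q)` (objects of
`GLUE/Objects21`).  For `F/ℚ_q` finite Galois inside `ℚ̄_q`, `V = Gal(ℚ̄_q/F)`:

* `galQuotEquiv F : Γ_q ⧸ V ≃* Gal(F/ℚ_q)`;
* `fixedUnitsEquiv F : Additive Fˣ ≃ₗ[ℤ] (ℚ̄_qˣ)^V` and the isomorphism of `Γ_q ⧸ V`-modules
  `fixedIso F : Res (unitsRep ℚ_q F) ≅ Rep.of (fixedRep V (unitsLoc q).ρ)`;
* `isFundClassFull_fixedRep F`: FG's class-formation hypotheses `Interface8.IsFundClassFull` for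
  `(Γ_q ⧸ V, (ℚ̄_qˣ)^V, locFund F)`, transported from LOC's `LCFFinal12.isFundClassFull_localFund`;
* `h1NoPTorsion_unitsLoc`: Hilbert 90 at finite levels in the raw shape `HyperColimP18.H1NoPTorsion`
  consumed by `DescendRes18.hypP_datum`;
* the same statements for an arbitrary normal member `V` of `(levelLoc q).sets`.
-/
import Mathlib
import Fermat.Agent.PT.GLUE.Objects21
import Fermat.Agent.PT.PRO.HyperColimP18
import Fermat.Agent.PT.PRO.LevelCompare13
import Fermat.Agent.PT.BR.InfGalois13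
import Fermat.Agent.PT.BR.LevelBridge13
import Fermat.Agent.PT.FG.FundClassTransferB2
import Fermat.Agent.PT.LOC.LCFFinal12

set_option autoImplicit false
set_option linter.unusedSectionVars false

open CategoryTheory groupCohomology

namespace Fermat.Agent.PT.GLUE.LocalSide11

open Fermat.Agent.PT.PRO Fermat.Agent.PT.GLUE.Objects21
open Fermat.Agent.PT.PRO.HyperColim18 Fermat.Agent.PT.PRO.HyperColimP18
open Fermat.Agent.PT.PRO.GlobalDuality20
open Fermat.Agent.PT.FG Fermat.Agent.PT.LOC.Interface12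

variable (q : ℕ) [Fact q.Prime]

local notation "Ω" => PadicAlgCl q
local notation "Γq" => (PadicAlgCl q ≃ₐ[ℚ_[q]] PadicAlgCl q)

local instance isAlgClosurePadic11 : IsAlgClosure ℚ_[q] Ω := ⟨inferInstance, inferInstance⟩
local instance isGaloisPadic11 : IsGalois ℚ_[q] Ω := IsAlgClosure.isGalois ℚ_[q] Ω

/-! ### The action on `unitsLoc q` -/

theorem unitsLoc_ρ_apply (g : Γq) (a : unitsLoc q) :
    (unitsLoc q).ρ g a = Additive.ofMul (g • Additive.toMul (α := Ωˣ) a) := rfl

theorem coe_unitsLoc_ρ (g : Γq) (a : unitsLoc q) :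
    ((Additive.toMul (α := Ωˣ) ((unitsLoc q).ρ g a) : Ωˣ) : Ω) =
      g ((Additive.toMul (α := Ωˣ) a : Ωˣ) : Ω) := rfl

/-- An element of `ℚ̄_qˣ` is fixed by `Gal(ℚ̄_q/F)` iff it lies in `F`. -/
theorem fixedBy_unitsLoc_iff (F : IntermediateField ℚ_[q] Ω) (a : unitsLoc q) :
    FixedBy (unitsLoc q).ρ F.fixingSubgroup a ↔
      ((Additive.toMul (α := Ωˣ) a : Ωˣ) : Ω) ∈ F := by
  constructor
  · intro h
    rw [← InfiniteGalois.fixedField_fixingSubgroup F, IntermediateField.mem_fixedField_iff]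
    intro s hs
    have := congrArg (fun b => ((Additive.toMul (α := Ωˣ) b : Ωˣ) : Ω)) (h s hs)
    exact this
  · intro h s hs
    apply Additive.toMul.injective
    apply Units.ext
    exact (IntermediateField.mem_fixingSubgroup_iff _ _).1 hs _ h

/-! ### Finite Galois levels -/

section Level

variable (F : IntermediateField ℚ_[q] (PadicAlgCl q)) [FiniteDimensional ℚ_[q] F]
  [IsGalois ℚ_[q] F]

instance normal_fixingSubgroup11 : F.fixingSubgroup.Normal :=
  IsGalois.fixingSubgroup_normal_of_isGalois F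

/-- `Γ_q ⧸ Gal(ℚ̄_q/F) ≃* Gal(F/ℚ_q)`. -/
noncomputable def galQuotEquiv : Γq ⧸ F.fixingSubgroup ≃* (F ≃ₐ[ℚ_[q]] F) :=
  QuotientGroup.liftEquiv F.fixingSubgroup (φ := AlgEquiv.restrictNormalHom F)
    (AlgEquiv.restrictNormalHom_surjective Ω) (F.restrictNormalHom_ker).symm

@[simp] theorem galQuotEquiv_mk (g : Γq) :
    galQuotEquiv q F (g : Γq ⧸ F.fixingSubgroup) = AlgEquiv.restrictNormalHom F g := rfl

/-- The inclusion `Fˣ → ℚ̄_qˣ`, additively. -/
noncomputable def unitsIncl : (unitsRep ℚ_[q] F).V →ₗ[ℤ] (unitsLoc q).V :=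
  (MonoidHom.toAdditive (Units.map ((F.val : ↥F →ₐ[ℚ_[q]] Ω) : ↥F →* Ω))).toIntLinearMap

theorem coe_unitsIncl (x : (unitsRep ℚ_[q] F).V) :
    ((Additive.toMul (α := Ωˣ) (unitsIncl q F x) : Ωˣ) : Ω) =
      (((Additive.toMul (α := (↥F)ˣ) x : (↥F)ˣ) : ↥F) : Ω) := rfl

theorem unitsIncl_mem (x : (unitsRep ℚ_[q] F).V) :
    unitsIncl q F x ∈ fixedSub F.fixingSubgroup (unitsLoc q).ρ := by
  rw [mem_fixedSub, fixedBy_unitsLoc_iff, coe_unitsIncl]
  exact SetLike.coe_mem _

/-- The inclusion `Fˣ → (ℚ̄_qˣ)^V`. -/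
noncomputable def fixedUnitsHom :
    (unitsRep ℚ_[q] F).V →ₗ[ℤ] ↥(fixedSub F.fixingSubgroup (unitsLoc q).ρ) :=
  LinearMap.codRestrict _ (unitsIncl q F) (unitsIncl_mem q F)

theorem fixedUnitsHom_bijective : Function.Bijective (fixedUnitsHom q F) := by
  constructor
  · intro x y h
    have h1 := congrArg (fun b : ↥(fixedSub F.fixingSubgroup (unitsLoc q).ρ) =>
      ((Additive.toMul (α := Ωˣ) (b : (unitsLoc q).V) : Ωˣ) : Ω)) h
    apply Additive.toMul.injective
    apply Units.ext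
    apply Subtype.ext
    exact h1
  · rintro ⟨a, ha⟩
    have hmem := (fixedBy_unitsLoc_iff q F a).1 ha
    refine ⟨Additive.ofMul (BR.InfGalois13.unitOfMem F (Additive.toMul (α := Ωˣ) a) hmem), ?_⟩
    apply Subtype.ext
    apply Additive.toMul.injective
    apply Units.ext
    rfl

/-- `Additive Fˣ ≃ₗ[ℤ] (ℚ̄_qˣ)^V`. -/
noncomputable def fixedUnitsEquiv :
    (unitsRep ℚ_[q] F).V ≃ₗ[ℤ] ↥(fixedSub F.fixingSubgroup (unitsLoc q).ρ) :=
  LinearEquiv.ofBijective (fixedUnitsHom q F) (fixedUnitsHom_bijective q F)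

theorem coe_fixedUnitsEquiv (x : (unitsRep ℚ_[q] F).V) :
    ((Additive.toMul (α := Ωˣ) ((fixedUnitsEquiv q F x :
      ↥(fixedSub F.fixingSubgroup (unitsLoc q).ρ)) : (unitsLoc q).V) : Ωˣ) : Ω) =
      (((Additive.toMul (α := (↥F)ˣ) x : (↥F)ˣ) : ↥F) : Ω) := rfl

/-- The finite-level module `(ℚ̄_qˣ)^V` as a `Γ_q ⧸ V`-module. -/
noncomputable abbrev fixedUnits : Rep.{0} ℤ (Γq ⧸ F.fixingSubgroup) :=
  Rep.of (fixedRep F.fixingSubgroup (unitsLoc q).ρ)

/-- The equivariance of `fixedUnitsEquiv`. -/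
noncomputable def fixedUnitsRepEquiv :
    Representation.Equiv (Rep.res (galQuotEquiv q F).toMonoidHom (unitsRep ℚ_[q] F)).ρ
      (fixedRep F.fixingSubgroup (unitsLoc q).ρ) :=
  Representation.Equiv.mk (fixedUnitsEquiv q F) (by
    intro g'
    induction g' using QuotientGroup.induction_on with
    | H g =>
      ext x
      apply Additive.toMul.injective
      apply Units.ext
      exact AlgEquiv.restrictNormal_commutes g F _)

/-- `Res (unitsRep ℚ_q F) ≅ (ℚ̄_qˣ)^V` as `Γ_q ⧸ V`-modules. -/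
noncomputable def fixedIso :
    Rep.res (galQuotEquiv q F).toMonoidHom (unitsRep ℚ_[q] F) ≅ fixedUnits q F :=
  Rep.mkIso (fixedUnitsRepEquiv q F)

end Level

/-! ### Transport of the full class-formation hypotheses -/

section Transport

open Fermat.Agent.PT.FG.FundClassTransferB2

/-- **Transport of `IsFundClassFull` along an isomorphism of pairs** (`e : G' ≃* G`,
`φ : Res_e C ≅ C'`); the `p`-primary version is `FundClassTransferB2.isFundClass_of_equiv`. -/
theorem isFundClassFull_of_equiv {G G' : Type} [Group G] [Group G'] (e : G' ≃* G) (C : Rep ℤ G)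
    (C' : Rep ℤ G') (φ : Rep.res e.toMonoidHom C ≅ C') (u : H2 C)
    (hu : Interface8.IsFundClassFull C u) :
    Interface8.IsFundClassFull C' (groupCohomology.map e.toMonoidHom φ.hom 2 u) := by
  have hcard : ∀ H' : Subgroup G', Nat.card (H'.map e.toMonoidHom) = Nat.card H' :=
    fun H' => (Nat.card_congr (imageEquiv e H').toEquiv).symm
  refine ⟨fun H' => ?_, fun H' => ?_, fun H' => ?_⟩
  · have := hu.h1 (H'.map e.toMonoidHom)
    exact (map_imageEquiv_bijective e C C' φ H' 1).2.subsingleton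
  · rw [← hcard H', ← hu.card (H'.map e.toMonoidHom)]
    exact (Nat.card_congr (Equiv.ofBijective _ (map_imageEquiv_bijective e C C' φ H' 2))).symm
  · rw [← hcard H', ← hu.order (H'.map e.toMonoidHom)]
    have hnat := congrArg (fun f => f.hom u) (map_equiv_res_comm e C C' φ H' 2)
    simp only [ModuleCat.hom_comp, LinearMap.coe_comp, Function.comp_apply] at hnat
    show addOrderOf ((groupCohomology.map H'.subtype (𝟙 (Rep.res H'.subtype C')) 2).hom
      ((groupCohomology.map e.toMonoidHom φ.hom 2).hom u)) = _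
    rw [hnat]
    exact addOrderOf_injective
      (groupCohomology.map (imageEquiv e H').toMonoidHom
        (resIso e C C' φ H').hom 2).hom.toAddMonoidHom
      (map_imageEquiv_bijective e C C' φ H' 2).1 _

end Transport

/-! ### The local fundamental classes at finite level -/

section Fund

variable (F : IntermediateField ℚ_[q] (PadicAlgCl q)) [FiniteDimensional ℚ_[q] F]
  [IsGalois ℚ_[q] F]

/-- The local fundamental class of `F/ℚ_q`, as a class of `(Γ_q ⧸ V, (ℚ̄_qˣ)^V)`. -/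
noncomputable def locFund : H2 (fixedUnits q F) :=
  groupCohomology.map (galQuotEquiv q F).toMonoidHom (fixedIso q F).hom 2
    (LOC.LCF12.localFund q ℚ_[q] F)

/-- **The finite levels of the local datum satisfy FG's class-formation hypotheses.** -/
theorem isFundClassFull_fixedUnits :
    Interface8.IsFundClassFull (fixedUnits q F) (locFund q F) :=
  isFundClassFull_of_equiv (galQuotEquiv q F) (unitsRep ℚ_[q] F) (fixedUnits q F) (fixedIso q F) _
    (LOC.LCFFinal12.isFundClassFull_localFund q ℚ_[q] F)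

theorem isFundClass_fixedUnits (p : ℕ) :
    Interface8.IsFundClass p (fixedUnits q F) (locFund q F) :=
  (isFundClassFull_fixedUnits q F).isFundClass p

end Fund

/-! ### Hilbert 90 at finite levels -/

section H90

/-- Members of `(levelLoc q).sets` are fixing subgroups of finite extensions of `ℚ_q`. -/
theorem exists_eq_fixingSubgroup_of_mem_levelLoc {V : Subgroup Γq}
    (hV : V ∈ (levelLoc q).sets) :
    ∃ E : IntermediateField ℚ_[q] Ω, FiniteDimensional ℚ_[q] E ∧ V = E.fixingSubgroup := by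
  obtain ⟨U, ⟨L, hL, hLU⟩, hUV⟩ := hV
  refine ⟨BR.LocInj13.localField q L, ?_, ?_⟩
  · have : FiniteDimensional ℚ L := hL
    infer_instance
  · rw [← hUV, ← hLU]
    exact BR.LevelBridge13.comap_fixingSubgroup_eq q L

/-- **Hilbert 90 at finite levels**: for `V' ≤ V`, `V'` a normal member of `levelLoc q`, every
1-cocycle of `V ⧸ V'` in `(ℚ̄_qˣ)^{V'}` is a coboundary (raw shape of `HyperColimP18`). -/
theorem isCoboundaryOn_unitsLoc (V V' : Subgroup Γq) (hV' : V' ∈ (levelLoc q).sets)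
    [V'.Normal] (hle : V' ≤ V) (v : Γq ⧸ V' → ↥(fixedSub V' (unitsLoc q).ρ))
    (hv : IsCocycleOn (fixedRep V' (unitsLoc q).ρ) (V.map (QuotientGroup.mk' V')) v) :
    IsCoboundaryOn (fixedRep V' (unitsLoc q).ρ) (V.map (QuotientGroup.mk' V')) v := by
  obtain ⟨E, hE, hVE⟩ := exists_eq_fixingSubgroup_of_mem_levelLoc q hV'
  have hmk : ∀ n ∈ V, ((n : Γq ⧸ V')) ∈ V.map (QuotientGroup.mk' V') := fun n hn => ⟨n, hn, rfl⟩
  let c : Γq → Ωˣ := fun g =>
    Additive.toMul (α := Ωˣ) ((v (g : Γq ⧸ V') : ↥(fixedSub V' (unitsLoc q).ρ)) : (unitsLoc q).V)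
  have hv1 : v 1 = 0 := by
    have h := hv 1 (Subgroup.one_mem _) 1 (Subgroup.one_mem _)
    rw [mul_one, map_one, Module.End.one_apply] at h
    exact left_eq_add.1 h |>.symm ▸ rfl
  obtain ⟨β, hβ⟩ := BR.InfGalois13.hilbert90_level V E c
    (fun g s hs => by
      have hs' : s ∈ V' := hVE ▸ hs
      show Additive.toMul (α := Ωˣ) ((v ((g * s : Γq) : Γq ⧸ V') :
        ↥(fixedSub V' (unitsLoc q).ρ)) : (unitsLoc q).V) = _
      rw [QuotientGroup.mk_mul_of_mem g hs'])
    (fun g => by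
      have h : FixedBy (unitsLoc q).ρ V' _ := (v (g : Γq ⧸ V')).2
      have h' : FixedBy (unitsLoc q).ρ E.fixingSubgroup
          ((v (g : Γq ⧸ V') : ↥(fixedSub V' (unitsLoc q).ρ)) : (unitsLoc q).V) :=
        fun s hs => h s (hVE ▸ hs)
      exact (fixedBy_unitsLoc_iff q E _).1 h')
    (fun n hn n' hn' => by
      have h := hv _ (hmk n hn) _ (hmk n' hn')
      have h2 := congrArg (fun b : ↥(fixedSub V' (unitsLoc q).ρ) =>
        Additive.toMul (α := Ωˣ) (b : (unitsLoc q).V)) h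
      exact h2)
  have hβfix : FixedBy (unitsLoc q).ρ V' (Additive.ofMul β) := by
    intro s hs
    have h1 := hβ s (hle hs)
    have h2 : c s = 1 := by
      show Additive.toMul (α := Ωˣ) ((v ((s : Γq) : Γq ⧸ V') :
        ↥(fixedSub V' (unitsLoc q).ρ)) : (unitsLoc q).V) = 1
      rw [(QuotientGroup.eq_one_iff s).2 hs, hv1]
      rfl
    rw [h2] at h1
    apply Additive.toMul.injective
    show s • β = β
    exact (div_eq_one.1 h1.symm)
  refine ⟨⟨Additive.ofMul β, hβfix⟩, ?_⟩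
  rintro _ ⟨n, hn, rfl⟩
  apply Subtype.ext
  apply Additive.toMul.injective
  exact hβ n hn

/-- The hypothesis `hH1` of `DescendRes18.hypP_datum` for the local datum. -/
theorem h1NoPTorsion_unitsLoc (V V' : Subgroup Γq) (hV' : V' ∈ (levelLoc q).sets)
    (hn : V'.Normal) (hle : V' ≤ V) (p : ℕ) :
    H1NoPTorsion (fixedRep V' (unitsLoc q).ρ) (V.map (QuotientGroup.mk' V')) p :=
  fun v hv _ => isCoboundaryOn_unitsLoc q V V' hV' hle v hv

end H90

/-! ### Arbitrary normal members of `levelLoc q` -/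

section Members

/-- A normal member of `(levelLoc q).sets` is `Gal(ℚ̄_q/E)` for a finite Galois `E/ℚ_q`. -/
theorem exists_isGalois_of_mem_levelLoc {V : Subgroup Γq} (hV : V ∈ (levelLoc q).sets)
    (hn : V.Normal) :
    ∃ E : IntermediateField ℚ_[q] Ω, FiniteDimensional ℚ_[q] E ∧ IsGalois ℚ_[q] E ∧
      V = E.fixingSubgroup := by
  obtain ⟨E, hE, rfl⟩ := exists_eq_fixingSubgroup_of_mem_levelLoc q hV
  exact ⟨E, hE, (InfiniteGalois.normal_iff_isGalois E).1 hn, rfl⟩

/-- **FG's class-formation hypotheses at every normal level of the local datum**: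
`(Γ_q ⧸ V, (ℚ̄_qˣ)^V)` carries a fundamental class. -/
theorem exists_isFundClassFull_of_mem_levelLoc {V : Subgroup Γq} (hV : V ∈ (levelLoc q).sets)
    [hn : V.Normal] :
    ∃ u : H2 (Rep.of (fixedRep V (unitsLoc q).ρ)),
      Interface8.IsFundClassFull (Rep.of (fixedRep V (unitsLoc q).ρ)) u := by
  obtain ⟨E, hE, hG, rfl⟩ := exists_isGalois_of_mem_levelLoc q hV hn
  exact ⟨locFund q E, isFundClassFull_fixedUnits q E⟩

/-- The `p`-primary form (what `tn02r_raw` consumes). -/
theorem exists_isFundClass_of_mem_levelLoc {V : Subgroup Γq} (hV : V ∈ (levelLoc q).sets)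
    [hn : V.Normal] (p : ℕ) :
    ∃ u : H2 (Rep.of (fixedRep V (unitsLoc q).ρ)),
      Interface8.IsFundClass p (Rep.of (fixedRep V (unitsLoc q).ρ)) u := by
  obtain ⟨u, hu⟩ := exists_isFundClassFull_of_mem_levelLoc q hV
  exact ⟨u, hu.isFundClass p⟩

/-- `Γ_q ⧸ V` is finite for `V ∈ levelLoc q`. -/
theorem finite_quotient_of_mem_levelLoc {V : Subgroup Γq} (hV : V ∈ (levelLoc q).sets) :
    Finite (Γq ⧸ V) := by
  have := (levelLoc q).isBasis.finiteIndex V hV
  exact Subgroup.finite_quotient_of_finiteIndex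

end Members

end Fermat.Agent.PT.GLUE.LocalSide11
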