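/-
Program F (S55, Poitou–Tate), sub-chapter GLUE, row 325 (local side), helper11.

`LocalHypR11`: the UNCONDITIONAL right-kernel hypotheses `RightKernel12.HypR` for the local datum
`(Γ_q, levelLoc q, unitsLoc q = ℚ̄_qˣ)` and any resolved module `P` (`Resolved4.Resolved`) with
`P₀` finitely generated free and `p • M = 0`:

* `toRes`, `toDatum_evalPairing`: `toDatum (evalPairing P ..) = (toRes P).datum ρC` (`rfl`);
* `trivLevels 𝒰 ρ0`: the normal members of `𝒰` acting trivially on `P₀`; cofinal when `P₀` is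
  finitely generated and discrete;
* `hypR_local`: `HypR (toDatum (evalPairing P ..)) (levelLoc q).sets (trivLevels ..) p`, from
  `RightKernel12.hypR_datum_of_TN02`, FG's `TN02Final3.tn02r_raw`, and `LocalSide11`
  (fundamental classes and Hilbert 90 at finite levels);
* `pair11_right_kernel_local`: the local pairing `ℍ¹(K(P; ℚ̄_qˣ)) × H¹(Γ_q, M) → H²(Γ_q, ℚ̄_qˣ)` has
  trivial right kernel.
-/
import Mathlib
import Fermat.Agent.PT.GLUE.LocalSide11
import Fermat.Agent.PT.PRO.RightKernel12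
import Fermat.Agent.PT.FG.TN02Final3

set_option autoImplicit false
set_option linter.unusedSectionVars false

namespace Fermat.Agent.PT.GLUE.LocalHypR11

open Fermat.Agent.PT.PRO Fermat.Agent.PT.PRO.HyperLevel25
open Fermat.Agent.PT.PRO.Resolved4 Fermat.Agent.PT.PRO.ExtPairing4 Fermat.Agent.PT.PRO.ExtPairingB4
open Fermat.Agent.PT.PRO.IndRes20 Fermat.Agent.PT.PRO.RightKernel12
open Fermat.Agent.PT.PRO.HyperColim18 Fermat.Agent.PT.PRO.HyperColimP18
open Fermat.Agent.PT.PRO.DescendRes18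
open Fermat.Agent.PT.GLUE.Objects21 Fermat.Agent.PT.GLUE.LocalSide11

/-! ### Generic adapters -/

section Generic

variable {k G : Type*} [CommRing k] [Group G] {𝒰 : Set (Subgroup G)}
variable {P1 P0 M C : Type*} [AddCommGroup P1] [Module k P1] [AddCommGroup P0] [Module k P0]
  [AddCommGroup M] [Module k M] [AddCommGroup C] [Module k C]

/-- The raw resolution (`IndRes20.Res`) underlying a resolved module. -/
def toRes (P : Resolved k 𝒰 P1 P0 M) : Res k G P1 P0 M where
  ρ1 := P.ρ1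
  ρ0 := P.ρ0
  ρM := P.ρM
  ι := P.ι
  ι_comm := P.ι_comm
  ι_inj := P.ι_inj
  π := P.π
  π_comm := P.π_comm
  π_surj := P.π_surj
  exact := fun x => P.exact x

/-- The pairing datum of the evaluation pairing of `K(P; C)` is `IndRes20.Res.datum`. -/
theorem toDatum_evalPairing (P : Resolved k 𝒰 P1 P0 M) [Module.Finite k P0] [Module.Finite k P1]
    (h𝒰 : IsLevelBasis 𝒰) (ρC : Representation k G C) (hC : IsDiscrete 𝒰 ρC) :
    toDatum (evalPairing P h𝒰 ρC hC) = (toRes P).datum ρC := rfl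

/-- The normal members of `𝒰` acting trivially on a module. -/
def trivLevels (𝒰 : Set (Subgroup G)) (ρ0 : Representation k G P0) : Set (Subgroup G) :=
  {V | V ∈ 𝒰 ∧ V.Normal ∧ ∀ s ∈ V, ∀ x, ρ0 s x = x}

theorem trivLevels_sub (ρ0 : Representation k G P0) : trivLevels 𝒰 ρ0 ⊆ 𝒰 := fun _ h => h.1

theorem trivLevels_normal (ρ0 : Representation k G P0) : ∀ V ∈ trivLevels 𝒰 ρ0, V.Normal :=
  fun _ h => h.2.1

theorem trivLevels_trivial (ρ0 : Representation k G P0) :
    ∀ V ∈ trivLevels 𝒰 ρ0, ∀ s ∈ V, ∀ x, ρ0 s x = x := fun _ h => h.2.2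

/-- For a finitely generated discrete module the levels acting trivially are cofinal. -/
theorem trivLevels_cofinal (h𝒰 : IsLevelBasis 𝒰) [Module.Finite k P0]
    {ρ0 : Representation k G P0} (h0 : IsDiscrete 𝒰 ρ0) :
    ∀ U ∈ 𝒰, ∃ V ∈ trivLevels 𝒰 ρ0, V ≤ U := by
  classical
  intro U hU
  obtain ⟨S, hS⟩ := (Module.Finite.fg_top : (⊤ : Submodule k P0).FG)
  choose W hW hWfix using h0
  obtain ⟨W₁, hW₁, hW₁le⟩ := h𝒰.exists_le_of_finite (fun s : S => W (s : P0)) (fun s => hW _)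
  obtain ⟨W₂, hW₂, hW₂le⟩ := h𝒰.inf W₁ hW₁ U hU
  obtain ⟨V, hV, hVle, hVn⟩ := h𝒰.normal W₂ hW₂
  refine ⟨V, ⟨hV, hVn, fun s hs => ?_⟩, hVle.trans (hW₂le.trans inf_le_right)⟩
  have h1 : ρ0 s = LinearMap.id := by
    apply LinearMap.ext_on_range (v := fun t : S => (t : P0))
    · rw [Subtype.range_coe_subtype]
      simpa using hS
    · intro t
      exact hWfix _ s (hW₁le t ((hW₂le (hVle hs)).1))
  intro x
  rw [h1, LinearMap.id_apply]

/-- `P₁` is finitely generated when `P₀` is (over a noetherian ring). -/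
theorem finite_P1 [IsNoetherianRing k] (P : Resolved k 𝒰 P1 P0 M) [Module.Finite k P0] :
    Module.Finite k P1 :=
  Module.Finite.of_injective P.ι P.ι_inj

/-- `P₁` is free when `P₀` is finitely generated free over a PID. -/
theorem free_P1 [IsDomain k] [IsPrincipalIdealRing k] (P : Resolved k 𝒰 P1 P0 M)
    [Module.Free k P0] [Module.Finite k P0] : Module.Free k P1 := by
  have := finite_P1 P
  have : Module.IsTorsionFree k P1 :=
    Function.Injective.moduleIsTorsionFree P.ι P.ι_inj (fun r m => map_smul P.ι r m)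
  infer_instance

end Generic

/-! ### The local datum -/

section Local

variable (q : ℕ) [Fact q.Prime]

local notation "Γq" => (PadicAlgCl q ≃ₐ[ℚ_[q]] PadicAlgCl q)

/-- `levelLoc q` as a level basis in the vocabulary of `HyperLevel25`. -/
theorem isLevelBasis_levelLoc : IsLevelBasis (levelLoc q).sets :=
  LevelCompare13.isLevelBasis_iff.1 (levelLoc q).isBasis

/-- `ℚ̄_qˣ` is discrete, in the vocabulary of `HyperLevel25`. -/
theorem isDiscrete_unitsLoc' : IsDiscrete (levelLoc q).sets (unitsLoc q).ρ :=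
  isDiscrete_unitsLoc q

variable {P1 P0 M : Type} [AddCommGroup P1] [Module ℤ P1] [AddCommGroup P0] [Module ℤ P0]
  [AddCommGroup M] [Module ℤ M]

/-- **The raw `(0,2)` Tate–Nakayama statement at every finite level of the local datum.** -/
theorem tn02r_local (R : Res ℤ Γq P1 P0 M) [Module.Free ℤ P0] [Module.Finite ℤ P0]
    [Module.Free ℤ P1] [Module.Finite ℤ P1] (p : ℕ) [Fact p.Prime]
    {V : Subgroup Γq} (hV : V ∈ (levelLoc q).sets) [V.Normal]
    (h0 : ∀ s ∈ V, ∀ x, R.ρ0 s x = x) [Fintype (Γq ⧸ V)] [DecidableEq (Γq ⧸ V)] :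
    @IndTN20.TN02rProp ℤ _ (Γq ⧸ V) _ ↥(indP1 (resQuot R V h0)) ↥(fixedSub V (unitsLoc q).ρ) _
      (Submodule.module _) _ (Submodule.module _)
      (indρ1 (resQuot R V h0)) (fixedRep V (unitsLoc q).ρ) p := by
  obtain ⟨u, hu⟩ := exists_isFundClass_of_mem_levelLoc q hV p
  have hfree : @Module.Free ℤ ↥(indP1 (resQuot R V h0)) _ _ (Submodule.module _) :=
    inferInstance
  have hfin : @Module.Finite ℤ ↥(indP1 (resQuot R V h0)) _ _ (Submodule.module _) :=
    inferInstance
  exact @FG.TN02Final3.tn02r_raw (Γq ⧸ V) _ ↥(indP1 (resQuot R V h0))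
    ↥(fixedSub V (unitsLoc q).ρ) _ (Submodule.module _) _ (Submodule.module _)
    (indρ1 (resQuot R V h0)) (fixedRep V (unitsLoc q).ρ) _ p _ hfree hfin u hu

/-- **`HypR` for the local datum `K(P; ℚ̄_qˣ)`, raw form** (`IndRes20.Res`). -/
theorem hypR_local_res (R : Res ℤ Γq P1 P0 M) [Module.Free ℤ P0] [Module.Finite ℤ P0]
    [Module.Free ℤ P1] [Module.Finite ℤ P1] (h0 : IsDiscrete (levelLoc q).sets R.ρ0)
    (p : ℕ) [hp : Fact p.Prime] (hpM : ∀ m : M, p • m = 0) :
    HypR (R.datum (unitsLoc q).ρ) (levelLoc q).sets (trivLevels (levelLoc q).sets R.ρ0) p :=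
  hypR_datum_of_TN02 R (unitsLoc q).ρ (isLevelBasis_levelLoc q) hp.out
    (fun m => (Nat.cast_smul_eq_nsmul ℤ p m).trans (hpM m))
    (isDiscrete_unitsLoc' q) (trivLevels_sub R.ρ0) (trivLevels_normal R.ρ0)
    (trivLevels_cofinal (isLevelBasis_levelLoc q) h0)
    (fun V hV => (isLevelBasis_levelLoc q).finiteIndex V hV.1)
    (trivLevels_trivial R.ρ0)
    (fun V hV => by
      have := hV.2.1
      intro _ _
      exact tn02r_local q R p hV.1 (trivLevels_trivial R.ρ0 V hV))
    (fun V _ V' hV' hn hle => h1NoPTorsion_unitsLoc q V V' hV' hn hle p)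

/-- **`HypR` for the local datum `K(P; ℚ̄_qˣ)`** of a resolved module `P` (`P₀` f.g. free,
`p • M = 0`), UNCONDITIONALLY. -/
theorem hypR_local (P : Resolved ℤ (levelLoc q).sets P1 P0 M) [Module.Free ℤ P0]
    [Module.Finite ℤ P0] [Module.Finite ℤ P1] (p : ℕ) [Fact p.Prime]
    (hpM : ∀ m : M, p • m = 0) :
    HypR (toDatum (evalPairing P (isLevelBasis_levelLoc q) (unitsLoc q).ρ
        (isDiscrete_unitsLoc' q)))
      (levelLoc q).sets (trivLevels (levelLoc q).sets P.ρ0) p := by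
  have := free_P1 P
  exact hypR_local_res q (toRes P) P.disc0 p hpM

/-- **The local pairing `ℍ¹(K(P; ℚ̄_qˣ)) × H¹(Γ_q, M) → H²(Γ_q, ℚ̄_qˣ)` has trivial right kernel.** -/
theorem pair11_right_kernel_local (P : Resolved ℤ (levelLoc q).sets P1 P0 M) [Module.Free ℤ P0]
    [Module.Finite ℤ P0] [Module.Finite ℤ P1] (p : ℕ) [Fact p.Prime]
    (hpM : ∀ m : M, p • m = 0)
    (x : Hlev1 (isLevelBasis_levelLoc q) P.ρM P.discM)
    (h : ∀ ξ, pair11 (evalPairing P (isLevelBasis_levelLoc q) (unitsLoc q).ρ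
      (isDiscrete_unitsLoc' q)) (isLevelBasis_levelLoc q) (isDiscrete_unitsLoc' q) ξ x = 0) :
    x = 0 :=
  pair11_right_kernel_r _ (isLevelBasis_levelLoc q) (isDiscrete_unitsLoc' q)
    (hypR_local q P p hpM) x h

end Local

end Fermat.Agent.PT.GLUE.LocalHypR11
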