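/-
Program F (S55), chapter GLUE, helper13.

The level bases of `BR/LevelBridge13` (used by `ShaBridge13.s55_of_level`, the final target) and of
`GLUE/Objects21` (used for `E_S`, `I_S`, `C_S`) coincide:

  `globalBasis S = levelS S`,  `pullBasis (localGaloisToGlobal q) = levelLoc q`,
  `pullBasisS (localGaloisToGlobal q) S = levelLocS q S`.
-/
import Mathlib
import Fermat.Agent.PT.GLUE.Objects21
import Fermat.Agent.PT.BR.LevelBridge13

set_option autoImplicit false

namespace Fermat.Agent.PT.GLUE.BasisCompare13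

open Fermat.Agent.PT.PRO.LevelCoh28 Fermat.Agent.PT.GLUE.Objects21 Fermat.Agent.PT.BR

theorem levelBasis_ext {G : Type} [Group G] {𝓑 𝓑' : LevelBasis G} (h : 𝓑.sets = 𝓑'.sets) :
    𝓑 = 𝓑' := by
  cases 𝓑
  cases 𝓑'
  cases h
  rfl

theorem globalSets_eq (S : Finset Nat.Primes) : LevelBridge13.globalSets S = levelSetS S := by
  ext U
  constructor <;> rintro ⟨F, hF, h⟩ <;> exact ⟨F, hF, h.symm⟩

theorem globalBasis_eq (S : Finset Nat.Primes) : LevelBridge13.globalBasis S = levelS S :=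
  levelBasis_ext (globalSets_eq S)

variable (q : ℕ) [Fact q.Prime]

theorem pullSets_eq : LevelBridge13.pullSets (localGaloisToGlobal q) = (levelLoc q).sets := by
  ext U
  constructor
  · rintro ⟨F, hF, rfl⟩
    exact ⟨_, ⟨F, hF, rfl⟩, rfl⟩
  · rintro ⟨_, ⟨F, hF, rfl⟩, rfl⟩
    exact ⟨F, hF, rfl⟩

theorem pullBasis_eq : LevelBridge13.pullBasis (localGaloisToGlobal q) = levelLoc q :=
  levelBasis_ext (pullSets_eq q)

theorem pullSetsS_eq (S : Finset Nat.Primes) :
    LevelBridge13.pullSetsS (localGaloisToGlobal q) S = (levelLocS q S).sets := by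
  ext U
  constructor
  · rintro ⟨F, hF, rfl⟩
    exact ⟨_, ⟨F, hF, rfl⟩, rfl⟩
  · rintro ⟨_, ⟨F, hF, rfl⟩, rfl⟩
    exact ⟨F, hF, rfl⟩

theorem pullBasisS_eq (S : Finset Nat.Primes) :
    LevelBridge13.pullBasisS (localGaloisToGlobal q) S = levelLocS q S :=
  levelBasis_ext (pullSetsS_eq q S)

/-- The same for the prelude's `primeLocalToGlobal` (a `Nat.Primes`-indexed wrapper). -/
theorem pullBasis_prime_eq (q : Nat.Primes) :
    LevelBridge13.pullBasis (ExtCitation.primeLocalToGlobal q) =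
      (levelLoc (q : ℕ) : LevelBasis (PadicAlgCl (q : ℕ) ≃ₐ[ℚ_[(q : ℕ)]] PadicAlgCl (q : ℕ))) :=
  pullBasis_eq (q : ℕ)

end Fermat.Agent.PT.GLUE.BasisCompare13
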