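/-
Program F (S55, Poitou–Tate), sub-chapter GLUE, row 325 (local side), helper11.

`LocalFund11`: the local datum `(Γ_q, levelLoc q, unitsLoc q)` has fundamental classes at all finite
levels, in the shape `FundHyp12.FundFixed` consumed by helper12's `FundHyp12`
(`pair11_right_kernel_of_fixed`, …).
-/
import Mathlib
import Fermat.Agent.PT.GLUE.LocalSide11
import Fermat.Agent.PT.PRO.FundHyp12

set_option autoImplicit false

namespace Fermat.Agent.PT.GLUE.LocalFund11

open Fermat.Agent.PT.PRO Fermat.Agent.PT.GLUE.Objects21 Fermat.Agent.PT.GLUE.LocalSide11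

variable (q : ℕ) [Fact q.Prime]

/-- **Fundamental classes at all finite levels of the local datum** (`FundHyp12.FundFixed`). -/
theorem fundFixed_unitsLoc (p : ℕ) :
    FundHyp12.FundFixed (unitsLoc q).ρ (levelLoc q).sets p := by
  intro V hV hn
  have := hn
  exact exists_isFundClass_of_mem_levelLoc q hV p

/-- **(RK)** for the local datum, through `FundHyp12`. -/
theorem rightKernelTrivial_local {P1 P0 M : Type} [AddCommGroup P1] [Module ℤ P1]
    [AddCommGroup P0] [Module ℤ P0] [AddCommGroup M] [Module ℤ M]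
    (P : Resolved4.Resolved ℤ (levelLoc q).sets P1 P0 M) [Module.Free ℤ P0] [Module.Finite ℤ P0]
    [Module.Free ℤ P1] [Module.Finite ℤ P1] (p : ℕ) [Fact p.Prime] (hpM : ∀ m : M, p • m = 0) :
    FundHyp12.RightKernelTrivial P (LevelCompare13.isLevelBasis_iff.1 (levelLoc q).isBasis)
      (unitsLoc q).ρ (isDiscrete_unitsLoc q) :=
  FundHyp12.pair11_right_kernel_of_fixed P _ _ _ hpM
    (FundHyp12.tnrFixed_of_fund _ (fundFixed_unitsLoc q p))
    (FundHyp12.h1Fixed_of_fund _ (fundFixed_unitsLoc q p))

end Fermat.Agent.PT.GLUE.LocalFund11
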