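/-
Program F (S55, Poitou–Tate), sub-chapter GLUE, helper2: (G1) UNCONDITIONAL.

`fundFixed_CS` (`FundLevel2`) with GLOB's (GCF') `FundClassExists6.fundClassExists` plugged in:
fundamental classes at all finite levels of `(Γ, levelS S, C_S)` for an odd prime `p ∈ S`.
-/
import Mathlib
import Fermat.Agent.PT.GLUE.FundLevel2
import Fermat.Agent.PT.GLOB.FundClassExists6

set_option autoImplicit false
set_option linter.unusedSectionVars false

namespace Fermat.Agent.PT.GLUE.FundLevelFinal2

open Fermat.Agent.PT.GLUE.Objects21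
open Fermat.Agent.PT.PRO.FundRaw18
open Fermat.Agent.PT.FG.Interface8
open groupCohomology

variable {S : Finset Nat.Primes}

/-- **(G1), unconditional**: for an odd prime `p ∈ S`, every finite level `(Γ ⧸ V, (C_S)^V)`
(`V` a normal member of `levelS S`) carries a fundamental class at `p`.
This is `FundHyp12.FundFixed (CS S).ρ (levelS S).sets p`, i.e. the hypothesis `hfund` of
`HypPFund18.hypPDatum_of_isFundClass` / `InvFund18`, unfolded. -/
theorem fundFixed_CS (p : ℕ) [hp : Fact p.Prime] (hp2 : p ≠ 2)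
    (hpS : (⟨p, hp.out⟩ : Nat.Primes) ∈ S) :
    ∀ V ∈ (levelS S).sets, ∀ hn : V.Normal, haveI := hn;
      ∃ u : H2 (fixedObj V (CS S).ρ), IsFundClass p (fixedObj V (CS S).ρ) u :=
  Fermat.Agent.PT.GLUE.FundLevel2.fundFixed_CS p hp2 hpS
    (Fermat.Agent.PT.GLOB.FundClassExists6.fundClassExists p S)

end Fermat.Agent.PT.GLUE.FundLevelFinal2
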