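/-
Program F (S55, Poitou–Tate), chapter GLUE, helper16: abstract part of (GEXnorm).

* `nrm_comp_equiv` : the norm `GlobalDuality20.nrm` is invariant under a group isomorphism;
* `relNrm_smul`, `relNrm_trans` : `N_{U/V} = N_{U/U'} ∘ N_{U'/V}` on `V`-fixed vectors
  (`V ≤ U' ≤ U`, `V` of finite index);
* `gex_shrink` : `N_{U'/V} C^V ⊆ r C^{U'}` and `U' ≤ U` imply `N_{U/V} C^V ⊆ r C^U`;
* `gex_abs` : `GexCore16.gex_core` for `(U', V)` followed by `gex_shrink` to `U ≥ U'`.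
-/
import Mathlib
import Fermat.Agent.PT.GLUE.GexCore16

set_option autoImplicit false

namespace Fermat.Agent.PT.GLUE.GexNormAbs16

open Fermat.Agent.PT.PRO.GlobalDuality20 Fermat.Agent.PT.PRO.NormTrans11
open Fermat.Agent.PT.PRO.HyperColim18

variable {k : Type*} [CommRing k] {Y : Type*} [AddCommGroup Y] [Module k Y]

section Equiv

variable {G₁ G₂ : Type*} [Group G₁] [Group G₂]

/-- The bijection of coset spaces induced by a group isomorphism. -/
noncomputable def quotCongr (φ : G₁ ≃* G₂) (V₂ : Subgroup G₂) :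
    G₁ ⧸ V₂.comap φ.toMonoidHom ≃ G₂ ⧸ V₂ :=
  Quotient.congr φ.toEquiv (fun a b => by
    rw [QuotientGroup.leftRel_apply, QuotientGroup.leftRel_apply, Subgroup.mem_comap]
    show φ (a⁻¹ * b) ∈ V₂ ↔ (φ a)⁻¹ * φ b ∈ V₂
    rw [map_mul, map_inv])

theorem quotCongr_mk (φ : G₁ ≃* G₂) (V₂ : Subgroup G₂) (g : G₁) :
    quotCongr φ V₂ (g : G₁ ⧸ V₂.comap φ.toMonoidHom) = ((φ g : G₂) : G₂ ⧸ V₂) := rfl

/-- The norm is invariant under a group isomorphism. -/
theorem nrm_comp_equiv (φ : G₁ ≃* G₂) (ρ₂ : Representation k G₂ Y) (V₂ : Subgroup G₂)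
    [Finite (G₂ ⧸ V₂)] {e : Y} (he : FixedBy ρ₂ V₂ e) :
    nrm (ρ₂.comp φ.toMonoidHom) (V₂.comap φ.toMonoidHom) e = nrm ρ₂ V₂ e := by
  have : Fintype (G₂ ⧸ V₂) := Fintype.ofFinite _
  have : Fintype (G₁ ⧸ V₂.comap φ.toMonoidHom) := Fintype.ofEquiv _ (quotCongr φ V₂).symm
  rw [nrm_eq_sum_out]
  have h2 : nrm ρ₂ V₂ e =
      ∑ q : G₂ ⧸ V₂, ρ₂ (φ (Quotient.out ((quotCongr φ V₂).symm q))) e := by
    refine nrm_eq_sum he _ (fun q => ?_)
    rw [← quotCongr_mk, QuotientGroup.out_eq', Equiv.apply_symm_apply]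
  rw [h2]
  exact Fintype.sum_equiv (quotCongr φ V₂) _ _ (fun q => by
    rw [Equiv.symm_apply_apply]; rfl)

end Equiv

variable {G : Type*} [Group G]

theorem relNrm_smul (ρ : Representation k G Y) (U V : Subgroup G) [V.FiniteIndex] (r : k)
    (e : Y) : relNrm ρ U V (r • e) = r • relNrm ρ U V e :=
  nrm_smul (ρ := ρ.comp U.subtype) (U := V.subgroupOf U) r e

/-- **Transitivity of relative norms**: `N_{U/V} = N_{U/U'} ∘ N_{U'/V}` on `V`-fixed vectors. -/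
theorem relNrm_trans (ρ : Representation k G Y) {U U' V : Subgroup G} (hU' : U' ≤ U)
    (hV : V ≤ U') [V.FiniteIndex] {e : Y} (he : FixedBy ρ V e) :
    relNrm ρ U V e = relNrm ρ U U' (relNrm ρ U' V e) := by
  have h1 : relNrm ρ U V e =
      relNrm ρ U U' (relNrm (ρ.comp U.subtype) (U'.subgroupOf U) (V.subgroupOf U) e) :=
    nrm_trans (ρ := ρ.comp U.subtype) (U := U'.subgroupOf U) (V := V.subgroupOf U)
      (fun g hg => hV hg) (fixedBy_comp_subtype he)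
  rw [h1]
  congr 1
  -- identify the inner relative norms through `U'.subgroupOf U ≃* U'`
  let φ : ↥(U'.subgroupOf U) ≃* ↥U' := Subgroup.subgroupOfEquivOfLe hU'
  have h2 := nrm_comp_equiv φ (ρ.comp U'.subtype) (V.subgroupOf U')
    (fixedBy_comp_subtype he)
  have hρ : (ρ.comp U.subtype).comp (U'.subgroupOf U).subtype =
      (ρ.comp U'.subtype).comp φ.toMonoidHom := MonoidHom.ext fun g => rfl
  have hV' : (V.subgroupOf U).subgroupOf (U'.subgroupOf U) =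
      (V.subgroupOf U').comap φ.toMonoidHom := Subgroup.ext fun g => Iff.rfl
  show nrm ((ρ.comp U.subtype).comp (U'.subgroupOf U).subtype)
    ((V.subgroupOf U).subgroupOf (U'.subgroupOf U)) e = nrm (ρ.comp U'.subtype) (V.subgroupOf U') e
  rw [hρ, hV']
  exact h2

/-- **Shrinking the top group** in (GEXnorm): if `N_{U'/V} C^V ⊆ p C^{U'}` and `U' ≤ U`, then
`N_{U/V} C^V ⊆ p C^U`. -/
theorem gex_shrink (ρ : Representation k G Y) {U U' V : Subgroup G} (hU' : U' ≤ U) (hV : V ≤ U')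
    [V.FiniteIndex] (r : k)
    (h : ∀ x, FixedBy ρ V x → ∃ x', FixedBy ρ U' x' ∧ relNrm ρ U' V x = r • x') :
    ∀ x, FixedBy ρ V x → ∃ x', FixedBy ρ U x' ∧ relNrm ρ U V x = r • x' := by
  intro x hx
  obtain ⟨x', hx', hxx'⟩ := h x hx
  have : U'.FiniteIndex := Subgroup.finiteIndex_of_le hV
  refine ⟨relNrm ρ U U' x', relNrm_fixed hx', ?_⟩
  rw [relNrm_trans ρ hU' hV hx, hxx', relNrm_smul]

/-- **Abstract (GEXnorm)** with shrinking: the chase `GexCore16.gex_core` for `V ≤ U'`, pushed up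
to any `U ≥ U'`. -/
theorem gex_abs {C : Type*} [AddCommGroup C] (ρ : Representation ℤ G C) (U U' V : Subgroup G)
    (hU' : U' ≤ U) (hVU : V ≤ U') [V.FiniteIndex]
    {AU AV : Type*} [CommGroup AU] [CommGroup AV]
    (ΦU : fixedSub U' ρ →+ Additive AU) (ΦV : fixedSub V ρ →+ Additive AV)
    (hΦU : Function.Injective ΦU)
    (incl : AU →* AV) (hincl : Function.Injective incl)
    (N : AV → AV)
    (htower : ∀ (x : C) (hx : FixedBy ρ U' x),
      ΦV ⟨x, hx.mono hVU⟩ = Additive.ofMul (incl (Additive.toMul (ΦU ⟨x, hx⟩))))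
    (hnorm : ∀ (x : C) (hx : FixedBy ρ V x),
      ΦV ⟨relNrm ρ U' V x, (relNrm_fixed hx).mono hVU⟩ =
        Additive.ofMul (N (Additive.toMul (ΦV ⟨x, hx⟩))))
    (p m : ℕ) (hpm : p.Coprime m)
    (hcap : ∀ a : AU, ∃ y : fixedSub U' ρ, ΦU y = Additive.ofMul (a ^ m))
    (hrec : ∀ c : AV, ∃ d : AU, N c = incl (d ^ p)) :
    ∀ x, FixedBy ρ V x → ∃ x', FixedBy ρ U x' ∧ relNrm ρ U V x = (p : ℤ) • x' :=
  gex_shrink ρ hU' hVU (p : ℤ)
    (GexCore16.gex_core ρ U' V hVU ΦU ΦV hΦU incl hincl N htower hnorm p m hpm hcap hrec)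

end Fermat.Agent.PT.GLUE.GexNormAbs16
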