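/-
Program F (S55, Poitou–Tate), sub-chapter GLUE, helper13 (leaf LEVQ (c) of helper21's plan):
GLOB's reciprocity in norm form `InterfaceCF23.RecNormForm p S` transported to the levels
`Lev S` inside `ℚ̄` (`Ω := ℚ̄` as algebraic closure of `K.F`, `M ↦ M.restrictScalars ℚ`).
-/
import Mathlib
import Fermat.Agent.PT.GLUE.LevelQuot13
import Fermat.Agent.PT.GLOB.InterfaceCF23

set_option autoImplicit false
set_option linter.unusedSectionVars false

namespace Fermat.Agent.PT.GLUE.LevelRec13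

open Fermat.Agent.PT.PRO.LevelCoh28 Fermat.Agent.PT.GLUE.Objects21
open Fermat.Agent.PT.GLUE.FiniteLevelI21 Fermat.Agent.PT.GLUE.Levels21
open Fermat.Agent.PT.GLOB

local notation "Qbar" => AlgebraicClosure ℚ
local notation "Γ" => (AlgebraicClosure ℚ ≃ₐ[ℚ] AlgebraicClosure ℚ)

variable {S : Finset Nat.Primes}

/-- Change of the `K`-algebra structure in the norm form. -/
theorem normForm_congr {K L : Type} [Field K] [Field L] [NumberField K] [NumberField L]
    (a b : Algebra K L) (hab : ∀ x, @algebraMap K L _ _ a x = @algebraMap K L _ _ b x) (p : ℕ)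
    (h : ∀ c : Interface23.CT S L, ∃ d : Interface23.CT S K,
      @InterfaceCF23.normCT S K L _ _ _ _ a c = @Tower23.inclCT S K L _ _ _ _ a (d ^ p)) :
    ∀ c : Interface23.CT S L, ∃ d : Interface23.CT S K,
      @InterfaceCF23.normCT S K L _ _ _ _ b c = @Tower23.inclCT S K L _ _ _ _ b (d ^ p) := by
  have hab' : a = b := Algebra.algebra_ext a b hab
  subst hab'
  exact h

theorem isUnramifiedOutside_rat_congr {L : Type} [Field L] (a b : Algebra ℚ L)
    (h : @Interface23.IsUnramifiedOutside S ℚ L _ _ a) :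
    @Interface23.IsUnramifiedOutside S ℚ L _ _ b := by
  have hab : a = b := Subsingleton.elim _ _
  subst hab
  exact h

theorem finiteDimensional_rat_congr {L : Type} [Field L] (a b : Module ℚ L)
    (h : @FiniteDimensional ℚ L _ _ a) : @FiniteDimensional ℚ L _ _ b := by
  have hab : a = b := Subsingleton.elim _ _
  subst hab
  exact h

/-- **(REC) at the levels**: for a level `K ⊇ μ_p` there is a level `L ⊇ K` all of whose norms
to `K` are (images of) `p`-th powers in `CT S K.F`. -/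
theorem recNormForm_lev (p : ℕ) (hrec : InterfaceCF23.RecNormForm p S) (hp : p.Prime)
    (hp2 : p ≠ 2) (hpS : ∃ q ∈ S, (q : ℕ) = p) (K : Lev S)
    (hζ : ∃ ζ : K.F, IsPrimitiveRoot ζ p) :
    ∃ (L : Lev S) (_ : Fact (K.F ≤ L.F)), ∀ c : Interface23.CT S L.F,
      ∃ d : Interface23.CT S K.F,
        InterfaceCF23.normCT S K.F L.F c = Tower23.inclCT S K.F L.F (d ^ p) := by
  have : IsAlgClosure ↥K.F Qbar :=
    ⟨inferInstance, Algebra.IsAlgebraic.tower_top (K := ℚ) ↥K.F⟩
  have hKgal : IsGalois ℚ ↥K.F := isGalois_rat_congr _ _ K.gal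
  obtain ⟨M, hNF, hGal, hunr, hnorm⟩ := hrec hp hp2 hpS ↥K.F Qbar
    (isUnramifiedOutside_rat_congr _ _
      ((Fermat.Agent.PT.BR.UnramGlob13.isUnramifiedOutside_iff S K.F).1 K.unr)) hζ
  have hfdM : FiniteDimensional ℚ ↥M := hNF.to_finiteDimensional
  let LF : IntermediateField ℚ Qbar := M.restrictScalars ℚ
  have hfd : FiniteDimensional ℚ ↥LF := finiteDimensional_rat_congr _ _ hfdM
  have hgal : IsGalois ℚ ↥LF := isGalois_rat_congr _ _ hGal
  have hunr' : Interface23.IsUnramifiedOutside S ℚ ↥LF := isUnramifiedOutside_rat_congr _ _ hunr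
  have hunrL : LF.IsUnramifiedOutside S :=
    (Fermat.Agent.PT.BR.UnramGlob13.isUnramifiedOutside_iff S LF).2 hunr'
  let L : Lev S := ⟨LF, hfd, hgal, hunrL⟩
  have hKL : K.F ≤ L.F := fun x hx => M.algebraMap_mem ⟨x, hx⟩
  refine ⟨L, ⟨hKL⟩, ?_⟩
  exact normForm_congr (S := S) (K := ↥K.F) (L := ↥L.F) _ _ (fun x => rfl) p hnorm

end Fermat.Agent.PT.GLUE.LevelRec13
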