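/-
Program F (S55, Poitou–Tate), sub-chapter GLUE, helper11.

`LocalRK11`: the local right-kernel statement **(RK)** in the wrapper shape
`MainWrap20.RKAt` consumed by `MainWrap20.card_sha2_eq_card_sha1`:

* `rkAt_local q R h0 h𝒰 hW p hpM : RKAt R h0 h𝒰 (unitsLoc q).ρ hW` for every raw resolution
  `R : IndRes20.Res ℤ Γ_q P1 P0 M` with `P₀` f.g. free and discrete, `P₁` f.g., `p • M = 0`;
* `rkAt_local_comap`: the same for `R.comap r` of a resolution over another group `G`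
  along `r : Γ_q →* G` (the shape `hRK` of `MainWrap20.card_sha2_eq_card_sha1`).

Both are UNCONDITIONAL (from `LocalHypR11.hypR_local_res` and `RightKernel12.pair11_right_kernel_r`).
-/
import Mathlib
import Fermat.Agent.PT.GLUE.LocalHypR11
import Fermat.Agent.PT.PRO.MainWrap20

set_option autoImplicit false
set_option linter.unusedSectionVars false

namespace Fermat.Agent.PT.GLUE.LocalRK11

open Fermat.Agent.PT.PRO Fermat.Agent.PT.PRO.HyperLevel25
open Fermat.Agent.PT.PRO.Resolved4 Fermat.Agent.PT.PRO.ExtPairing4 Fermat.Agent.PT.PRO.ExtPairingB4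
open Fermat.Agent.PT.PRO.IndRes20 Fermat.Agent.PT.PRO.RightKernel12
open Fermat.Agent.PT.PRO.Setup20 Fermat.Agent.PT.PRO.Objects20 Fermat.Agent.PT.PRO.HyperRes25
open Fermat.Agent.PT.GLUE.Objects21 Fermat.Agent.PT.GLUE.LocalSide11
open Fermat.Agent.PT.GLUE.LocalHypR11

variable (q : ℕ) [Fact q.Prime]

local notation "Γq" => (PadicAlgCl q ≃ₐ[ℚ_[q]] PadicAlgCl q)

variable {P1 P0 M : Type} [AddCommGroup P1] [Module ℤ P1] [AddCommGroup P0] [Module ℤ P0]
  [AddCommGroup M] [Module ℤ M]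

/-- **Local (RK), wrapper shape**: for a raw resolution `R` of a `p`-torsion `Γ_q`-module `M` by
f.g. modules with `P₀` free and discrete, the right kernel of
`pair11 : ℍ¹(K(P; ℚ̄_qˣ)) × H¹(Γ_q, M) → H²(Γ_q, ℚ̄_qˣ)` is trivial. -/
theorem rkAt_local (R : Res ℤ Γq P1 P0 M) [Module.Free ℤ P0] [Module.Finite ℤ P0]
    [Module.Finite ℤ P1] (h0 : IsDiscrete (levelLoc q).sets R.ρ0)
    (h𝒰 : IsLevelBasis (levelLoc q).sets) (hW : IsDiscrete (levelLoc q).sets (unitsLoc q).ρ)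
    (p : ℕ) [Fact p.Prime] (hpM : ∀ m : M, p • m = 0) :
    MainWrap20.RKAt R h0 h𝒰 (unitsLoc q).ρ hW := by
  have := free_P1 (toResolved R h0)
  intro x hx
  exact pair11_right_kernel_r (evP R h0 h𝒰 (unitsLoc q).ρ hW) h𝒰 hW
    (hypR_local_res q R h0 p hpM) x hx

/-- **Local (RK) for the restriction of a global resolution** along `r : Γ_q →* G`: the shape of the
hypothesis `hRK` of `MainWrap20.card_sha2_eq_card_sha1`. -/
theorem rkAt_local_comap {G : Type} [Group G] {𝒰 : Set (Subgroup G)} (R : Res ℤ G P1 P0 M)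
    [Module.Free ℤ P0] [Module.Finite ℤ P0] [Module.Finite ℤ P1] (h0 : IsDiscrete 𝒰 R.ρ0)
    (r : Γq →* G) (hr : IsLevelHom r (levelLoc q).sets 𝒰)
    (h𝒰 : IsLevelBasis (levelLoc q).sets) (hW : IsDiscrete (levelLoc q).sets (unitsLoc q).ρ)
    (p : ℕ) [Fact p.Prime] (hpM : ∀ m : M, p • m = 0) :
    MainWrap20.RKAt (R.comap r) (comap_disc0 R h0 r hr) h𝒰 (unitsLoc q).ρ hW :=
  rkAt_local q (R.comap r) (comap_disc0 R h0 r hr) h𝒰 hW p hpM

end Fermat.Agent.PT.GLUE.LocalRK11
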