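/-
Program F (S55, Poitou–Tate), sub-chapter GLUE, helper26: dictionary between the `Rep`-based product
`Objects21.piRep` (hence `IS S = ∏_q ISq S q`) and the unbundled `HyperProd25.piRep` used by
`ProdInst26` / `HyperProd25` / `PlainProd25`.  Everything is `rfl`.
-/
import Mathlib
import Fermat.Agent.PT.GLUE.Objects21
import Fermat.Agent.PT.PRO.HyperProd25

set_option autoImplicit false

namespace Fermat.Agent.PT.GLUE.ProdDict26

open Fermat.Agent.PT.GLUE.Objects21 Fermat.Agent.PT.PRO

section Dict

variable {k G : Type} [CommRing k] [Group G] {ι : Type} (A : ι → Rep.{0} k G)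

/-- **Dictionary**: the representation of `Objects21.piRep A` IS `HyperProd25.piRep` of the
component representations (on the same carrier `∀ i, A i`, with the same module structure). -/
theorem piRep_ρ_eq :
    ((Objects21.piRep A).ρ : Representation k G (∀ i, A i)) =
      HyperProd25.piRep (fun i => (A i).ρ) := rfl

theorem piRep_ρ_apply (g : G) (x : ∀ i, A i) (i : ι) :
    ((Objects21.piRep A).ρ g x : ∀ i, A i) i = (A i).ρ g (x i) := rfl

end Dict

section IS

variable (S : Finset Nat.Primes)

local notation "Γ" => (AlgebraicClosure ℚ ≃ₐ[ℚ] AlgebraicClosure ℚ)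

/-- `I_S` as a `HyperProd25.piRep`. -/
theorem IS_ρ_eq :
    ((IS S).ρ : Representation ℤ Γ (∀ q : ↥S, ISq S ((q : Nat.Primes) : ℕ))) =
      HyperProd25.piRep (fun q : ↥S => (ISq S ((q : Nat.Primes) : ℕ)).ρ) := rfl

/-- The components of `I_S` are discrete in the `HyperLevel25` sense. -/
theorem isDiscrete_ISq_ρ (q : ↥S) :
    HyperLevel25.IsDiscrete (levelS S).sets (ISq S ((q : Nat.Primes) : ℕ)).ρ :=
  fun a => isDiscrete_ISq S ((q : Nat.Primes) : ℕ) a

/-- `I_S` is discrete in the `HyperLevel25` sense. -/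
theorem isDiscrete_IS_ρ : HyperLevel25.IsDiscrete (levelS S).sets (IS S).ρ :=
  fun a => isDiscrete_IS S a

/-- `ISequiv` is the identity on the common carrier. -/
theorem ISequiv_apply (x : IS S) (q : ↥S) :
    ISequiv S x q = (x : ∀ q : ↥S, ISq S ((q : Nat.Primes) : ℕ)) q := rfl

end IS

end Fermat.Agent.PT.GLUE.ProdDict26
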