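import Mathlib
import Fermat.Agent.PT.GLUE.RelNrmGalois16
import Fermat.Agent.PT.GLUE.LevelCTHom21

set_option autoImplicit false
set_option linter.unusedSectionVars false

namespace Fermat.Agent.PT.GLUE.RelNrmPhi16

open Fermat.Agent.PT.GLUE.Levels21 Fermat.Agent.PT.GLUE.Objects21
open Fermat.Agent.PT.GLUE.LevelCTHom21 Fermat.Agent.PT.GLUE.RelNrmGalois16
open Fermat.Agent.PT.PRO.GlobalDuality20 Fermat.Agent.PT.PRO.NormTrans11
open Fermat.Agent.PT.PRO.HyperColim18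
open Fermat.Agent.PT.GLOB

local notation "Qbar" => AlgebraicClosure ℚ
local notation "Γ" => (AlgebraicClosure ℚ ≃ₐ[ℚ] AlgebraicClosure ℚ)

local instance isAlgClosureQbarRP16 : IsAlgClosure ℚ Qbar := ⟨inferInstance, inferInstance⟩
local instance normalQbarRP16 : Normal ℚ Qbar := IsAlgClosure.normal ℚ Qbar
local instance isGaloisQbarRP16 : IsGalois ℚ Qbar := IsAlgClosure.isGalois ℚ Qbar

variable {S : Finset Nat.Primes}

/-- `RelNrmGalois16.map_relNrm` for an ARBITRARY `Module ℤ C` instance. -/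
theorem map_relNrm' (K L : Lev S) [Fact (K.F ≤ L.F)] {C : Type*} [AddCommGroup C]
    [inst : Module ℤ C] (ρ : Representation ℤ Γ C)
    (Ψ : fixedSub L.U ρ →+ Additive (Interface23.CT S L.F))
    (hΨ : ∀ (g : Γ) (x : C) (hx : FixedBy ρ L.U x),
      Ψ ⟨ρ g x, fixedBy_apply ρ g hx⟩ =
        Additive.ofMul (galAct L g (Additive.toMul (Ψ ⟨x, hx⟩))))
    (x : C) (hx : FixedBy ρ L.U x) :
    Ψ ⟨relNrm ρ K.U L.U x, (relNrm_fixed hx).mono (U_le K L)⟩ =
      Additive.ofMul (InterfaceCF23.normCT S K.F L.F (Additive.toMul (Ψ ⟨x, hx⟩))) := by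
  obtain rfl : inst = AddCommGroup.toIntModule C := Subsingleton.elim _ _
  exact map_relNrm K L ρ Ψ hΨ x hx

/-- **(vi) norm compatibility of `Φ`**: `Φ_L (N_{U_K/U_L} x) = N_{L/K} (Φ_L x)`. -/
theorem PhiHom_relNrm (hS : S.Nonempty) (K L : Lev S) [Fact (K.F ≤ L.F)] (x : CS S)
    (hx : FixedBy (CS S).ρ L.U x) :
    PhiHom hS L ⟨relNrm (CS S).ρ K.U L.U x, (relNrm_fixed hx).mono (U_le K L)⟩ =
      Additive.ofMul (InterfaceCF23.normCT S K.F L.F (Additive.toMul (PhiHom hS L ⟨x, hx⟩))) :=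
  map_relNrm' K L (CS S).ρ (PhiHom hS L)
    (fun g x hx => PhiHom_smul hS L g x hx _) x hx

end Fermat.Agent.PT.GLUE.RelNrmPhi16
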