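/-
Program F (S55, Poitou–Tate), sub-chapter GLUE, helper12.

`RkAtLocal12`: the local right kernel **(RK)** in the wrapper shape `MainWrap20.RKAt` consumed by
`MainWrap20.card_sha2_eq_card_sha1`, UNCONDITIONALLY, for the local datum
`(Γ_q, levelLoc q, unitsLoc q = ℚ̄_qˣ)` and any raw resolution `R : IndRes20.Res ℤ Γ_q P₁ P₀ M` with
`P₀` discrete, finitely generated free, `P₁` finitely generated, and `p • M = 0`.

It is a one-liner from helper11's `LocalHypR11.pair11_right_kernel_local`.  The proofs `h𝒰`, `hW` are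
arbitrary (proof irrelevance), so the statement unifies with whatever the consumer carries.
-/
import Mathlib
import Fermat.Agent.PT.GLUE.LocalHypR11
import Fermat.Agent.PT.PRO.MainWrap20

set_option autoImplicit false

namespace Fermat.Agent.PT.GLUE.RkAtLocal12

open Fermat.Agent.PT.PRO Fermat.Agent.PT.PRO.HyperLevel25
open Fermat.Agent.PT.PRO.Resolved4 Fermat.Agent.PT.PRO.IndRes20 Fermat.Agent.PT.PRO.Setup20
open Fermat.Agent.PT.PRO.Objects20 Fermat.Agent.PT.PRO.HyperRes25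
open Fermat.Agent.PT.GLUE.Objects21 Fermat.Agent.PT.GLUE.LocalHypR11

variable (q : ℕ) [Fact q.Prime]

local notation "Γq" => (PadicAlgCl q ≃ₐ[ℚ_[q]] PadicAlgCl q)

variable {P1 P0 M : Type} [AddCommGroup P1] [Module ℤ P1] [AddCommGroup P0] [Module ℤ P0]
  [AddCommGroup M] [Module ℤ M]

/-- **Local (RK), wrapper shape.**  For every raw resolution `R` of `M` over `Γ_q` with `P₀` discrete
f.g. free, `P₁` f.g., and `p • M = 0`, the pairing
`ℍ¹(K(P; ℚ̄_qˣ)) × H¹(Γ_q, M) → H²(Γ_q, ℚ̄_qˣ)` has trivial right kernel. -/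
theorem rkAt_local (R : Res ℤ Γq P1 P0 M) (h0 : IsDiscrete (levelLoc q).sets R.ρ0)
    [Module.Free ℤ P0] [Module.Finite ℤ P0] [Module.Finite ℤ P1]
    (h𝒰 : IsLevelBasis (levelLoc q).sets) (hW : IsDiscrete (levelLoc q).sets (unitsLoc q).ρ)
    (p : ℕ) [Fact p.Prime] (hpM : ∀ m : M, p • m = 0) :
    MainWrap20.RKAt R h0 h𝒰 (unitsLoc q).ρ hW :=
  fun x h => pair11_right_kernel_local q (toResolved R h0) p hpM x h

/-- The same for the restriction `R.comap f` of a resolution over a group `G` along a level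
homomorphism `f : Γ_q →* G` — the literal shape of `hRK` in
`MainWrap20.card_sha2_eq_card_sha1`. -/
theorem rkAt_local_comap {G : Type} [Group G] {𝒰 : Set (Subgroup G)} (R : Res ℤ G P1 P0 M)
    (h0 : IsDiscrete 𝒰 R.ρ0) [Module.Free ℤ P0] [Module.Finite ℤ P0] [Module.Finite ℤ P1]
    (f : Γq →* G) (hf : IsLevelHom f (levelLoc q).sets 𝒰)
    (h𝒰 : IsLevelBasis (levelLoc q).sets) (hW : IsDiscrete (levelLoc q).sets (unitsLoc q).ρ)
    (p : ℕ) [Fact p.Prime] (hpM : ∀ m : M, p • m = 0) :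
    MainWrap20.RKAt (R.comap f) (comap_disc0 R h0 f hf) h𝒰 (unitsLoc q).ρ hW :=
  rkAt_local q (R.comap f) (comap_disc0 R h0 f hf) h𝒰 hW p hpM

end Fermat.Agent.PT.GLUE.RkAtLocal12
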