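/-
Program F (S55, Poitou–Tate), sub-chapter GLUE, helper21.

Bridge between the two (simultaneously written) smooth coinductions:
`GLUE.SmCoind21.smCoind φ 𝓑 A` (used by the objects `ISq`, `IS` of `Objects21`) and
`PRO.SmoothCoind28.scoind φ 𝓑 A` (for which helper28 proved Shapiro's lemma in `ShapiroLevel28`).
They have the same underlying functions; `bridge` is the equivariant linear equivalence.
-/
import Mathlib
import Fermat.Agent.PT.GLUE.SmCoind21
import Fermat.Agent.PT.PRO.SmoothCoind28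

set_option autoImplicit false
set_option linter.unusedSectionVars false

namespace Fermat.Agent.PT.GLUE.SmCoindBridge21

open Fermat.Agent.PT.PRO.LevelCoh28 Fermat.Agent.PT.GLUE.SmCoind21
open Fermat.Agent.PT.PRO.SmoothCoind28

variable {k G H : Type} [CommRing k] [Group G] [Group H]
variable (φ : H →* G) (𝓑 : LevelBasis G) (A : Rep.{0} k H)

/-- From `smCoind` to `scoind`. -/
noncomputable def toScoind : smCoind φ 𝓑 A →ₗ[k] scoind φ 𝓑 A where
  toFun f := ⟨toFun φ 𝓑 A f, fun h g => toFun_equivariant f h g, toFun_isLevel f⟩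
  map_add' _ _ := rfl
  map_smul' _ _ := rfl

@[simp] theorem toScoind_val (f : smCoind φ 𝓑 A) : (toScoind φ 𝓑 A f).1 = toFun φ 𝓑 A f := rfl

/-- From `scoind` to `smCoind`. -/
noncomputable def ofScoind : scoind φ 𝓑 A →ₗ[k] smCoind φ 𝓑 A where
  toFun f := mk φ 𝓑 A f.1 (scoind_equivariant φ 𝓑 A f) (scoind_isLevel φ 𝓑 A f)
  map_add' f f' := by
    ext g
    rw [toFun_add, toFun_mk, toFun_mk, toFun_mk]
    rfl
  map_smul' c f := by
    ext g
    rw [toFun_smul, toFun_mk, toFun_mk]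
    rfl

@[simp] theorem toFun_ofScoind (f : scoind φ 𝓑 A) : toFun φ 𝓑 A (ofScoind φ 𝓑 A f) = f.1 := rfl

/-- **The two smooth coinductions are the same module.** -/
noncomputable def bridge : smCoind φ 𝓑 A ≃ₗ[k] scoind φ 𝓑 A :=
  LinearEquiv.ofLinearMap (toScoind φ 𝓑 A) (ofScoind φ 𝓑 A)
    (by
      ext f
      rfl)
    (by
      ext f g
      rfl)

@[simp] theorem bridge_val (f : smCoind φ 𝓑 A) : (bridge φ 𝓑 A f).1 = toFun φ 𝓑 A f := rfl

@[simp] theorem toFun_bridge_symm (f : scoind φ 𝓑 A) :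
    toFun φ 𝓑 A ((bridge φ 𝓑 A).symm f) = f.1 := rfl

/-- The bridge is `G`-equivariant. -/
theorem bridge_ρ (γ : G) (f : smCoind φ 𝓑 A) :
    bridge φ 𝓑 A ((smCoind φ 𝓑 A).ρ γ f) = (scoind φ 𝓑 A).ρ γ (bridge φ 𝓑 A f) := by
  apply Subtype.ext
  funext g
  rw [bridge_val, toFun_ρ, scoind_ρ_apply, bridge_val]

theorem bridge_symm_ρ (γ : G) (f : scoind φ 𝓑 A) :
    (bridge φ 𝓑 A).symm ((scoind φ 𝓑 A).ρ γ f) = (smCoind φ 𝓑 A).ρ γ ((bridge φ 𝓑 A).symm f) := by
  apply (bridge φ 𝓑 A).injective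
  rw [LinearEquiv.apply_symm_apply, bridge_ρ, LinearEquiv.apply_symm_apply]

/-- Evaluation at `1` corresponds. -/
theorem ev_bridge (f : smCoind φ 𝓑 A) :
    Fermat.Agent.PT.PRO.SmoothCoind28.ev φ 𝓑 A (bridge φ 𝓑 A f) =
      Fermat.Agent.PT.GLUE.SmCoind21.ev φ 𝓑 A f := rfl

end Fermat.Agent.PT.GLUE.SmCoindBridge21
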